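import Fermat.Agent.TwoAdic.Geometry.Maps
import Fermat.Agent.SemistableRed.NormMaps
import Fermat.Agent.SemistableRed.PoleFacts
import Fermat.Agent.HeckeJ0.Inputs

/-!
# Push-forward after pullback on `J₀`

Push-forwards after pullbacks on the Jacobians of `X₀(M)` and `X₀(M q)`: the degree of the second
degeneracy map, and the Hecke operator at `q`.
-/

set_option autoImplicit false
set_option linter.unusedSectionVars false

noncomputable section

open AlgebraicCurve ModularCurve

namespace Fermat.Agent.TwoAdic.Geometry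

open SemistableRed

local notation "Qbar" => AlgebraicClosure ℚ

section Generic

variable {K F F' F'' : Type*} [Field K] [IsAlgClosed K] [Field F] [Field F'] [Field F'']
  [Algebra K F] [Algebra K F'] [Algebra K F''] [FunctionFieldRR.IsFunctionField K F]
  [FunctionFieldRR.IsFunctionField K F'] [FunctionFieldRR.IsFunctionField K F'']

theorem pushforwardAlong_single_one (ψ : F →ₐ[K] F') (hψ : ψ.toRingHom.IsIntegral)
    (w : Place K F') (n : ℤ) :
    Divisor.pushforwardAlong ψ hψ (Finsupp.single w n) =
      Finsupp.single (w.restrictAlong ψ hψ) n := by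
  rw [Divisor.pushforwardAlong_single, HeckeJ0.inertiaDegAlong_eq_one hψ
    (fun v => FunctionFieldRR.deg_eq_one v) (fun v => FunctionFieldRR.deg_eq_one v), Nat.cast_one,
    mul_one]

/-- The push-forward of a pullback is multiplication by the degree. -/
theorem pushforwardAlong_pullbackAlong [HasPrincipalDivisors K F'] (ψ : F →ₐ[K] F')
    (hψ : ψ.toRingHom.IsIntegral) (D : Divisor K F) :
    Divisor.pushforwardAlong ψ hψ (Divisor.pullbackAlong ψ hψ D) =
      (finrankAlong K ψ : ℤ) • D := by
  induction D using Finsupp.induction with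
  | zero => simp
  | single_add v n D _ _ ih =>
    rw [map_add, map_add, smul_add, ih]
    refine congrArg (· + _) ?_
    have hdeg := Divisor.degree_pullbackAlong ψ hψ
      (FunctionFieldRR.fundamentalIdentityAlong ψ hψ (FunctionFieldRR.finiteAlong ψ))
      (Finsupp.single v n)
    rw [← Divisor.degree_pushforwardAlong ψ hψ, Divisor.pullbackAlong_single, map_sum] at hdeg
    rw [Divisor.pullbackAlong_single, map_sum]
    have hsum : ∀ W ∈ Place.fiberAlong ψ hψ v, Divisor.pushforwardAlong ψ hψ
        (Finsupp.single W (n * W.ramificationIndexAlong ψ)) =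
          Finsupp.single v (n * (W.ramificationIndexAlong ψ : ℤ)) := fun W hW => by
      rw [pushforwardAlong_single_one, Place.mem_fiberAlong.mp hW]
    rw [Finset.sum_congr rfl hsum, ← Finsupp.single_finsetSum] at hdeg ⊢
    rw [Divisor.degree_single, Divisor.degree_single, FunctionFieldRR.deg_eq_one, Nat.cast_one,
      mul_one, mul_one] at hdeg
    rw [hdeg, Finsupp.smul_single, smul_eq_mul]

/-- Push-forwards of divisors compose. -/
theorem pushforwardAlong_comp (ψ : F →ₐ[K] F') (χ : F' →ₐ[K] F'') (E : Divisor K F'') :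
    Divisor.pushforwardAlong (χ.comp ψ) (HeckeJ0.isIntegral_of_isFunctionField (χ.comp ψ)) E =
      Divisor.pushforwardAlong ψ (HeckeJ0.isIntegral_of_isFunctionField ψ)
        (Divisor.pushforwardAlong χ (HeckeJ0.isIntegral_of_isFunctionField χ) E) := by
  induction E using Finsupp.induction with
  | zero => simp
  | single_add w n E _ _ ih =>
    rw [map_add, map_add, map_add, ih, pushforwardAlong_single_one, pushforwardAlong_single_one,
      pushforwardAlong_single_one, restrictAlong_comp]

/-- The degree of an isomorphism. -/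
theorem finrankAlong_algEquiv (e : F ≃ₐ[K] F) : finrankAlong K e.toAlgHom = 1 := by
  rw [← AlgHom.comp_id e.toAlgHom, finrankAlong_comp_algEquiv]
  exact Module.finrank_self F

/-- The push-forward on divisor classes along an embedding of function fields. -/
def pushPic' (ψ : F →ₐ[K] F') : Pic0 K F' →+ Pic0 K F :=
  pushPic ψ (HeckeJ0.isIntegral_of_isFunctionField ψ) (FunctionFieldRR.finiteAlong ψ)
    (FunctionFieldRR.normFormulaAlong ψ _)

/-- Push-forward after pullback is multiplication by the degree. -/
theorem pushPic'_pullPic (ψ : F →ₐ[K] F') (x : Pic0 K F) :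
    pushPic' ψ (pullPic ψ x) = finrankAlong K ψ • x := by
  have := FunctionFieldRR.hasPrincipalDivisors (K := K) (F := F')
  obtain ⟨D, rfl⟩ := Pic0.mk_surjective x
  rw [pullPic_mk, pushPic', pushPic_mk]
  show _ = Pic0.mk (finrankAlong K ψ • D)
  refine congrArg Pic0.mk (Subtype.ext ?_)
  show Divisor.pushforwardAlong ψ (HeckeJ0.isIntegral_of_isFunctionField ψ)
    (Divisor.pullbackAlong ψ (HeckeJ0.isIntegral_of_isFunctionField ψ) D.1) = _
  rw [pushforwardAlong_pullbackAlong, AddSubgroup.coe_nsmul, natCast_zsmul]

/-- Push-forwards compose. -/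
theorem pushPic'_comp (ψ : F →ₐ[K] F') (χ : F' →ₐ[K] F'') (x : Pic0 K F'') :
    pushPic' (χ.comp ψ) x = pushPic' ψ (pushPic' χ x) := by
  obtain ⟨D, rfl⟩ := Pic0.mk_surjective x
  simp only [pushPic', pushPic_mk]
  exact congrArg Pic0.mk (Subtype.ext (pushforwardAlong_comp ψ χ D.1))

/-- Pushing forward along a twist of `ψ` undoes the pullback of the twist. -/
theorem pushPic'_comp_pullPic (ψ : F →ₐ[K] F') (e : F' ≃ₐ[K] F') (x : Pic0 K F') :
    pushPic' (e.toAlgHom.comp ψ) (pullPic e.toAlgHom x) = pushPic' ψ x := by
  rw [pushPic'_comp, pushPic'_pullPic, finrankAlong_algEquiv, one_nsmul]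

end Generic

section Levels

variable {M q N : ℕ} [NeZero M] [NeZero q] [NeZero N]

/-- The norm map is the push-forward. -/
theorem normMap_eq_pushPic'
    (ψ : ↥(modularFunctionFieldBar M) →ₐ[Qbar] ↥(modularFunctionFieldBar (M * q))) :
    normMap M q ψ = (have := isFunctionField_bar M; have := isFunctionField_bar (M * q)
      pushPic' ψ) := rfl

/-- The norm along the second degeneracy map after its pullback is `q + 1`. -/
theorem normMap_beta_pullBeta (hq : q.Prime) (hqM : ¬ q ∣ M) (u : JZero M) :
    normMap M q (heckeBetaBar Qbar M q) (pullPic (heckeBetaBar Qbar M q) u) = (q + 1) • u := by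
  have := isFunctionField_bar M
  have := isFunctionField_bar (M * q)
  rw [normMap_eq_pushPic', pushPic'_pullPic, finrankAlong_beta hq hqM]

/-- The norm along `β` after the inclusion is the Hecke operator at `q`. -/
theorem normMap_beta_resPic [Fact q.Prime] (hq : q.Prime) (hqM : ¬ q ∣ M) (u : JZero M) :
    normMap M q (heckeBetaBar Qbar M q) (resPic (dvd_mul_right M q) u) =
      heckeOperatorBar M ⟨q, hq⟩ u := by
  have := isFunctionField_bar M
  have := isFunctionField_bar (M * q)
  have := HeckeJ0.hasPrincipalDivisors_bar (M * q)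
  have hβ : heckeBetaBar Qbar M q =
      (wq hq hqM).toAlgHom.comp (heckeAlphaBar Qbar M q) :=
    AlgHom.ext fun y => (wq_heckeAlphaBar hq hqM y).symm
  have key : resPic (dvd_mul_right M q) u =
      pullPic (wq hq hqM).toAlgHom (pullPic (heckeBetaBar Qbar M q) u) := by
    rw [← alPic_resPic hq hqM]
    exact (alPic_alPic hq hqM _).symm
  rw [key, normMap_eq_pushPic', heckeOperatorBar_apply, HeckeJ0.heckeOperatorAlong_bar_eq]
  conv_lhs => arg 1; rw [hβ]
  rw [pushPic'_comp_pullPic]
  obtain ⟨D, rfl⟩ := Pic0.mk_surjective u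
  rw [pullPic_mk, Pic0.correspondence_mk]
  rfl

/-- The norm along `β`, from level `N = M q`. -/
theorem normMap_betaPic (hq : q.Prime) (hqM : ¬ q ∣ M) (h : M * q = N) (u : JZero M) :
    normMap M q (heckeBetaBar Qbar M q) (resPic (dvd_of_eq h.symm)
      (resPic (dvd_of_eq h) (pullPic (heckeBetaBar Qbar M q) u))) = (q + 1) • u := by
  rw [resPic_resPic, ← normMap_beta_pullBeta hq hqM u]
  exact congrArg _ ((congrArg (fun φ => pullPic φ _)
    (AlgHom.ext fun y => Subtype.ext (coe_inclBar _ y))).trans (pullPic_id _))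

/-- The norm along `β` of the inclusion, from level `N = M q`. -/
theorem normMap_inclPic [Fact q.Prime] (hq : q.Prime) (hqM : ¬ q ∣ M) (h : M * q = N)
    (u : JZero M) :
    normMap M q (heckeBetaBar Qbar M q) (resPic (dvd_of_eq h.symm)
      (resPic (Dvd.intro q h) u)) = heckeOperatorBar M ⟨q, hq⟩ u := by
  rw [resPic_resPic]
  exact normMap_beta_resPic hq hqM u

end Levels

end Fermat.Agent.TwoAdic.Geometry

end
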