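import Fermat.Prelude.Def_ModularCurve_ArithmeticGalois
import Fermat.Prelude.Def_ModularCurve_X0ModL

/-!
# Instance shortcuts for the function fields of modular curves

Scoped abbreviations of instances whose search is expensive and is repeated in every statement
about these function fields and their Jacobians.
-/

set_option autoImplicit false

noncomputable section

open AlgebraicCurve ModularCurve

namespace Fermat.Agent.TwoAdic.Geometry

/-- The algebra structure of the function field over `ℚ̄`. -/
scoped instance (priority := high) algebraFieldBar (N : ℕ) :
    Algebra (AlgebraicClosure ℚ) (modularFunctionFieldBar N) := SubalgebraClass.toAlgebra _

/-- The algebra structure of the function field over a field of constants. -/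
scoped instance (priority := high) algebraFieldFullC {k : Type} [Field k] {N : ℕ} :
    Algebra k (modularFunctionFieldFullC k N) := SubalgebraClass.toAlgebra _

end Fermat.Agent.TwoAdic.Geometry

end
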