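import Fermat.Agent.HeckeEigen.EigenBound
import Fermat.Agent.HeckeJ0.TorsionModel
import Fermat.Agent.EigenSystems.Periods
import Fermat.Agent.MWJ0.DivisibleAll
import Fermat.Agent.HeckeEigen.QCoeff
import Fermat.Agent.TwoAdic.Geometry.Instances

/-!
# `T_ℓ - z` is surjective on torsion for large `z`

`T_ℓ - z` with `|z| ≥ ℓ + 1` is surjective on the `p`-power torsion of `J₀(N)`: its determinant on
the lattice is non-zero by the strict bound for eigenvalues.
-/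

set_option autoImplicit false

noncomputable section

open AlgebraicCurve ModularCurve CongruenceSubgroup Matrix
open scoped MatrixGroups

namespace Fermat.Agent.TwoAdic.Geometry

open HeckeJ0 HeckeModule EigenSystems

variable {N : ℕ} [NeZero N]

/-- `T_ℓ - z` is onto on forms. -/
theorem exists_heckeTLin_sub_smul {ℓ : ℕ} (hℓ : ℓ.Prime) (hℓN : ¬ ℓ ∣ N) {z : ℂ}
    (hz : (ℓ : ℝ) + 1 ≤ ‖z‖) (a : CuspForm (Gamma0 N) 2) :
    ∃ b, CuspForm.heckeTLin 2 hℓ hℓN b - z • b = a := by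
  have := HeckeEigen.finiteDimensional_cuspForm N 2
  let L : CuspForm (Gamma0 N) 2 →ₗ[ℂ] CuspForm (Gamma0 N) 2 :=
    CuspForm.heckeTLin 2 hℓ hℓN - z • LinearMap.id
  have hinj : Function.Injective L := by
    refine (injective_iff_map_eq_zero L).mpr fun f hf => ?_
    by_contra hne
    have heq : CuspForm.heckeTLin 2 hℓ hℓN f = z • f := sub_eq_zero.mp hf
    refine (HeckeEigen.norm_eigenvalue_lt hℓ hne (c := z) fun τ => ?_).not_ge hz
    have := congrArg (fun g : CuspForm (Gamma0 N) 2 => (g : UpperHalfPlane → ℂ) τ) heq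
    simpa [CuspForm.coe_heckeTLin_apply] using this
  exact LinearMap.injective_iff_surjective.mp hinj a

/-- `T_ℓ - z` has non-zero determinant on the lattice. -/
theorem det_heckeMatAt_sub_ne_zero (ℓ : Nat.Primes) (hℓN : ¬ (ℓ : ℕ) ∣ N) {z : ℤ}
    (hz : ((ℓ : ℕ) : ℝ) + 1 ≤ |(z : ℝ)|) :
    (heckeMatAt N ℓ - z • (1 : Matrix (Fin (rk N)) (Fin (rk N)) ℤ)).det ≠ 0 := by
  set B := (heckeMatAt N ℓ).map (Int.cast : ℤ → ℂ) with hB
  have hsurj : Function.Surjective fun v => B *ᵥ v - (z : ℂ) • v := by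
    intro v
    let c : Cocycle (cRep N) := ⟨fun γ => ofCoords N v (Additive.ofMul γ), fun g h => by
      show ofCoords N v (Additive.ofMul (g * h)) = ofCoords N v (Additive.ofMul g) +
        gammaRep (cRep N) g (ofCoords N v (Additive.ofMul h))
      rw [ofMul_mul, map_add, gammaRep_apply, cRep_eq_one, Module.End.one_apply],
      fun k hk => by
        rw [Set.mem_singleton_iff] at hk
        subst hk
        exact isGoodHom_ofCoords N v (negOne N) (by simp [smallTrace, negOne, Matrix.trace_fin_two])⟩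
    obtain ⟨a, b, hab⟩ := exists_period_add_conj c fun g hg => isGoodHom_ofCoords N v g hg.le
    have hv : v = perMap N a + star (perMap N b) := by
      conv_lhs => rw [← coords_ofCoords N v]
      funext i
      exact congrFun (congrArg Subtype.val hab) _
    have hn : ((ℓ : ℕ) : ℝ) + 1 ≤ ‖(z : ℂ)‖ := by rwa [Complex.norm_intCast]
    obtain ⟨a', ha⟩ := exists_heckeTLin_sub_smul ℓ.2 hℓN hn a
    obtain ⟨b', hb⟩ := exists_heckeTLin_sub_smul ℓ.2 hℓN hn b
    have key : ∀ f, perMap N (CuspForm.heckeTLin 2 ℓ.2 hℓN f) = B *ᵥ perMap N f := fun f => by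
      rw [hB, ← perMap_formsOp, EigenRep.formsOp, dif_neg hℓN]
    refine ⟨perMap N a' + star (perMap N b'), ?_⟩
    have hBs : B *ᵥ star (perMap N b') = star (B *ᵥ perMap N b') := by
      funext i
      simp [hB, Matrix.mulVec, dotProduct]
    simp only [Matrix.mulVec_add, hBs, smul_add]
    rw [hv, ← ha, ← hb, map_sub, map_sub, map_smul, map_smul, key, key, star_sub, star_smul,
      show star (z : ℂ) = (z : ℂ) by simp]
    abel
  intro hdet
  have hu : IsUnit (B - (z : ℂ) • (1 : Matrix (Fin (rk N)) (Fin (rk N)) ℂ)) := by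
    rw [← Matrix.mulVec_surjective_iff_isUnit]
    intro v
    obtain ⟨w, hw⟩ := hsurj v
    exact ⟨w, by rw [Matrix.sub_mulVec, Matrix.smul_mulVec, Matrix.one_mulVec]; exact hw⟩
  rw [Matrix.isUnit_iff_isUnit_det] at hu
  refine hu.ne_zero ?_
  have h := congrArg (Int.castRingHom ℂ) hdet
  rw [RingHom.map_det, map_zero] at h
  convert h using 2
  rw [zsmul_eq_mul, mul_one, map_sub, map_intCast, ← Algebra.algebraMap_eq_smul_one]
  simp [hB, RingHom.mapMatrix_apply]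

/-- A multiple of every `p`-power torsion class is in the image of `T_ℓ - z`. -/
theorem exists_heckeOperatorBar_sub (p : ℕ) [Fact p.Prime] (ℓ : Nat.Primes)
    (hℓN : ¬ (ℓ : ℕ) ∣ N) {z : ℤ} (hz : ((ℓ : ℕ) : ℝ) + 1 ≤ |(z : ℝ)|) :
    ∃ n : ℕ, n ≠ 0 ∧ ∀ (m : ℕ) (x : JZero N), p ^ m • x = 0 →
      ∃ y : JZero N, p ^ m • y = 0 ∧ heckeOperatorBar N ℓ y - z • y = n • x := by
  set B := heckeMatAt N ℓ - z • (1 : Matrix (Fin (rk N)) (Fin (rk N)) ℤ) with hB
  set d := B.det with hd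
  have hd0 : d ≠ 0 := det_heckeMatAt_sub_ne_zero ℓ hℓN hz
  refine ⟨d.natAbs, Int.natAbs_ne_zero.mpr hd0, fun m x hx => ?_⟩
  have : NeZero (p ^ m) := ⟨pow_ne_zero _ (Fact.out : p.Prime).ne_zero⟩
  let e : Pic0.torsion (AlgebraicClosure ℚ) (modularFunctionFieldBar N) (p ^ m) ≃+
      (Fin (rk N) → ZMod (p ^ m)) := (torsionHeckeModel N p).e m
  have hmem : x ∈ Pic0.torsion (AlgebraicClosure ℚ) (modularFunctionFieldBar N) (p ^ m) := by
    rw [Pic0.mem_torsion, natCast_zsmul]; exact hx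
  let f : ℤ →+* ZMod (p ^ m) := Int.castRingHom _
  let w : Fin (rk N) → ZMod (p ^ m) := (Int.sign d : ZMod (p ^ m)) •
    ((f.mapMatrix (Matrix.adjugate B)) *ᵥ e ⟨x, hmem⟩)
  let y := e.symm w
  have hy0 : p ^ m • (y : JZero N) = 0 := by
    rw [← natCast_zsmul]; exact Pic0.mem_torsion.mp y.2
  refine ⟨y, hy0, ?_⟩
  have hTy : heckeOperatorBar N ℓ (y : JZero N) ∈
      Pic0.torsion (AlgebraicClosure ℚ) (modularFunctionFieldBar N) (p ^ m) := by
    rw [Pic0.mem_torsion, natCast_zsmul, ← map_nsmul, hy0, map_zero]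
  have he : e ⟨_, hTy⟩ = ((heckeMatAt N ℓ).map (Int.cast : ℤ → ZMod (p ^ m))) *ᵥ e y :=
    (torsionHeckeModel N p).e_hecke m ℓ y ⟨_, hTy⟩ rfl
  have key : e ⟨_, hTy⟩ - z • e y = d.natAbs • e ⟨x, hmem⟩ := by
    rw [he, show e y = w from e.apply_symm_apply w]
    have h1 : (f.mapMatrix B) * f.mapMatrix (Matrix.adjugate B) =
        (d : ZMod (p ^ m)) • 1 := by
      rw [← map_mul, Matrix.mul_adjugate, zsmul_eq_mul, mul_one, map_intCast,
        ← Algebra.algebraMap_eq_smul_one, map_intCast]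
    have h2 : ((heckeMatAt N ℓ).map (Int.cast : ℤ → ZMod (p ^ m))) *ᵥ w - z • w = f.mapMatrix B *ᵥ w := by
      rw [hB, map_sub, map_zsmul, map_one, Matrix.sub_mulVec, Matrix.smul_mulVec, Matrix.one_mulVec]
      rfl
    rw [h2, Matrix.mulVec_smul, Matrix.mulVec_mulVec, h1, Matrix.smul_mulVec, Matrix.one_mulVec,
      smul_smul, ← Int.cast_mul, Int.sign_mul_self, Int.cast_natCast, Nat.cast_smul_eq_nsmul]
  rw [← map_zsmul, ← map_sub, ← map_nsmul] at key
  exact congrArg Subtype.val (e.injective key)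

/-- **`T_ℓ - z` is onto on `p`-power torsion.** -/
theorem exists_heckeOperatorBar_sub_eq (p : ℕ) [Fact p.Prime] (ℓ : Nat.Primes)
    (hℓN : ¬ (ℓ : ℕ) ∣ N) {z : ℤ} (hz : ((ℓ : ℕ) : ℝ) + 1 ≤ |(z : ℝ)|) {m : ℕ} {x : JZero N}
    (hx : p ^ m • x = 0) :
    ∃ (m' : ℕ) (y : JZero N), p ^ m' • y = 0 ∧ heckeOperatorBar N ℓ y - z • y = x := by
  obtain ⟨n, hn, h⟩ := exists_heckeOperatorBar_sub (N := N) p ℓ hℓN hz
  obtain ⟨c, u, hu, rfl⟩ : ∃ c u, ¬ p ∣ u ∧ n = p ^ c * u :=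
    Nat.exists_eq_pow_mul_and_not_dvd hn p (Fact.out : p.Prime).ne_one
  obtain ⟨x₁, hx₁⟩ := MWJ0.jZero_divisible N (pow_ne_zero c (Fact.out : p.Prime).ne_zero) x
  have hx₁0 : p ^ (m + c) • x₁ = 0 := by rw [pow_add, mul_smul, hx₁, hx]
  obtain ⟨y, hy, hyx⟩ := h (m + c) x₁ hx₁0
  obtain ⟨a, b, hab⟩ : ∃ a b : ℤ, a * (u : ℤ) + b * ((p ^ m : ℕ) : ℤ) = 1 :=
    Nat.isCoprime_iff_coprime.mpr
      ((((Nat.Prime.coprime_iff_not_dvd Fact.out).mpr hu).symm).pow_right m)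
  refine ⟨m + c, a • y, ?_, ?_⟩
  · rw [← natCast_zsmul, ← mul_smul, mul_comm, mul_smul, natCast_zsmul, hy, smul_zero]
  rw [map_zsmul, ← mul_smul, mul_comm z a, mul_smul, ← zsmul_sub, hyx, mul_comm (p ^ c) u,
    mul_smul, hx₁, ← natCast_zsmul x u, ← mul_smul,
    show a * (u : ℤ) = 1 - b * ((p ^ m : ℕ) : ℤ) by linarith, sub_smul, one_smul, mul_smul,
    natCast_zsmul, hx, smul_zero, sub_zero]

end Fermat.Agent.TwoAdic.Geometry

end
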