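import Fermat.Agent.TwoAdic.Geometry.RowFunct
import Fermat.Agent.TwoAdic.Geometry.Regular
import Fermat.Agent.Congruence.CurveFacts
import Fermat.Agent.SemistableRed.AllFacts

/-!
# Frobenius and the special fibre

Reduction commutes with a Frobenius element, the pullback along
`π` is `q` times the inverse of Frobenius, and `φ² - q²` is onto on `p`-power torsion.
-/

set_option autoImplicit false
set_option linter.unusedSectionVars false

noncomputable section

open IsLocalRing AlgebraicCurve ModularCurve Fermat.Agent.FunctionFieldRR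
  Fermat.Agent.Congruence Fermat.Agent.SemistableRed

namespace Fermat.Agent.TwoAdic.Geometry

local notation "Qbar" => AlgebraicClosure ℚ

variable {A : ValuationSubring Qbar} {M q : ℕ} [NeZero M] [NeZero q] [Fact q.Prime]
  [CharP (ResidueField A) q] [IsAlgClosed (ResidueField A)]
  [IsFunctionField (ResidueField A) (modularFunctionFieldFullC (ResidueField A) M)]

/-- Reduction commutes with a Frobenius element. -/
theorem reductionModL_frob (h : ReductionInputsModL A M) {σ : Qbar ≃ₐ[ℚ] Qbar}
    (hσ : A.IsFrobeniusAt σ q) (x : JZero M) :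
    reductionModL A M (σ • x) =
      frobG (ResidueField A) M q • reductionModL A M x := by
  have := HeckeJ0.hasPrincipalDivisors_bar M
  obtain ⟨hs, hact⟩ := hσ
  have hdeg : ∀ P : Place Qbar (modularFunctionFieldBar M), P.deg = 1 := fun P => deg_eq_one P
  obtain ⟨D, rfl⟩ := Pic0.mk_surjective x
  rw [galois_smul_mk, reductionModL_mk h, reductionModL_mk h, SemilinearAut.pic0_smul_mk]
  refine congrArg Pic0.mk (Subtype.ext ?_)
  set r := placeReductionModL h
  have hr := isPlaceReductionModL_placeReductionModL h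
  let g : Divisor (ResidueField A) (modularFunctionFieldFullC (ResidueField A) M) →+
      Divisor (ResidueField A) (modularFunctionFieldFullC (ResidueField A) M) :=
    DistribSMul.toAddMonoidHom _ (frobG (ResidueField A) M q)
  show (reductionDivAlong r) (galDiv M σ D) = g (reductionDivAlong r D)
  refine sub_eq_zero.mp (reduction_eq_zero_of_integral hdeg weakRiemann h.choose_spec.2
    ((reductionDivAlong r).comp (galDiv M σ) - g.comp (reductionDivAlong r)) ?_ 2 ?_
      (Divisor.mem_degZero.mp D.2))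
  · intro E hE
    obtain ⟨y, hy, hyk, hne, hEy⟩ := hE
    rw [AddMonoidHom.sub_apply, AddMonoidHom.comp_apply, AddMonoidHom.comp_apply, sub_eq_zero]
    have hy' : coeffMap A.subtype (coeffMap (actRingHom A hs) y) ∈ modularFunctionFieldBar M := by
      rw [coeffMap_subtype_act]; exact coeffMap_mem_laurentBaseChange σ hy
    have hred := residue_actRingHom_of_frobenius A hs hact y
    set z : modularFunctionFieldFullC (ResidueField A) M := ⟨coeffMap (residue A) y, hyk⟩
    have hz : coeffMap (residue A) (coeffMap (actRingHom A hs) y) =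
        ((frobG (ResidueField A) M q • z : modularFunctionFieldFullC (ResidueField A) M) :
          LaurentSeries (ResidueField A)) := by
      rw [hred, coe_frobG_smul]
    have hz0 : frobG (ResidueField A) M q • z ≠ 0 :=
      (smul_ne_zero_iff_ne _).mpr fun e => hne (congrArg Subtype.val e)
    have hE' : ∀ P, galDiv M σ E P = P.ord (⟨_, hy'⟩ : modularFunctionFieldBar M) := fun P =>
      (smul_apply_eq_ord σ hEy P).trans
        (congrArg P.ord (Subtype.ext (coeffMap_subtype_act A hs y).symm))
    refine Finsupp.ext fun Q => ?_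
    rw [reductionDivAlong_apply, reductionDivAlong_apply,
      hr.2 (coeffMap (actRingHom A hs) y) hy' (hz ▸ (frobG (ResidueField A) M q • z).2)
        (fun e => hz0 (Subtype.ext (hz.symm.trans e))) _ hE' Q]
    show _ = (frobG (ResidueField A) M q • Finsupp.mapDomain r E) Q
    rw [SemilinearAut.divisor_smul_apply, hr.2 y hy hyk hne E hEy]
    obtain ⟨Q', rfl⟩ := MulAction.surjective (frobG (ResidueField A) M q) Q
    rw [inv_smul_smul]
    refine Eq.trans ?_ (SemilinearAut.ord_smul (frobG (ResidueField A) M q) Q' z)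
    exact congrArg (frobG (ResidueField A) M q • Q').ord (Subtype.ext hz)
  · intro P Q
    rw [AddMonoidHom.sub_apply, AddMonoidHom.comp_apply, AddMonoidHom.comp_apply, galDiv_single,
      reductionDivAlong_single, reductionDivAlong_single, Finsupp.sub_apply]
    show |_ - (frobG (ResidueField A) M q • Finsupp.single (r P) (1 : ℤ)) Q| ≤ 2
    rw [SemilinearAut.smul_single]
    refine le_trans (abs_sub _ _) ?_
    have := abs_single_one_apply_le
      (r (arithmeticGalois (modularFunctionFieldFull M) σ • P)) Q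
    have := abs_single_one_apply_le (frobG (ResidueField A) M q • r P) Q
    linarith

/-- The pullback along `π` is `q` times the inverse of Frobenius. -/
theorem piPic_eq (x : JZeroC (ResidueField A) M) :
    piPic (A := A) (M := M) (q := q) x = q • ((frobG (ResidueField A) M q)⁻¹ • x) := by
  obtain ⟨D, rfl⟩ := Pic0.mk_surjective x
  rw [piPic, pullPic_mk, SemilinearAut.pic0_smul_mk]
  refine Eq.trans ?_ (map_nsmul (QuotientAddGroup.mk' _) q _)
  refine congrArg Pic0.mk (Subtype.ext (Finsupp.ext fun w => ?_))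
  set g := frobG (ResidueField A) M q with hg
  obtain ⟨π, hπ⟩ := IsDiscreteValuationRing.exists_irreducible (g • w).toValuationSubring
  have hw : w.restrictAlong (piG (ResidueField A) M q) (HeckeJ0.isIntegral_of_isFunctionField _) =
      g • w := by
    refine Place.ext (SetLike.ext fun z => ?_)
    rw [SemilinearAut.smul_toValuationSubring, ValuationSubring.mem_pointwise_smul_iff_inv_smul_mem]
    show piG (ResidueField A) M q z ∈ w.toValuationSubring ↔ _
    rw [piG_eq_pow, show (frobFull (ResidueField A) M q).symm z = g⁻¹ • z from rfl]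
    refine ⟨fun h => ?_, fun h => pow_mem h _⟩
    rcases w.toValuationSubring.mem_or_inv_mem (g⁻¹ • z) with h1 | h1
    · exact h1
    · by_cases h0 : g⁻¹ • z = 0
      · rw [h0]; exact zero_mem _
      have hq1 : q - 1 ≤ q := Nat.sub_le q 1
      have h2 := mul_mem h (pow_mem h1 (q - 1))
      rwa [inv_pow, ← pow_sub₀ _ h0 hq1, Nat.sub_sub_self (Fact.out : q.Prime).one_le, pow_one] at h2
  have hram : (Place.ramificationIndexAlong (piG (ResidueField A) M q) w : ℤ) = q := by
    have h1 := Place.ord_restrictAlong (piG (ResidueField A) M q)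
      (HeckeJ0.isIntegral_of_isFunctionField _) w π.1
    rw [hw, Place.ord_coe_irreducible _ hπ, mul_one, piG_eq_pow,
      show (frobFull (ResidueField A) M q).symm π.1 = g⁻¹ • π.1 from rfl, ord_pow] at h1
    have h2 := SemilinearAut.ord_smul g⁻¹ (g • w) π.1
    rw [inv_smul_smul, Place.ord_coe_irreducible _ hπ] at h2
    rw [h2, mul_one] at h1
    exact h1.symm
  rw [coe_pullDiv, hram, hw, AddSubgroupClass.coe_nsmul, Finsupp.smul_apply, nsmul_eq_mul,
    SemilinearAut.coe_degZeroSMulHom, SemilinearAut.divisor_smul_apply, inv_inv]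

section Onto

variable {p : ℕ} [Fact p.Prime]

/-- `φ - z` is onto on `p`-power torsion for `z = ± q`, with `e` the sign. -/
theorem exists_sub_smul_eq (hqM : ¬ q ∣ M) (hqp : p ≠ q) (hA : A.LiesOverPrime q)
    {φ : Qbar ≃ₐ[ℚ] Qbar} (hφ : A.IsFrobeniusAt φ q) {e : ℤ} (he : e = 1 ∨ e = -1) {m : ℕ}
    {x : JZero M} (hx : p ^ m • x = 0) :
    ∃ (m' : ℕ) (y : JZero M), p ^ m' • y = 0 ∧ φ • y - (e * (q : ℤ)) • y = x := by
  have hq : q.Prime := Fact.out
  have hqMp : ¬ q ∣ M * p := fun h => (hq.dvd_mul.mp h).elim hqM fun h' =>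
    hqp ((Nat.prime_dvd_prime_iff_eq hq Fact.out).mp h').symm
  obtain ⟨m', y₀, hy₀, hyx⟩ := exists_heckeOperatorBar_sub_eq p ⟨q, hq⟩ hqM
    (z := e * ((q : ℤ) + 1)) (by
      have h0 : (0 : ℝ) ≤ (q : ℝ) + 1 := by positivity
      rcases he with rfl | rfl <;> push_cast <;> simp only [one_mul, neg_mul, abs_neg, abs_of_nonneg h0, le_refl]) hx
  set S := DistribSMul.toAddMonoidHom (JZero M) φ
  set y₁ := φ⁻¹ • y₀ with hy₁
  have hy₁0 : p ^ m' • y₁ = 0 :=
    ((DistribSMul.toAddMonoidHom (JZero M) φ⁻¹).map_nsmul (p ^ m') y₀).symm.trans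
      ((congrArg _ hy₀).trans (map_zero _))
  have hφy : φ • y₁ = y₀ := smul_inv_smul φ y₀
  have hES := (SemistableRed.allRelations M p).frobenius q hq hqMp A hA φ hφ y₁ ⟨m', hy₁0⟩
  rw [hφy] at hES
  refine ⟨m', φ • y₁ - e • y₁, ?_, ?_⟩
  · rw [hφy, nsmul_sub, hy₀, smul_comm, hy₁0, smul_zero, sub_zero]
  · have h1 : φ • (φ • y₁ - e • y₁) = φ • y₀ - e • y₀ := by
      show S (φ • y₁ - e • y₁) = _
      rw [map_sub, map_zsmul, show S (φ • y₁) = φ • (φ • y₁) from rfl, show S y₁ = φ • y₁ from rfl,
        hφy]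
    have h2 : φ • y₀ = heckeOperatorBar M ⟨q, hq⟩ y₀ - (q : ℤ) • y₁ := by
      rw [natCast_zsmul, eq_sub_iff_add_eq]
      exact sub_eq_zero.mp (by rw [← hES]; abel)
    have hee : e * e = 1 := by rcases he with rfl | rfl <;> rfl
    rw [h1, h2, hφy, ← hyx]
    simp only [zsmul_sub, ← mul_zsmul, mul_add, add_zsmul, mul_one]
    rw [show e * (q : ℤ) * e = (q : ℤ) by rw [mul_comm e, mul_assoc, hee, mul_one]]
    abel

/-- **`φ² - q²` is onto on `p`-power torsion.** -/
theorem exists_sq_sub_sq_eq (hqM : ¬ q ∣ M) (hqp : p ≠ q) (hA : A.LiesOverPrime q)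
    {φ : Qbar ≃ₐ[ℚ] Qbar} (hφ : A.IsFrobeniusAt φ q) {m : ℕ} {x : JZero M} (hx : p ^ m • x = 0) :
    ∃ (m' : ℕ) (y : JZero M), p ^ m' • y = 0 ∧ φ • φ • y - ((q : ℤ) ^ 2) • y = x := by
  obtain ⟨m₁, y, hy, hyx⟩ := exists_sub_smul_eq hqM hqp hA hφ (e := 1) (Or.inl rfl) hx
  obtain ⟨m₂, w, hw, hwy⟩ := exists_sub_smul_eq hqM hqp hA hφ (e := -1) (Or.inr rfl) hy
  refine ⟨m₂, w, hw, ?_⟩
  set S := DistribSMul.toAddMonoidHom (JZero M) φ
  rw [← hyx, ← hwy, show φ • (φ • w - (-1 * (q : ℤ)) • w) = φ • φ • w - (-1 * (q : ℤ)) • (φ • w) from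
    (map_sub S _ _).trans (congrArg _ (map_zsmul S _ _))]
  generalize φ • φ • w = a
  generalize φ • w = b
  module

end Onto

end Fermat.Agent.TwoAdic.Geometry

end
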