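import Fermat.Agent.TwoAdic.Geometry.Kernel
import Fermat.Agent.TwoAdic.Modules.SignedNorm
import Fermat.Agent.TwoAdic.Descend.GaloisQuot

/-!
# The descent kernel of a setup

The descent kernel of a setup: given the rows at `q` at a torsion level, the signed classes of
level `U ∪ q` whose trace is in the range of the degree operator on the new quotient lie in every
stable subgroup containing the old classes, the monodromy classes and a bounded multiple.
-/

set_option autoImplicit false

noncomputable section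

open IsLocalRing

namespace Fermat.Agent.TwoAdic

open HeckeJ0 LevelRaising HeckeModule

attribute [local instance] ALSetup.isPrime

local notation "Γ" => AlgebraicClosure ℚ ≃ₐ[ℚ] AlgebraicClosure ℚ

namespace ALSetup

variable {O : Type} [CommRing O] [IsLocalRing O] (T : ALSetup O) {A : Type} [AddCommGroup A]
  [Module O A] (hχ : T.χ = 1) {k : ℕ} (hA : ∀ a : A, 2 ^ k • a = 0) {q : ℕ} [Fact q.Prime]
  {V U : Finset ℕ} (hS : T.CoreInS) (hV : V ⊆ T.W) (hqU : q ∉ U) (hUV : insert q U = V)
  [NeZero (T.level V)] [NeZero (T.level U)]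

/-- The monodromy of `σ` at the level of `V`. -/
def monodromyAt (σ : Γ) : T.H V A →+ T.H V A :=
  (Bridge.setupGal T hχ hV hA σ).toAddMonoidHom - AddMonoidHom.id _

omit [NeZero (T.level U)] in
lemma monodromyAt_apply (σ : Γ) (x : T.H V A) :
    T.monodromyAt hχ hA hV σ x = Bridge.setupGal T hχ hV hA σ x - x := rfl

/-- The Frobenius at `q` times the scalar of the involution, at the level of `U`. -/
def frobAt (φ : Γ) : T.H U A →+ T.H U A :=
  (T.c q • Bridge.setupGal T hχ (T.face_subset hV hUV) hA φ).toAddMonoidHom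

/-- The twisted inverse Frobenius at `q` at the level of `U`. -/
def verAt (φ : Γ) : T.H U A →+ T.H U A :=
  ((T.c q * (q : O)) • Bridge.setupGal T hχ (T.face_subset hV hUV) hA φ⁻¹).toAddMonoidHom

omit [NeZero (T.level V)] in
omit [Fact q.Prime] in
lemma frobAt_apply (φ : Γ) (y : T.H U A) :
    T.frobAt hχ hA hV hUV φ y = T.c q • Bridge.setupGal T hχ (T.face_subset hV hUV) hA φ y := rfl

omit [NeZero (T.level V)] in
omit [Fact q.Prime] in
lemma verAt_apply (φ : Γ) (y : T.H U A) :
    T.verAt hχ hA hV hUV φ y =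
      (T.c q * (q : O)) • Bridge.setupGal T hχ (T.face_subset hV hUV) hA φ⁻¹ y := rfl

/-- The rows at `q` at the level of `V` on `A`: reductions of the invariants, their behaviour
under the involutions and the maps from the faces, and the trace read on them. -/
structure KernelRows (σ₀ φ : Γ) where
  /-- the reductions -/
  red : (T.monodromyAt hχ hA hV σ₀).ker →+ T.H U A × T.H U A
  surjective : Function.Surjective red
  eq_zero : ∀ z, red z = 0 → ∃ e, T.monodromyAt hχ hA hV σ₀ e = (z : T.H V A)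
  swap : ∀ z : (T.monodromyAt hχ hA hV σ₀).ker, ∃ z' : (T.monodromyAt hχ hA hV σ₀).ker,
    (z' : T.H V A) = T.w A hV q z ∧ red z' = ((red z).2, (red z).1)
  comm : ∀ e ∈ U, ∀ z : (T.monodromyAt hχ hA hV σ₀).ker,
    ∃ z' : (T.monodromyAt hχ hA hV σ₀).ker, (z' : T.H V A) = T.w A hV e z ∧
      red z' = (T.w A (T.face_subset hV hUV) e (red z).1, T.w A (T.face_subset hV hUV) e (red z).2)
  res : ∀ y : T.H U A, ∃ z : (T.monodromyAt hχ hA hV σ₀).ker,
    (z : T.H V A) = T.res A hV ((Finset.subset_insert q U).trans hUV.subset) y ∧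
      red z = (y, T.verAt hχ hA hV hUV φ y)
  old : ∀ (b : ℕ) (_ : b ∈ U) (v : T.H (U.erase b) A),
    ∃ (z : (T.monodromyAt hχ hA hV σ₀).ker) (x : T.H (V.erase b) A),
      (z : T.H V A) = T.res A hV (V.erase_subset b) x ∧
        red z = (T.res A (T.face_subset hV hUV) (U.erase_subset b) v, 0)
  tr_red : ∀ z : (T.monodromyAt hχ hA hV σ₀).ker,
    T.tr A hS hV hqU hUV (z : T.H V A) = (red z).1 + T.frobAt hχ hA hV hUV φ (red z).2

variable {σ₀ φ : Γ} (R : T.KernelRows hχ hA hS hV hqU hUV σ₀ φ)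

include R in
/-- The degree operator is `(1 + F) (1 + V)`. -/
lemma degOp_eq (y : T.H U A) :
    T.degOp (hV (mem_of_insert_eq hUV)) U A y =
      (y + T.verAt hχ hA hV hUV φ y) +
        T.frobAt hχ hA hV hUV φ (y + T.verAt hχ hA hV hUV φ y) := by
  obtain ⟨z, hz, hr⟩ := R.res y
  obtain ⟨z', hz', hr'⟩ := R.swap z
  have h1 := R.tr_red z
  have h2 := R.tr_red z'
  rw [hr, hz] at h1
  rw [hr', hr, hz', hz] at h2
  rw [← T.tr_oldMap_self hS hV hqU hUV, T.oldMap_apply, map_add, h1, h2, map_add]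
  dsimp only
  abel

variable (A) in
/-- The norm to the signed part. -/
def signedNorm : T.H V A →+ T.signed A hV :=
  ((T.norm A hV).codRestrict (T.signed A hV) (T.norm_mem_signed hV)).toAddMonoidHom

omit [NeZero (T.level V)] [NeZero (T.level U)] in
/-- An old class of the signed part. -/
lemma exists_oldSpace_eq {W : Finset ℕ} (hW : W ⊆ T.W) {B S : Finset ℕ} {b : ℕ} (hbS : b ∉ S)
    (hS : insert b S = W) (hbB : b ∈ B) (x : T.H S A) :
    ∃ o ∈ T.oldSpace A hW B,
      (o : T.H W A) = T.norm A hW (T.res A hW ((Finset.subset_insert b S).trans hS.subset) x) := by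
  have key : ∀ {S' : Finset ℕ} (_ : W.erase b = S') (hsub : S' ⊆ W) (y : T.H S' A),
      y ∈ T.signed A (hsub.trans hW) →
        ∃ o ∈ T.oldSpace A hW B, (o : T.H W A) = T.oldMap A hW hsub b y := by
    rintro _ rfl hsub y hy
    exact ⟨_, T.oldSigned_mem_oldSpace A hW (hS ▸ Finset.mem_insert_self b S) hbB ⟨y, hy⟩, rfl⟩
  rw [T.norm_res hW hbS hS]
  exact key (by rw [← hS, Finset.erase_insert hbS]) _ _ (T.norm_mem_signed _ x)

variable (hnormU : ∀ x ∈ T.signed A (T.face_subset hV hUV), ∃ y,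
    T.norm A (T.face_subset hV hUV) y = x)
  (hnormUb : ∀ b ∈ U, ∀ x ∈ T.signed A ((U.erase_subset b).trans (T.face_subset hV hUV)), ∃ y,
    T.norm A ((U.erase_subset b).trans (T.face_subset hV hUV)) y = x)
  (hkerU : ∀ x, T.norm A (T.face_subset hV hUV) x = 0 →
    x ∈ U.sup fun e => LinearMap.range (T.w A (T.face_subset hV hUV) e - 1))
  (M : AddSubgroup (T.signed A hV))
  (hMold : ∀ o ∈ T.oldSpace A hV V, o ∈ M)
  (hMmon : ∀ x, T.signedGal hχ hA hV σ₀ x - x ∈ M)
  {d : ℕ} (hMd : ∀ x, d • x ∈ M)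
  (hinj : ∀ u, T.degQuot A (T.face_subset hV hUV) (hV (mem_of_insert_eq hUV)) hqU U u = 0 →
    ∃ r, u = d • r)

include hnormU hnormUb hkerU hMold hMmon hMd hinj R in
/-- Invariant classes whose norm has trace in the range of the degree operator die in the quotient. -/
theorem norm_mem_of_fixed (z : (T.monodromyAt hχ hA hV σ₀).ker)
    (hz : Submodule.Quotient.mk (T.down A hS hV hqU hUV (T.signedNorm A hV z)) ∈
      LinearMap.range
        (T.degQuot A (T.face_subset hV hUV) (hV (mem_of_insert_eq hUV)) hqU U)) :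
    T.signedNorm A hV (z : T.H V A) ∈ M := by
  have hUW := T.face_subset hV hUV
  let N := T.monodromyAt hχ hA hV σ₀
  let F := T.frobAt hχ hA hV hUV φ
  let Vr := T.verAt hχ hA hV hUV φ
  let g := Bridge.setupGal T hχ hUW hA
  let ζ := T.signedNorm A hV
  let nU := (T.norm A hUW).toAddMonoidHom
  have hgw : ∀ σ, ∀ e ∈ U, ∀ x, g σ (T.w A hUW e x) = T.w A hUW e (g σ x) :=
    fun σ e he x => Bridge.setupGal_w T hχ hUW hA he σ x
  have hFn : ∀ x, F (nU x) = nU (F x) := fun x =>
    T.map_norm hUW F (fun e he x => by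
      show T.c q • g φ _ = T.w A hUW e (T.c q • g φ x)
      rw [map_smul, hgw φ e he]) x
  have hVn : ∀ x, Vr (nU x) = nU (Vr x) := fun x =>
    T.map_norm hUW Vr (fun e he x => by
      show (T.c q * (q : O)) • g φ⁻¹ _ = T.w A hUW e ((T.c q * (q : O)) • g φ⁻¹ x)
      rw [map_smul, hgw φ⁻¹ e he]) x
  have hFV : ∀ x, F (Vr x) = Vr (F x) := fun x => by
    show T.c q • g φ ((T.c q * (q : O)) • g φ⁻¹ x) = (T.c q * (q : O)) • g φ⁻¹ (T.c q • g φ x)
    rw [map_smul, map_smul, smul_smul, smul_smul, mul_comm (T.c q) (T.c q * (q : O)),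
      ← Module.End.mul_apply, ← Module.End.mul_apply, ← map_mul g, ← map_mul g, mul_inv_cancel,
      inv_mul_cancel]
  -- the trace of the norm is the norm of `(1 + F)` of the sum of the reductions
  obtain ⟨z', hz', hr'⟩ := R.swap z
  have htr : T.tr A hS hV hqU hUV (T.norm A hV (z : T.H V A)) =
      nU ((R.red z).1 + (R.red z).2) + F (nU ((R.red z).1 + (R.red z).2)) := by
    have hsplit : T.norm A hV (z : T.H V A) =
        normOn (T.w A hV) (T.commute_w hV) U ((z : T.H V A) + (z' : T.H V A)) := by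
      subst hUV
      show normOn _ _ (insert q U) _ = _
      rw [normOn_insert _ _ hqU, map_add, hz']
      show normOn _ _ U _ + T.w A hV q (normOn _ _ U _) = _
      rw [← Module.End.mul_apply (T.w A hV q), (commute_normOn _ (T.commute_w hV) q U).eq,
        Module.End.mul_apply]
    have hcommute : ∀ x, T.tr A hS hV hqU hUV (normOn (T.w A hV) (T.commute_w hV) U x) =
        nU (T.tr A hS hV hqU hUV x) := fun x =>
      map_normOn _ _ _ _ (T.tr A hS hV hqU hUV).toAddMonoidHom
        (fun e he y => (T.w_tr hS hV hqU hUV he y).symm) x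
    rw [hsplit, hcommute, map_add, R.tr_red z, R.tr_red z', hr', hFn, ← map_add, map_add F]
    congr 1
    abel
  obtain ⟨u, hu⟩ := hz
  obtain ⟨y, rfl⟩ := Submodule.mkQ_surjective _ u
  rw [Submodule.mkQ_apply, T.degQuot_mk, Submodule.Quotient.eq] at hu
  set s := nU ((R.red z).1 + (R.red z).2)
  set ys := (y : T.H U A) + Vr (y : T.H U A) with hys
  have hVsigned : ∀ x ∈ T.signed A hUW, Vr x ∈ T.signed A hUW := fun x hx =>
    T.mem_signed.mpr fun e he => by
      show T.w A hUW e ((T.c q * (q : O)) • g φ⁻¹ x) = (T.c q * (q : O)) • g φ⁻¹ x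
      rw [map_smul, ← hgw φ⁻¹ e he, T.mem_signed.mp hx e he]
  have hssigned : s ∈ T.signed A hUW := T.norm_mem_signed hUW _
  have hyssigned : ys ∈ T.signed A hUW := add_mem y.2 (hVsigned _ y.2)
  let ts : T.signed A hUW := ⟨s - ys, sub_mem hssigned hyssigned⟩
  -- `deg (s - ys) = (1 + V) ((1 + F) s - deg y)` is old
  have hdeg : T.degQuot A hUW (hV (mem_of_insert_eq hUV)) hqU U (Submodule.Quotient.mk ts) = 0 := by
    rw [T.degQuot_mk, Submodule.Quotient.mk_eq_zero]
    have h1 := neg_mem hu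
    rw [neg_sub] at h1
    have h2 := T.oldSpace A hUW U |>.smul_mem (T.c q * (q : O))
      (show T.signedGal hχ hA hUW φ⁻¹ _ ∈ T.oldSpace A hUW U from
        (Submodule.Quotient.mk_eq_zero _).mp (by
          rw [← T.quotGal_mk hχ hA hUW U φ⁻¹, (Submodule.Quotient.mk_eq_zero _).mpr h1, map_zero]))
    have h3 := add_mem h1 h2
    refine (congrArg (· ∈ T.oldSpace A hUW U) (Subtype.ext ?_)).mp h3
    show (T.tr A hS hV hqU hUV (T.norm A hV (z : T.H V A)) - T.degOp (hV (mem_of_insert_eq hUV)) U A (y : T.H U A)) +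
        Vr (T.tr A hS hV hqU hUV (T.norm A hV (z : T.H V A)) - T.degOp (hV (mem_of_insert_eq hUV)) U A (y : T.H U A)) =
      T.degOp (hV (mem_of_insert_eq hUV)) U A (s - ys)
    rw [htr, T.degOp_eq hχ hA hS hV hqU hUV R, T.degOp_eq hχ hA hS hV hqU hUV R]
    simp only [hys, map_add, map_sub, F, Vr] at hFV ⊢
    simp only [hFV]
    abel
  obtain ⟨r, hr⟩ := hinj _ hdeg
  obtain ⟨r, rfl⟩ := Submodule.mkQ_surjective _ r
  rw [Submodule.mkQ_apply, ← Submodule.Quotient.mk_smul, Submodule.Quotient.eq] at hr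
  set RS := Geometry.redSum N R.red ζ M nU with hRS
  -- the three kinds of sums
  have hres : ∀ x ∈ T.signed A hUW, x + Vr x ∈ RS := fun x hx => by
    obtain ⟨x₀, rfl⟩ := hnormU x hx
    obtain ⟨z₀, hz₀, hr₀⟩ := R.res x₀
    obtain ⟨o, ho, hoe⟩ := T.exists_oldSpace_eq hV hqU hUV (mem_of_insert_eq hUV) x₀
    have := Geometry.mem_redSum N R.red ζ M nU (z := z₀) (by
      rw [show ζ (z₀ : T.H V A) = o from Subtype.ext (by rw [hoe, ← hz₀]; rfl)]
      exact hMold o ho)
    rw [hr₀] at this
    rwa [map_add, ← hVn] at this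
  have hd' : ∀ x ∈ T.signed A hUW, d • x ∈ RS := fun x hx => by
    obtain ⟨x₀, rfl⟩ := hnormU x hx
    obtain ⟨z₀, hr₀⟩ := R.surjective (x₀, 0)
    have := Geometry.mem_redSum N R.red ζ M nU (z := d • z₀) (by
      rw [AddSubgroup.coe_nsmul, map_nsmul]; exact hMd _)
    simpa [map_nsmul, hr₀, nU, RS] using this
  have hold : ∀ x ∈ T.oldSpace A hUW U, (x : T.H U A) ∈ RS := by
    intro x hx
    induction hx using Submodule.iSup_induction' with
    | mem b x hx =>
      induction hx using Submodule.iSup_induction' with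
      | mem hb x hx =>
        induction hx using Submodule.iSup_induction' with
        | mem hbU x hx =>
          obtain ⟨v, rfl⟩ := hx
          obtain ⟨v₀, hv₀⟩ := hnormUb b hb (v : T.H (U.erase b) A) v.2
          obtain ⟨z₀, x₀, hz₀, hr₀⟩ := R.old b hb v₀
          have hbV : b ∈ V := hUV ▸ Finset.mem_insert_of_mem hb
          obtain ⟨o, ho, hoe⟩ := T.exists_oldSpace_eq hV (Finset.notMem_erase b V)
            (Finset.insert_erase hbV) hbV x₀
          have := Geometry.mem_redSum N R.red ζ M nU (z := z₀) (by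
            rw [show ζ (z₀ : T.H V A) = o from Subtype.ext (by rw [hoe, ← hz₀]; rfl)]
            exact hMold o ho)
          rw [hr₀, add_zero] at this
          rwa [show nU (T.res A hUW (U.erase_subset b) v₀) =
            T.oldMap A hUW (U.erase_subset b) b (v : T.H (U.erase b) A) by
              rw [← hv₀]
              exact T.norm_res hUW (Finset.notMem_erase b U) (Finset.insert_erase hb) v₀] at this
        | zero => exact zero_mem _
        | add y z _ _ hy hz => exact add_mem hy hz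
      | zero => exact zero_mem _
      | add y z _ _ hy hz => exact add_mem hy hz
    | zero => exact zero_mem _
    | add y z _ _ hy hz => exact add_mem hy hz
  have hs : s ∈ RS := by
    rw [show s = ys + (((ts - d • r : T.signed A hUW) : T.H U A) + d • (r : T.H U A)) by
      rw [Submodule.coe_sub, Submodule.coe_smul_of_tower, sub_add_cancel]
      exact (add_sub_cancel ys s).symm]
    exact add_mem (hres _ y.2) (add_mem (hold _ hr) (hd' _ r.2))
  refine Geometry.mem_of_redSum N R.red ζ M nU R.surjective R.eq_zero ?_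
    ((T.w A hV q).toAddMonoidHom) (fun x => Subtype.ext (T.norm_w hV (mem_of_insert_eq hUV) x))
    R.swap U (fun e => (T.w A hV e).toAddMonoidHom)
    (fun e => (T.w A hUW e).toAddMonoidHom)
    (fun e he x => Subtype.ext (T.norm_w hV (hUV ▸ Finset.mem_insert_of_mem he) x))
    R.comm (fun t ht => ?_) z hs
  · intro e
    rw [show ζ (N e) = T.signedGal hχ hA hV σ₀ (ζ e) - ζ e from Subtype.ext ?_]
    · exact hMmon _
    show T.norm A hV (Bridge.setupGal T hχ hV hA σ₀ e - e) =
      Bridge.setupGal T hχ hV hA σ₀ (T.norm A hV e) - T.norm A hV e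
    rw [map_sub]
    exact congrArg (· - _) (T.map_norm hV (Bridge.setupGal T hχ hV hA σ₀).toAddMonoidHom
      (fun e' he' x => Bridge.setupGal_w T hχ hV hA he' σ₀ x) e).symm
  · have h := hkerU t ht
    have hle : ∀ s : Finset ℕ, s ⊆ U → ((s.sup fun e =>
        LinearMap.range (T.w A hUW e - 1) : Submodule O (T.H U A)).toAddSubgroup) ≤
          U.sup fun e => ((T.w A hUW e).toAddMonoidHom - AddMonoidHom.id _).range := by
      intro s
      induction s using Finset.induction_on with
      | empty => intro _ x hx; rw [Finset.sup_empty] at hx; rw [show x = 0 from hx]; exact zero_mem _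
      | insert e s _ ih =>
        intro hs x hx
        rw [Finset.sup_insert] at hx
        obtain ⟨_, ⟨a, rfl⟩, b, hb, rfl⟩ := Submodule.mem_sup.mp hx
        have hle' : ((T.w A hUW e).toAddMonoidHom - AddMonoidHom.id _).range ≤
            U.sup fun e => ((T.w A hUW e).toAddMonoidHom - AddMonoidHom.id _).range :=
          Finset.le_sup (f := fun e => ((T.w A hUW e).toAddMonoidHom - AddMonoidHom.id _).range)
            (hs (Finset.mem_insert_self e s))
        exact add_mem (hle' ⟨a, rfl⟩)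
          (ih ((Finset.subset_insert e s).trans hs) hb)
    exact hle U subset_rfl h

/-- The Galois action on the new quotient, by additive endomorphisms. -/
def quotGalEnd (B : Finset ℕ) : Γ →* AddMonoid.End (T.NewQuot A hV B) where
  toFun σ := (T.quotGal hχ hA hV B σ).toAddMonoidHom
  map_one' := AddMonoidHom.ext fun x => LinearMap.congr_fun (map_one (T.quotGal hχ hA hV B)) x
  map_mul' σ τ := AddMonoidHom.ext fun x =>
    LinearMap.congr_fun (map_mul (T.quotGal hχ hA hV B) σ τ) x

variable (hMstab : ∀ σ, ∀ x ∈ M, T.signedGal hχ hA hV σ x ∈ M)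
  (htr : ∀ σ x, T.tr A hS hV hqU hUV (Bridge.setupGal T hχ hV hA σ x) =
    Bridge.setupGal T hχ (T.face_subset hV hUV) hA σ (T.tr A hS hV hqU hUV x))

include htr in
/-- Galois commutes with the degree operator. -/
lemma setupGal_degOp (σ : Γ) (y : T.H U A) :
    Bridge.setupGal T hχ (T.face_subset hV hUV) hA σ (T.degOp (hV (mem_of_insert_eq hUV)) U A y) =
      T.degOp (hV (mem_of_insert_eq hUV)) U A (Bridge.setupGal T hχ (T.face_subset hV hUV) hA σ y) := by
  rw [← T.tr_oldMap_self hS hV hqU hUV, ← T.tr_oldMap_self hS hV hqU hUV, ← htr, T.oldMap_apply,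
    T.oldMap_apply, map_add, Bridge.setupGal_w T hχ hV hA (mem_of_insert_eq hUV),
    Bridge.setupGal_res T hχ hV hA]

include hnormU hnormUb hkerU hMold hMmon hMd hinj R hMstab htr in
/-- **The descent kernel of a setup.** -/
theorem mem_of_trace_mem_range
    (hnormV : ∀ x ∈ T.signed A hV, ∃ y, T.norm A hV y = x) (κ : ℤ)
    (hΘ : ∀ x, T.monodromyAt hχ hA hV σ₀
      (Bridge.setupGal T hχ hV hA φ x + κ • T.w A hV q x) = 0)
    {g : Γ} (h2 : IsNilpotent (2 : AddMonoid.End (T.NewQuot A hV V)))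
    (hg : IsNilpotent (T.quotGalEnd hχ hA hV V g * T.quotGalEnd hχ hA hV V g +
      T.quotGalEnd hχ hA hV V g + 1))
    (hff : IsNilpotent (T.quotGalEnd hχ hA hV V φ⁻¹ * T.quotGalEnd hχ hA hV V φ⁻¹ - 1))
    (hgf : IsNilpotent (T.quotGalEnd hχ hA hV V g * T.quotGalEnd hχ hA hV V φ⁻¹ *
      (T.quotGalEnd hχ hA hV V g * T.quotGalEnd hχ hA hV V φ⁻¹) - 1))
    (x : T.signed A hV)
    (hx : Submodule.Quotient.mk (T.down A hS hV hqU hUV x) ∈
      LinearMap.range
        (T.degQuot A (T.face_subset hV hUV) (hV (mem_of_insert_eq hUV)) hqU U)) : x ∈ M := by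
  have hUW := T.face_subset hV hUV
  let R₀ := LinearMap.range (T.degQuot A hUW (hV (mem_of_insert_eq hUV)) hqU U)
  let D : T.signed A hV →+ T.NewQuot A hUW U ⧸ R₀ :=
    (R₀.mkQ ∘ₗ (T.oldSpace A hUW U).mkQ ∘ₗ T.down A hS hV hqU hUV).toAddMonoidHom
  let actC : Γ →* AddMonoid.End (T.signed A hV) :=
    { toFun := fun σ => (T.signedGal hχ hA hV σ).toAddMonoidHom
      map_one' := AddMonoidHom.ext fun z => LinearMap.congr_fun (map_one (T.signedGal hχ hA hV)) z
      map_mul' := fun σ τ => AddMonoidHom.ext fun z =>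
        LinearMap.congr_fun (map_mul (T.signedGal hχ hA hV) σ τ) z }
  have hζσ : ∀ σ z, T.signedNorm A hV (Bridge.setupGal T hχ hV hA σ z) =
      T.signedGal hχ hA hV σ (T.signedNorm A hV z) := fun σ z =>
    Subtype.ext (T.map_norm hV (Bridge.setupGal T hχ hV hA σ).toAddMonoidHom
      (fun e he y => Bridge.setupGal_w T hχ hV hA he σ y) z).symm
  have key : D.ker ≤ M := by
    refine Geometry.ker_le_of_monodromy actC M D (T.signedNorm A hV) (T.monodromyAt hχ hA hV σ₀)
      (fun σ z hz => ?_) (fun z => ?_) (φ := φ) (Bridge.setupGal T hχ hV hA φ).toAddMonoidHom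
      (T.w A hV q).toAddMonoidHom (hζσ φ)
      (fun z => Subtype.ext (T.norm_w hV (mem_of_insert_eq hUV) z)) κ hΘ
      (fun z hz hzD => T.norm_mem_of_fixed hχ hA hS hV hqU hUV R hnormU hnormUb hkerU M hMold hMmon
        hMd hinj ⟨z, hz⟩ ((Submodule.Quotient.mk_eq_zero R₀).mp hzD))
      fun K hK hscal => ?_
    · obtain ⟨u, hu⟩ := (Submodule.Quotient.mk_eq_zero R₀).mp hz
      obtain ⟨y, rfl⟩ := Submodule.mkQ_surjective _ u
      refine (Submodule.Quotient.mk_eq_zero R₀).mpr
        ⟨Submodule.Quotient.mk (T.signedGal hχ hA hUW σ y), ?_⟩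
      have h := congrArg (T.quotGal hχ hA hUW U σ) hu
      rw [Submodule.mkQ_apply, T.degQuot_mk, T.quotGal_mk] at h
      rw [T.degQuot_mk]
      refine Eq.trans ?_ (h.trans ((T.quotGal_mk hχ hA hUW U σ _).trans ?_))
      · exact congrArg Submodule.Quotient.mk
          (Subtype.ext (T.setupGal_degOp hχ hA hS hV hqU hUV htr σ (y : T.H U A)).symm)
      · exact congrArg Submodule.Quotient.mk (Subtype.ext (htr σ (z : T.H V A)).symm)
    · obtain ⟨y, hy⟩ := hnormV z z.2
      exact ⟨y, Subtype.ext hy⟩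
    · let q₀ : T.signed A hV →+ T.NewQuot A hV V := (T.oldSpace A hV V).mkQ.toAddMonoidHom
      have h := Geometry.le_of_scalar (T.quotGalEnd hχ hA hV V) (M.map q₀)
        (fun σ => by
          rintro _ ⟨z, hz, rfl⟩
          exact ⟨_, hMstab σ z hz, rfl⟩)
        (φ := φ) (f := φ⁻¹) (g := g) (by rw [← map_mul, inv_mul_cancel, map_one]) h2 hg hff hgf
        (K := K.map q₀) (fun σ => by
          rintro _ ⟨z, hz, rfl⟩
          exact ⟨_, hK σ z hz, rfl⟩) κ (by
          rintro _ ⟨z, hz, rfl⟩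
          exact ⟨_, hscal z hz, rfl⟩)
      intro z hz
      obtain ⟨m, hm, he⟩ := h ⟨z, hz, rfl⟩
      have h' : z - m ∈ T.oldSpace A hV V := (Submodule.Quotient.eq _).mp he.symm
      rw [← sub_add_cancel z m]
      exact add_mem (hMold _ h') hm
  exact key ((Submodule.Quotient.mk_eq_zero R₀).mpr hx)

end ALSetup

end Fermat.Agent.TwoAdic
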