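import Fermat.Agent.HeckeJ0.Inputs
import Fermat.Agent.SemistableRed.AtkinLehner
import Fermat.Agent.FunctionFieldRR.PushPull
import Fermat.Agent.TwoAdic.Geometry.Instances

/-!
# Maps between the Jacobians of a cube of levels

The maps between the Jacobians of a cube of levels — pullback along an embedding of function
fields, and along the inclusion of `X₀` function fields of levels `M ∣ N`.
-/

set_option autoImplicit false

noncomputable section

open AlgebraicCurve ModularCurve

namespace Fermat.Agent.TwoAdic.Geometry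

local notation "Qbar" => AlgebraicClosure ℚ

section Generic

variable {K F F' : Type*} [Field K] [IsAlgClosed K] [Field F] [Field F'] [Algebra K F]
  [Algebra K F'] [FunctionFieldRR.IsFunctionField K F] [FunctionFieldRR.IsFunctionField K F']

/-- The pullback of divisors of degree zero along an embedding of function fields. -/
def pullDiv (φ : F →ₐ[K] F') :
    Divisor.degZero (K := K) (F := F) →+ Divisor.degZero (K := K) (F := F') :=
  haveI := FunctionFieldRR.hasPrincipalDivisors (K := K) (F := F')
  ((Divisor.pullbackAlong φ (HeckeJ0.isIntegral_of_isFunctionField φ)).domRestrict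
    (Divisor.degZero (K := K) (F := F))).codRestrict _ fun D =>
      Divisor.pullbackAlong_mem_degZero φ (HeckeJ0.isIntegral_of_isFunctionField φ)
        (FunctionFieldRR.fundamentalIdentityAlong φ (HeckeJ0.isIntegral_of_isFunctionField φ)
          (FunctionFieldRR.finiteAlong φ)) D.2

theorem coe_pullDiv (φ : F →ₐ[K] F') (D : Divisor.degZero (K := K) (F := F))
    (w : Place K F') :
    (pullDiv φ D : Divisor K F') w = (Place.ramificationIndexAlong φ w : ℤ) *
      (D : Divisor K F) (w.restrictAlong φ (HeckeJ0.isIntegral_of_isFunctionField φ)) := by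
  have := FunctionFieldRR.hasPrincipalDivisors (K := K) (F := F')
  let _ := algebraAlong φ
  have := isScalarTower_along φ
  have := isIntegral_along φ (HeckeJ0.isIntegral_of_isFunctionField φ)
  show Divisor.pullback F' (D : Divisor K F) w = _
  exact Divisor.pullback_apply (D : Divisor K F) w

/-- The pullback of divisor classes along an embedding of function fields. -/
def pullPic (φ : F →ₐ[K] F') : Pic0 K F →+ Pic0 K F' :=
  haveI := FunctionFieldRR.hasPrincipalDivisors (K := K) (F := F')
  QuotientAddGroup.map _ _ (pullDiv φ) (by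
    rintro ⟨D, hD0⟩ hD
    simp only [AddSubgroup.mem_addSubgroupOf, AddSubgroup.mem_comap] at hD ⊢
    exact Divisor.isPrincipal_pullbackAlong φ (HeckeJ0.isIntegral_of_isFunctionField φ) hD)

theorem pullPic_mk (φ : F →ₐ[K] F') (D : Divisor.degZero (K := K) (F := F)) :
    pullPic φ (Pic0.mk D) = Pic0.mk (pullDiv φ D) := rfl

/-- The image of a function with divisor `n D` has divisor `n` times the pullback. -/
theorem ord_pullDiv (φ : F →ₐ[K] F') (D : Divisor.degZero (K := K) (F := F)) {n : ℤ} {f : F}
    (hD : ∀ v, n * (D : Divisor K F) v = v.ord f) (w : Place K F') :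
    n * (pullDiv φ D : Divisor K F') w = w.ord (φ f) := by
  rw [coe_pullDiv, Place.ord_restrictAlong φ (HeckeJ0.isIntegral_of_isFunctionField φ) w f,
    ← hD, mul_left_comm]

omit [IsAlgClosed K] in
/-- Restriction of places along a composition. -/
theorem restrictAlong_comp {F'' : Type*} [Field F''] [Algebra K F'']
    [FunctionFieldRR.IsFunctionField K F''] (φ : F →ₐ[K] F') (ψ : F' →ₐ[K] F'')
    (w : Place K F'') :
    w.restrictAlong (ψ.comp φ) (HeckeJ0.isIntegral_of_isFunctionField (ψ.comp φ)) =
      (w.restrictAlong ψ (HeckeJ0.isIntegral_of_isFunctionField ψ)).restrictAlong φ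
        (HeckeJ0.isIntegral_of_isFunctionField φ) :=
  Place.ext (SetLike.ext fun _ => Iff.rfl)

omit [IsAlgClosed K] in
theorem ramificationIndexAlong_comp {F'' : Type*} [Field F''] [Algebra K F'']
    [FunctionFieldRR.IsFunctionField K F''] (φ : F →ₐ[K] F') (ψ : F' →ₐ[K] F'')
    (w : Place K F'') :
    (Place.ramificationIndexAlong (ψ.comp φ) w : ℤ) = Place.ramificationIndexAlong ψ w *
      Place.ramificationIndexAlong φ
        (w.restrictAlong ψ (HeckeJ0.isIntegral_of_isFunctionField ψ)) := by
  obtain ⟨π, hπ⟩ := IsDiscreteValuationRing.exists_irreducible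
    (w.restrictAlong (ψ.comp φ) (HeckeJ0.isIntegral_of_isFunctionField _)).toValuationSubring
  have h1 := Place.ord_restrictAlong (ψ.comp φ) (HeckeJ0.isIntegral_of_isFunctionField _) w π.1
  have h2 := Place.ord_coe_irreducible _ hπ
  rw [h2, mul_one, AlgHom.comp_apply,
    Place.ord_restrictAlong ψ (HeckeJ0.isIntegral_of_isFunctionField ψ),
    Place.ord_restrictAlong φ (HeckeJ0.isIntegral_of_isFunctionField φ),
    ← restrictAlong_comp φ ψ, h2, mul_one] at h1
  exact h1.symm

/-- Pullbacks compose. -/
theorem pullPic_comp {F'' : Type*} [Field F''] [Algebra K F'']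
    [FunctionFieldRR.IsFunctionField K F''] (φ : F →ₐ[K] F') (ψ : F' →ₐ[K] F'')
    (x : Pic0 K F) : pullPic ψ (pullPic φ x) = pullPic (ψ.comp φ) x := by
  obtain ⟨D, rfl⟩ := Pic0.mk_surjective x
  rw [pullPic_mk, pullPic_mk, pullPic_mk]
  refine congrArg Pic0.mk (Subtype.ext (Finsupp.ext fun w => ?_))
  rw [coe_pullDiv, coe_pullDiv, coe_pullDiv, ramificationIndexAlong_comp, restrictAlong_comp,
    mul_assoc]

theorem pullPic_id (x : Pic0 K F) : pullPic (AlgHom.id K F) x = x := by
  obtain ⟨D, rfl⟩ := Pic0.mk_surjective x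
  rw [pullPic_mk]
  refine congrArg Pic0.mk (Subtype.ext (Finsupp.ext fun w => ?_))
  have hw : w.restrictAlong (AlgHom.id K F) (HeckeJ0.isIntegral_of_isFunctionField _) = w :=
    Place.ext (SetLike.ext fun _ => Iff.rfl)
  obtain ⟨π, hπ⟩ := IsDiscreteValuationRing.exists_irreducible w.toValuationSubring
  have h1 := Place.ord_restrictAlong (AlgHom.id K F) (HeckeJ0.isIntegral_of_isFunctionField _) w π.1
  rw [hw, AlgHom.id_apply, Place.ord_coe_irreducible _ hπ, mul_one] at h1
  rw [coe_pullDiv, hw, ← h1, one_mul]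

/-- Pullback commutes with intertwined semilinear automorphisms. -/
theorem pullPic_smul {φ : F →ₐ[K] F'} {g : SemilinearAut K F} {g' : SemilinearAut K F'}
    (hg : SemilinearAut.IntertwinesAlong φ.toRingHom g g') (x : Pic0 K F) :
    pullPic φ (g • x) = g' • pullPic φ x := by
  have := FunctionFieldRR.hasPrincipalDivisors (K := K) (F := F')
  obtain ⟨D, rfl⟩ := Pic0.mk_surjective x
  rw [SemilinearAut.pic0_smul_mk, pullPic_mk, pullPic_mk, SemilinearAut.pic0_smul_mk]
  exact congrArg Pic0.mk (Subtype.ext
    (HeckeJ0.pullbackAlong_smul (HeckeJ0.isIntegral_of_isFunctionField φ) hg D.1))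

end Generic

section Levels

variable {M N : ℕ} [NeZero M] [NeZero N]

/-- The inclusion of the function fields of `X₀(M)` and `X₀(N)` for `M ∣ N`: same series. -/
def inclBar (h : M ∣ N) :
    ↥(modularFunctionFieldBar M) →ₐ[Qbar] ↥(modularFunctionFieldBar N) :=
  IntermediateField.inclusion (by
    rw [modularFunctionFieldBar, laurentBaseChange, IntermediateField.adjoin_le_iff]
    rintro _ ⟨y, hy, rfl⟩
    exact coeffEmb_mem_laurentBaseChange Qbar (full_degeneracy_le h hy))

@[simp] theorem coe_inclBar (h : M ∣ N) (x : ↥(modularFunctionFieldBar M)) :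
    (inclBar h x : LaurentSeries Qbar) = (x : LaurentSeries Qbar) :=
  IntermediateField.coe_inclusion _ x

theorem inclBar_eq_heckeAlphaBar (b : ℕ) [NeZero b] :
    inclBar (dvd_mul_right M b) = heckeAlphaBar Qbar M b :=
  AlgHom.ext fun x => Subtype.ext (by rw [coe_inclBar, coe_heckeAlphaBar])

theorem inclBar_galois (h : M ∣ N) (σ : Qbar ≃ₐ[ℚ] Qbar) (x : ↥(modularFunctionFieldBar M)) :
    inclBar h (arithmeticGalois (modularFunctionFieldFull M) σ • x) =
      arithmeticGalois (modularFunctionFieldFull N) σ • inclBar h x := by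
  refine Subtype.ext ?_
  rw [coe_inclBar, coe_arithmeticGalois_smul, coe_arithmeticGalois_smul, coe_inclBar]

theorem inclBar_comp {L : ℕ} [NeZero L] (h : M ∣ N) (h' : N ∣ L) :
    (inclBar h').comp (inclBar h) = inclBar (h.trans h') :=
  AlgHom.ext fun x => Subtype.ext (by
    rw [AlgHom.comp_apply, coe_inclBar, coe_inclBar, coe_inclBar])

/-- The degeneracy pullback `z ↦ z` on Jacobians. -/
def resPic (h : M ∣ N) : JZero M →+ JZero N :=
  pullPic (inclBar h)

theorem resPic_galois (h : M ∣ N) (σ : Qbar ≃ₐ[ℚ] Qbar) (x : JZero M) :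
    resPic h (σ • x) = σ • resPic h x := by
  rw [galois_smul_pic0_def, galois_smul_pic0_def]
  exact pullPic_smul (fun y => (inclBar_galois h σ y).symm) x

/-- The pullbacks between levels compose. -/
theorem resPic_resPic {L : ℕ} [NeZero L] (h : M ∣ N) (h' : N ∣ L) (x : JZero M) :
    resPic h' (resPic h x) = resPic (h.trans h') x := by
  rw [resPic, resPic, pullPic_comp, resPic]
  exact congrArg (fun φ => pullPic φ x) (inclBar_comp h h')

end Levels

section AtkinLehner

variable {M q : ℕ} [NeZero M] [NeZero q]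

/-- The Atkin–Lehner involution at `q` on the Jacobian of level `M q`. -/
def alPic (hq : q.Prime) (hqM : ¬ q ∣ M) : JZero (M * q) →+ JZero (M * q) :=
  pullPic (SemistableRed.wq hq hqM).toAlgHom

/-- The Atkin–Lehner involution on `J₀` is an involution. -/
theorem alPic_alPic (hq : q.Prime) (hqM : ¬ q ∣ M) (x : JZero (M * q)) :
    alPic hq hqM (alPic hq hqM x) = x := by
  rw [alPic, pullPic_comp]
  refine Eq.trans ?_ (pullPic_id x)
  exact congrArg (fun φ => pullPic φ x) (AlgHom.ext fun y => SemistableRed.wq_wq hq hqM y)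

theorem alPic_galois (hq : q.Prime) (hqM : ¬ q ∣ M) (σ : Qbar ≃ₐ[ℚ] Qbar) (x : JZero (M * q)) :
    alPic hq hqM (σ • x) = σ • alPic hq hqM x := by
  rw [galois_smul_pic0_def, galois_smul_pic0_def]
  exact pullPic_smul (fun y => (SemistableRed.wq_galois_smul hq hqM σ y).symm) x

/-- The second degeneracy pullback is the Atkin–Lehner involution after the first. -/
theorem alPic_resPic (hq : q.Prime) (hqM : ¬ q ∣ M) (x : JZero M) :
    alPic hq hqM (resPic (dvd_mul_right M q) x) = pullPic (heckeBetaBar Qbar M q) x := by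
  rw [alPic, resPic, pullPic_comp, inclBar_eq_heckeAlphaBar]
  exact congrArg (fun φ => pullPic φ x)
    (AlgHom.ext fun y => SemistableRed.wq_heckeAlphaBar hq hqM y)

end AtkinLehner

end Fermat.Agent.TwoAdic.Geometry

end
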