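import Fermat.Agent.TwoAdic.RowInvol
import Fermat.Agent.TwoAdic.Modules.NewQuotient

/-!
# The cube of a setup as a cube with rows

The cube of an `ALSetup` at residual coefficients, seen as a cube with rows: exact rows and the
socle condition at every prime give injective faces of the signed cube.
-/

set_option autoImplicit false

open IsLocalRing
open Fermat.Agent.HeckeModule

universe uG

namespace Fermat.Agent.TwoAdic

attribute [local instance] ALSetup.isPrime

namespace ALSetup

variable {O : Type} [CommRing O] [IsLocalRing O] (T : ALSetup O) {A : Type} [AddCommGroup A]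
  [Module O A]

variable (A) in
/-- The two degeneracy maps at `b` together. -/
noncomputable def pairUp (b : ℕ) (S U : Finset ℕ) : T.H S A × T.H S A →+ T.H U A :=
  if h : U ⊆ T.W ∧ S ⊆ U then
    (T.res A h.1 h.2).toAddMonoidHom.comp (AddMonoidHom.fst _ _) +
      ((T.w A h.1 b ∘ₗ T.res A h.1 h.2).toAddMonoidHom).comp (AddMonoidHom.snd _ _)
  else 0

lemma pairUp_apply {b : ℕ} {S U : Finset ℕ} (hU : U ⊆ T.W) (h : S ⊆ U)
    (v : T.H S A × T.H S A) :
    T.pairUp A b S U v = T.res A hU h v.1 + T.w A hU b (T.res A hU h v.2) := by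
  rw [pairUp, dif_pos ⟨hU, h⟩]
  rfl

variable (A) in
/-- The involution at `e`, total in the level. -/
noncomputable def invAll (e : ℕ) (U : Finset ℕ) : T.H U A →+ T.H U A :=
  if h : U ⊆ T.W then (T.w A h e).toAddMonoidHom else AddMonoidHom.id _

lemma invAll_apply {e : ℕ} {U : Finset ℕ} (hU : U ⊆ T.W) (x : T.H U A) :
    T.invAll A e U x = T.w A hU e x := by
  rw [invAll, dif_pos hU]
  rfl

section Residual

variable (hA : ∀ r ∈ maximalIdeal O, ∀ a : A, r • a = 0)

include hA in
lemma smul_eq_self_of_sub_one_mem {r : O} (hr : r - 1 ∈ maximalIdeal O) (a : A) : r • a = a := by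
  have h := hA _ hr a
  rwa [sub_smul, one_smul, sub_eq_zero] at h

include T hA in
lemma add_self_coeff (a : A) : a + a = 0 := by
  rw [← two_smul O]
  exact hA 2 T.two a

include hA in
lemma add_self_H (U : Finset ℕ) (x : T.H U A) : x + x = 0 := by
  induction x using LocalizedModule.induction_on with
  | _ u s =>
    obtain ⟨c, rfl⟩ := toCoh_surjective (scalarRep (T.char U) A) u
    rw [mk_add_mk_same, ← map_add, show c + c = 0 from
      Subtype.ext (funext fun γ => T.add_self_coeff hA (c.1 γ)), map_zero,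
      LocalizedModule.zero_mk]

include hA in
/-- The involutions of a level are exact. -/
theorem normExact_invAll {U : Finset ℕ} (hU : U ⊆ T.W) :
    NormExact (fun e => T.invAll A e U) ⊥ U := by
  intro V hV e he x hx
  have hfix : ∀ e' ∈ V, T.w A hU e' x = x := fun e' he' => by
    rw [← T.invAll_apply hU]
    exact sub_eq_zero.mp ((AddSubgroup.mem_bot).mp (hx e' he'))
  obtain ⟨v, hv, hxv⟩ := exists_norm_loc (T.isAL hU) (fun a ha => T.coprime_M (hU ha))
    (T.dvd_level U) T.χ T.c (isAway_awayMonoid T.m) (fun a ha => T.mem_S a (hU ha))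
    (fun u => smul_eq_self_of_sub_one_mem hA (T.char_one u))
    (fun e' he' => smul_eq_self_of_sub_one_mem hA ((T.alHyp hU).sign_one he'))
    (T.nonEisenstein hU) (T.add_self_coeff hA) V hV (T.twoLiftable hU hV) he x hfix
  refine ⟨v, fun e' he' hne => ?_, ?_⟩
  · rw [T.invAll_apply hU, AddSubgroup.mem_bot, sub_eq_zero]
    exact hv e' he' hne
  · show x - (v + T.invAll A e U v) ∈ (⊥ : AddSubgroup (T.H U A))
    rw [T.invAll_apply hU, AddSubgroup.mem_bot, sub_eq_zero]
    exact hxv

variable {V : Finset ℕ} (hV : V ⊆ T.W) {G : Type uG}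
  (C : RowCube ℕ V G fun U => T.H U A)
  (hup : ∀ U ⊆ V, ∀ b ∈ U, C.up b (U.erase b) U = T.pairUp A b (U.erase b) U)

/-- The involutions on a cube with rows. -/
noncomputable def rowInvol : RowInvol C where
  w e U := T.invAll A e U
  char_two U _ x := T.add_self_H hA U x
  w_w U hU e he x := by
    rw [T.invAll_apply (hU.trans hV), T.invAll_apply (hU.trans hV), T.w_w (hU.trans hV) he]
  w_comm U hU e he e' he' x := by
    simp only [T.invAll_apply (hU.trans hV)]
    exact T.w_comm (hU.trans hV) he he' x
  w_up U hU b hb e he hne v := by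
    have hUW := hU.trans hV
    have he' : e ∈ U.erase b := Finset.mem_erase.mpr ⟨hne, he⟩
    rw [hup U hU b hb, T.invAll_apply hUW, T.pairUp_apply hUW (U.erase_subset b),
      T.pairUp_apply hUW (U.erase_subset b), map_add, T.w_comm hUW he hb,
      T.w_res hUW (U.erase_subset b) he', T.w_res hUW (U.erase_subset b) he',
      T.invAll_apply ((U.erase_subset b).trans hUW), T.invAll_apply ((U.erase_subset b).trans hUW)]
  w_up_self U hU b hb v := by
    have hUW := hU.trans hV
    rw [hup U hU b hb, T.invAll_apply hUW, T.pairUp_apply hUW (U.erase_subset b),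
      T.pairUp_apply hUW (U.erase_subset b), map_add, T.w_w hUW hb, add_comm]
  exact U hU := T.normExact_invAll hA (hU.trans hV)

lemma rowInvol_mem_fixed {U : Finset ℕ} (hU : U ⊆ V) {x : T.H U A} :
    x ∈ (T.rowInvol hA hV C hup).fixed U ↔ x ∈ T.signed A (hU.trans hV) := by
  rw [RowInvol.mem_fixed, T.mem_signed]
  exact forall₂_congr fun e _ => by
    show T.invAll A e U x = x ↔ _
    rw [T.invAll_apply (hU.trans hV)]

include hup in
lemma coe_oldSigned_eq_up {U : Finset ℕ} (hU : U ⊆ V) {b : ℕ} (hb : b ∈ U)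
    (x : T.signed A (((U.erase_subset b).trans hU).trans hV)) :
    (T.oldSigned A (hU.trans hV) hb x : T.H U A) =
      C.up b (U.erase b) U ((x : T.H (U.erase b) A), (x : T.H (U.erase b) A)) := by
  rw [hup U hU b hb, T.pairUp_apply (hU.trans hV) (U.erase_subset b)]
  rfl

include hA hup in
/-- The old part of the signed cube. -/
lemma map_oldSpace {U : Finset ℕ} (hU : U ⊆ V) {B : Finset ℕ} (hB : B ⊆ U) :
    ((T.oldSpace A (hU.trans hV) B).map (T.signed A (hU.trans hV)).subtype).toAddSubgroup =
      (T.rowInvol hA hV C hup).signedOld B U := by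
  refine le_antisymm ?_ (Finset.sup_le fun b hb => ?_)
  · rintro _ ⟨y, hy, rfl⟩
    show (y : T.H U A) ∈ (T.rowInvol hA hV C hup).signedOld B U
    induction hy using Submodule.iSup_induction' with
    | mem c y hy =>
      induction hy using Submodule.iSup_induction' with
      | mem hcU y hy =>
        induction hy using Submodule.iSup_induction' with
        | mem hcB y hy =>
          obtain ⟨x, rfl⟩ := hy
          rw [T.coe_oldSigned_eq_up hV C hup hU hcU]
          refine (Finset.le_sup (f := fun b => ((T.rowInvol hA hV C hup).fixed (U.erase b)).map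
            ((C.up b (U.erase b) U).comp ((AddMonoidHom.id _).prod (AddMonoidHom.id _)))) hcB) ?_
          exact ⟨x, (T.rowInvol_mem_fixed hA hV C hup ((U.erase_subset c).trans hU)).mpr x.2, rfl⟩
        | zero => exact zero_mem _
        | add y z _ _ hy hz => exact add_mem hy hz
      | zero => exact zero_mem _
      | add y z _ _ hy hz => exact add_mem hy hz
    | zero => exact zero_mem _
    | add y z _ _ hy hz => exact add_mem hy hz
  · rintro _ ⟨y, hy, rfl⟩
    refine ⟨T.oldSigned A (hU.trans hV) (hB hb) ⟨y, (T.rowInvol_mem_fixed hA hV C hup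
      ((U.erase_subset b).trans hU)).mp hy⟩, T.oldSigned_mem_oldSpace A _ (hB hb) hb _, ?_⟩
    exact T.coe_oldSigned_eq_up hV C hup hU (hB hb) _

include hA hup in
/-- **Faces are injective.** Exact rows and the socle condition make the cube injective. -/
theorem faceMap_injective_of_rows (hsoc : C.SocleHyp) {U : Finset ℕ} (hU : U ⊆ V) {B₀ : Finset ℕ}
    {b : ℕ} (hb : b ∈ U) (hB : B₀ ⊆ U) (hbB : b ∉ B₀) :
    Function.Injective (T.faceMap A (hU.trans hV) hb B₀) := by
  refine (injective_iff_map_eq_zero _).mpr fun q hq => ?_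
  obtain ⟨x, rfl⟩ := Submodule.mkQ_surjective _ q
  have hx : T.oldSigned A (hU.trans hV) hb x ∈ T.oldSpace A (hU.trans hV) B₀ :=
    (Submodule.Quotient.mk_eq_zero _).mp hq
  have hUb : U.erase b ⊆ V := (U.erase_subset b).trans hU
  have hBb : B₀ ⊆ U.erase b := fun c hc => Finset.mem_erase.mpr ⟨fun h => hbB (h ▸ hc), hB hc⟩
  have h := (T.rowInvol hA hV C hup).signed_injective hsoc hU hB hb hbB
    ((T.rowInvol_mem_fixed hA hV C hup hUb).mpr x.2) (by
      rw [← T.coe_oldSigned_eq_up hV C hup hU hb, ← T.map_oldSpace hA hV C hup hU hB]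
      exact ⟨_, hx, rfl⟩)
  rw [← T.map_oldSpace hA hV C hup hUb hBb] at h
  obtain ⟨y, hy, hyx⟩ := h
  refine (Submodule.Quotient.mk_eq_zero _).mpr ?_
  rwa [← Subtype.ext hyx]

end Residual

/-- The residue ring is killed by the maximal ideal. -/
lemma smul_quotient_eq_zero {O : Type} [CommRing O] [IsLocalRing O] (r : O)
    (hr : r ∈ maximalIdeal O) (a : O ⧸ maximalIdeal O) : r • a = 0 := by
  obtain ⟨a, rfl⟩ := Submodule.Quotient.mk_surjective _ a
  rw [← Submodule.Quotient.mk_smul, Submodule.Quotient.mk_eq_zero]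
  exact Ideal.mul_mem_right _ _ hr

/-- **The cube of a setup is injective** when it has exact rows and the socle condition. -/
theorem cubeInjective_of_rows {O : Type} [CommRing O] [IsLocalRing O] (T : ALSetup O)
    {V : Finset ℕ} (hV : V ⊆ T.W) {G : Type uG}
    (C : RowCube ℕ V G fun U => T.H U (O ⧸ maximalIdeal O))
    (hup : ∀ U ⊆ V, ∀ b ∈ U,
      C.up b (U.erase b) U = T.pairUp (O ⧸ maximalIdeal O) b (U.erase b) U)
    (hsoc : C.SocleHyp) (B : Finset ℕ) : T.CubeInjective hV B :=
  fun _ hU _ _ hb hB _ _ hbB => T.faceMap_injective_of_rows smul_quotient_eq_zero hV C hup hsoc hU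
    hb hB hbB

end ALSetup

end Fermat.Agent.TwoAdic
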