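import Fermat.Agent.TwoAdic.RowDescent
import Fermat.Agent.TwoAdic.Geometry.CubeRows
import Fermat.Agent.TwoAdic.Geometry.Bridge.Frobenius
import Fermat.Agent.TwoAdic.Modules.RelaxIso

/-!
# The socle condition of the residual cube

The socle condition of the residual cube: at every prime the twisted Frobenius is an element of
trace zero which, with an element of trace one, behaves like a transposition and a three-cycle.
-/

set_option autoImplicit false

noncomputable section

open IsLocalRing
open Fermat.Agent.HeckeModule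

universe uι uE uG

namespace Fermat.Agent.TwoAdic

namespace RowCube

variable {ι : Type uι} [DecidableEq ι] {W : Finset ι} {G : Type uG}
  {E : Finset ι → Type uE} [∀ U, AddCommGroup (E U)] (C : RowCube ι W G E)

/-- The action as an endomorphism of the group of a level. -/
def actEnd (g : G) (S : Finset ι) : AddMonoid.End (E S) := C.act g S

/-- **Socle condition from a transposition and a three-cycle.** -/
theorem socleHyp_of_transposition
    (h : ∀ a ∈ W, ∀ S : Finset ι, S ⊆ W → a ∉ S → ∃ f g : G, C.V a S = C.act f S ∧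
      IsNilpotent (2 : AddMonoid.End (E S)) ∧
      IsNilpotent (C.actEnd g S * C.actEnd g S + C.actEnd g S + 1) ∧
      IsNilpotent (C.actEnd f S * C.actEnd f S - 1) ∧
      IsNilpotent (C.actEnd g S * C.actEnd f S * (C.actEnd g S * C.actEnd f S) - 1)) :
    C.SocleHyp := by
  intro B U hU hB a ha haB K hK hKstab hcomm
  have hUa : U.erase a ⊆ W := (U.erase_subset a).trans hU
  have hBa : B ⊆ U.erase a := fun c hc => Finset.mem_erase.mpr ⟨fun h => haB (h ▸ hc), hB hc⟩
  obtain ⟨f, g, hf, h2, hgg, hff, hgf⟩ := h a (hU ha) (U.erase a) hUa (Finset.notMem_erase a U)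
  set P := C.old B (U.erase a) with hP
  -- endomorphisms preserving `K` and the old part
  let S : Subring (AddMonoid.End (E (U.erase a))) :=
    { carrier := {u | (∀ x ∈ K, u x ∈ K) ∧ ∀ x ∈ P, u x ∈ P}
      mul_mem' := fun {u v} hu hv => ⟨fun x hx => hu.1 _ (hv.1 x hx), fun x hx => hu.2 _ (hv.2 x hx)⟩
      one_mem' := ⟨fun x hx => hx, fun x hx => hx⟩
      add_mem' := fun {u v} hu hv =>
        ⟨fun x hx => add_mem (hu.1 x hx) (hv.1 x hx), fun x hx => add_mem (hu.2 x hx) (hv.2 x hx)⟩
      zero_mem' := ⟨fun x _ => zero_mem K, fun x _ => zero_mem P⟩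
      neg_mem' := fun {u} hu =>
        ⟨fun x hx => neg_mem (hu.1 x hx), fun x hx => neg_mem (hu.2 x hx)⟩ }
  have hg : C.actEnd g (U.erase a) ∈ S :=
    ⟨hKstab g, fun x hx => C.act_old hUa hBa g hx⟩
  have hfS : C.actEnd f (U.erase a) ∈ S :=
    ⟨hKstab f, fun x hx => C.act_old hUa hBa f hx⟩
  let ind : S → AddMonoid.End (K ⧸ P.addSubgroupOf K) := fun u =>
    QuotientAddGroup.map _ _
      (((u : AddMonoid.End (E (U.erase a))).comp K.subtype).codRestrict K fun x => u.2.1 x x.2)
      fun x hx => u.2.2 _ hx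
  let π : S →+* AddMonoid.End (K ⧸ P.addSubgroupOf K) :=
    { toFun := ind
      map_one' := AddMonoidHom.ext fun q => by
        obtain ⟨x, rfl⟩ := QuotientAddGroup.mk_surjective q; rfl
      map_mul' := fun u v => AddMonoidHom.ext fun q => by
        obtain ⟨x, rfl⟩ := QuotientAddGroup.mk_surjective q; rfl
      map_zero' := AddMonoidHom.ext fun q => by
        obtain ⟨x, rfl⟩ := QuotientAddGroup.mk_surjective q; rfl
      map_add' := fun u v => AddMonoidHom.ext fun q => by
        obtain ⟨x, rfl⟩ := QuotientAddGroup.mk_surjective q; rfl }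
  have hnil : ∀ u : S, IsNilpotent (u : AddMonoid.End (E (U.erase a))) → IsNilpotent (π u) := by
    rintro u ⟨n, hn⟩
    exact IsNilpotent.map (⟨n, Subtype.ext (by rw [SubmonoidClass.coe_pow, hn]; rfl)⟩ :
      IsNilpotent u) π
  let gs : S := ⟨_, hg⟩
  let fs : S := ⟨_, hfS⟩
  have hsub : Subsingleton (AddMonoid.End (K ⧸ P.addSubgroupOf K)) := by
    refine subsingleton_of_transposition (h := π gs) (F := π fs) ?_ ?_ ?_ ?_ ?_
    · refine AddMonoidHom.ext fun q => ?_
      obtain ⟨x, rfl⟩ := QuotientAddGroup.mk_surjective q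
      show (QuotientAddGroup.mk (⟨C.act g _ (C.act f _ x), _⟩ : K) : K ⧸ P.addSubgroupOf K) =
        QuotientAddGroup.mk (⟨C.act f _ (C.act g _ x), _⟩ : K)
      refine (QuotientAddGroup.eq_iff_sub_mem).mpr ?_
      show C.act g _ (C.act f _ x) - C.act f _ (C.act g _ x) ∈ P
      have hx := hcomm g x x.2
      rwa [hf] at hx
    · simpa only [map_ofNat] using hnil 2 h2
    · simpa only [map_mul, map_add, map_one] using hnil (gs * gs + gs + 1) hgg
    · simpa only [map_mul, map_sub, map_one] using hnil (fs * fs - 1) hff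
    · simpa only [map_mul, map_sub, map_one] using hnil (gs * fs * (gs * fs) - 1) hgf
  intro x hx
  have h1 : (1 : AddMonoid.End (K ⧸ P.addSubgroupOf K)) = 0 := Subsingleton.elim _ _
  have h0 := DFunLike.congr_fun h1 (QuotientAddGroup.mk (⟨x, hx⟩ : K))
  exact (QuotientAddGroup.eq_zero_iff (⟨x, hx⟩ : K)).mp h0

end RowCube

attribute [local instance] ALSetup.isPrime

namespace ALSetup

variable {O : Type} [CommRing O] [IsLocalRing O] (T : ALSetup O) {A : Type} [AddCommGroup A]
  [Module O A]

local notation "Γ" => AlgebraicClosure ℚ ≃ₐ[ℚ] AlgebraicClosure ℚ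

/-- The Hecke operators at Frobenius elements close to `σ` are `c` modulo the prime of the setup. -/
def TraceAt (σ : Γ) (c : O) : Prop :=
  ∃ L : IntermediateField ℚ (AlgebraicClosure ℚ), FiniteDimensional ℚ L ∧
    ∀ (l : ℕ) (hl : l.Prime) (hS : l ∉ T.S) (B : ValuationSubring (AlgebraicClosure ℚ)),
      B.LiesOverPrime l → ∀ φ : Γ, B.IsFrobeniusAt φ l → (∀ a ∈ L, φ a = σ a) →
        awayX O hl hS - MvPolynomial.C c ∈ T.m

variable (hA : ∀ r ∈ maximalIdeal O, ∀ a : A, r • a = 0)

include hA in
lemma smul_H_eq_zero (U : Finset ℕ) {r : O} (hr : r ∈ maximalIdeal O) (x : T.H U A) :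
    r • x = 0 := by
  induction x using LocalizedModule.induction_on with
  | _ u s =>
    obtain ⟨c, rfl⟩ := toCoh_surjective (scalarRep (T.char U) A) u
    rw [LocalizedModule.smul'_mk, ← map_smul, show r • c = 0 from
      Subtype.ext (funext fun γ => hA r hr (c.1 γ)), map_zero, LocalizedModule.zero_mk]

include T hA in
lemma two_pow_one_smul (a : A) : 2 ^ 1 • a = 0 := by
  rw [pow_one, two_nsmul]
  exact T.add_self_coeff hA a

variable (hχ : T.χ = 1) {U : Finset ℕ} (hU : U ⊆ T.W) [NeZero (T.level U)]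
  [Module.Finite O (T.H U A)]

/-- The residual Galois action as an endomorphism of the group. -/
def galEnd (σ : Γ) : AddMonoid.End (T.H U A) :=
  (Bridge.setupGal T hχ hU (T.two_pow_one_smul hA) σ).toAddMonoidHom

variable (U A) in
/-- A scalar as an endomorphism of the group. -/
def scalarEnd (c : O) : AddMonoid.End (T.H U A) := DistribSMul.toAddMonoidHom (T.H U A) c

/-- An element with known trace satisfies its residual quadratic equation up to nilpotents. -/
theorem exists_nilpotent_relation (hes : EigenRep.EichlerShimuraRelations (T.level U) 2)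
    (hS : T.S.Finite) {σ : Γ} {c : O} (hc : T.TraceAt σ c) :
    IsNilpotent (T.galEnd hA hχ hU σ * T.galEnd hA hχ hU σ -
      T.scalarEnd A U c * T.galEnd hA hχ hU σ + 1) := by
  classical
  obtain ⟨L, hL, hLc⟩ := hc
  have := hL
  set g := Bridge.setupGal T hχ hU (T.two_pow_one_smul hA) σ with hg
  obtain ⟨l, hl, hlS, hlN, ⟨B, hB, φ, hφ, hφσ⟩, hrel⟩ :=
    Bridge.exists_relation T hχ hU (T.two_pow_one_smul hA) hes hS L σ
  have hm := hLc l hl hlS B hB φ hφ hφσ
  set a := awayX O hl hlS - MvPolynomial.C c with ha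
  obtain ⟨n, hn⟩ := (mem_nilModIdeal _).mp
    (awayIncl_mem_nilModIdeal (A := A) (ρ := scalarRep (T.char U) A) T.m hm)
  let X : AddMonoid.End (T.H U A) :=
    DistribSMul.toAddMonoidHom (T.H U A) (awayIncl O T.S a)
  have hXn : X ^ n = 0 := by
    have hpow : ∀ (i : ℕ) x, (X ^ i) x = awayIncl O T.S a ^ i • x := by
      intro i
      induction i with
      | zero => exact fun x => (one_smul _ x).symm
      | succ i ih =>
        intro x
        rw [pow_succ', pow_succ', mul_smul, ← ih]
        rfl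
    refine AddMonoidHom.ext fun x => ?_
    refine (hpow n x).trans ?_
    have hx := hn x
    rw [show maximalIdeal O • (⊤ : Submodule O (T.H U A)) = ⊥ from eq_bot_iff.mpr
      (Submodule.smul_le.mpr fun r hr y _ => by
        rw [Submodule.mem_bot]; exact T.smul_H_eq_zero hA U hr y), Submodule.mem_bot] at hx
    exact hx
  have hcomm : Commute X (T.galEnd hA hχ hU σ) := AddMonoidHom.ext fun x =>
    (Bridge.setupGal_smul T hχ hU (T.two_pow_one_smul hA) σ a x).symm
  have hodd : ∀ x : T.H U A, l • x = x := fun x => by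
    obtain ⟨j, rfl⟩ : Odd l := Nat.not_even_iff_odd.mp fun he =>
      hlN (((Nat.prime_dvd_prime_iff_eq Nat.prime_two hl).mp (even_iff_two_dvd.mp he)).symm ▸
        dvd_mul_left _ _)
    rw [add_smul, one_smul, mul_smul, two_nsmul, T.add_self_H hA, zero_add]
  have e : T.galEnd hA hχ hU σ * T.galEnd hA hχ hU σ - T.scalarEnd A U c * T.galEnd hA hχ hU σ + 1
      = X * T.galEnd hA hχ hU σ := by
    refine AddMonoidHom.ext fun x => ?_
    show g (g x) - c • g x + x = awayIncl O T.S a • g x
    have h := hrel x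
    rw [hodd] at h
    rw [ha, map_sub, sub_smul, ← MvPolynomial.algebraMap_eq, AlgHom.commutes, algebraMap_smul,
      ← sub_eq_zero, ← h]
    abel
  rw [e]
  exact hcomm.isNilpotent_mul_right ⟨n, hXn⟩

end ALSetup

namespace ALSetup

variable {O : Type} [CommRing O] [IsLocalRing O] [IsNoetherianRing O]
  [IsAdicComplete (maximalIdeal O) O] (T : ALSetup O)

local notation "Γ" => AlgebraicClosure ℚ ≃ₐ[ℚ] AlgebraicClosure ℚ

/-- **The socle condition of the residual cube.** -/
theorem socleHyp_of_traces {A : Type} [AddCommGroup A] [Module O A] [Module.Finite O A]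
    (hA : ∀ r ∈ maximalIdeal O, ∀ a : A, r • a = 0) (hχ : T.χ = 1) (hS : T.S.Finite)
    (hes : ∀ (U : Finset ℕ) [NeZero (T.level U)],
      EigenRep.EichlerShimuraRelations (T.level U) 2)
    {V : Finset ℕ} (hV : V ⊆ T.W) (C : RowCube ℕ V Γ fun U => T.H U A)
    (hact : ∀ (U : Finset ℕ) (hU : U ⊆ V) [NeZero (T.level U)] (σ : Γ),
      C.act σ U = (Bridge.setupGal T hχ (hU.trans hV) (T.two_pow_one_smul hA) σ).toAddMonoidHom)
    (hVa : ∀ a ∈ V, ∃ f g : Γ, T.TraceAt f 0 ∧ T.TraceAt g 1 ∧ T.TraceAt (g * f) 0 ∧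
      ∀ U ⊆ V, a ∉ U → C.V a U = C.act f U) :
    C.SocleHyp := by
  refine C.socleHyp_of_transposition fun a ha S hS' haS => ?_
  have hSW := hS'.trans hV
  have : NeZero (T.level S) := ⟨T.level_ne_zero hSW⟩
  have := T.finite_H (A := A) hSW
  obtain ⟨f, g, hf, hg, hgf, hCV⟩ := hVa a ha
  have two_end : (2 : AddMonoid.End (T.H S A)) = 0 := by
    refine AddMonoidHom.ext fun x => ?_
    show (2 : AddMonoid.End (T.H S A)) x = 0
    rw [← one_add_one_eq_two]
    exact T.add_self_H hA S x
  have sub_eq : ∀ u v : AddMonoid.End (T.H S A), u - v = u + v := fun u v => by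
    rw [sub_eq_add_neg, neg_eq_of_add_eq_zero_right
      (show v + v = 0 by rw [← two_mul, two_end, zero_mul])]
  have hz : T.scalarEnd A S (0 : O) = 0 := AddMonoidHom.ext fun x => zero_smul O x
  have ho : T.scalarEnd A S (1 : O) = 1 := AddMonoidHom.ext fun x => one_smul O x
  have hgal : ∀ σ, C.actEnd σ S = T.galEnd hA hχ hSW σ := fun σ => hact S hS' σ
  have hmul : T.galEnd hA hχ hSW g * T.galEnd hA hχ hSW f = T.galEnd hA hχ hSW (g * f) :=
    AddMonoidHom.ext fun x =>
      (LinearMap.congr_fun (map_mul (Bridge.setupGal T hχ hSW (T.two_pow_one_smul hA)) g f) x).symm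
  refine ⟨f, g, hCV S hS' haS, by rw [two_end]; exact IsNilpotent.zero, ?_, ?_, ?_⟩
  · have h := T.exists_nilpotent_relation hA hχ hSW (hes S) hS hg
    rw [ho, one_mul, sub_eq] at h
    rw [hgal g]
    exact h
  · have h := T.exists_nilpotent_relation hA hχ hSW (hes S) hS hf
    rw [hz, zero_mul, sub_zero] at h
    rw [hgal f, sub_eq]
    exact h
  · have h := T.exists_nilpotent_relation hA hχ hSW (hes S) hS hgf
    rw [hz, zero_mul, sub_zero, ← hmul] at h
    rw [hgal f, hgal g, sub_eq]
    exact h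

end ALSetup

end Fermat.Agent.TwoAdic
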