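import Fermat.Agent.TwoAdic.Geometry.CubeFill
import Fermat.Agent.TwoAdic.Route.BasePrimes

/-!
# Injective faces for the base setup

The residual cube of a base setup has injective faces at primes with transposition Frobenius, in
particular at the auxiliary primes and at the primes dividing `D`.
-/

set_option autoImplicit false

noncomputable section

open IsLocalRing GaloisRep Fermat.Agent.DefRing
open Fermat.Agent.HeckeModule Fermat.Agent.HeckeJ0 Fermat.Agent.LevelRaising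

namespace Fermat.Agent.TwoAdic.TopDown

local notation "Ω" => AlgebraicClosure ℚ

variable {O : Type} [CommRing O] [IsLocalRing O] [IsNoetherianRing O]
  [IsAdicComplete (maximalIdeal O) O] [Finite (ResidueField O)] [CharP (ResidueField O) 2] {D : ℕ}
  {r : MRep (ResidueField O)} {Sm R : Finset ℕ} {t : ℕ → O} (T : ALSetup O)

/-- **The faces of the residual cube of a base setup are injective** at primes with transposition
Frobenius. -/
theorem cubeInjective_base (hχ : T.χ = 1) (hS : T.S.Finite) {V : Finset ℕ} (hV : V ⊆ T.W)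
    (h2V : 2 ∉ V) (hdih : IsDihedralResidual D r) (hD : 0 < D) (hcont : IsCont r)
    (hmod : IsResiduallyModular D r Sm)
    (hm : ∀ (l : AwayIndex T.S) (o : O), MvPolynomial.X l - MvPolynomial.C o ∈ T.m ↔
      baseEigen r R t ((l : Nat.Primes) : ℕ) = residue O o)
    (hSm : ∀ ℓ ∈ Sm, ℓ.Prime → ℓ ≠ 2 → ℓ ∈ T.S) (hR : ∀ e ∈ R, 2 ≤ e)
    (htransp : ∀ a ∈ V, ∃ (P : ValuationSubring Ω) (φ : GQ),
      P.LiesOverPrime a ∧ P.IsFrobeniusAt φ a ∧ (r φ).trace = 0 ∧ r φ ≠ 1)
    (B : Finset ℕ) : T.CubeInjective hV B := by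
  refine T.cubeInjective_of_frobenius hχ hS hV h2V (fun a ha => ?_) B
  obtain ⟨P, φ, hP, hφ, htr, hne⟩ := htransp a ha
  obtain ⟨g, hg⟩ := exists_traceAt_cube T hdih hD hcont hmod hm hSm hR (T.prime a (hV ha)) hP hφ
    htr hne
  exact ⟨P, φ, g, hP, hφ, hg⟩

/-- The same on primes dividing `D` together with primes given with their Frobenius elements. -/
theorem cubeInjective_base_union (hχ : T.χ = 1) (hS : T.S.Finite) {V₀ Q : Finset ℕ}
    (hV : V₀ ∪ Q ⊆ T.W) (h2Q : 2 ∉ Q) (hdih : IsDihedralResidual D r) (hD : Squarefree D)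
    (hodd : Odd D) (hV₀ : ∀ a ∈ V₀, a ∣ D) (hcont : IsCont r)
    (hmod : IsResiduallyModular D r Sm)
    (hm : ∀ (l : AwayIndex T.S) (o : O), MvPolynomial.X l - MvPolynomial.C o ∈ T.m ↔
      baseEigen r R t ((l : Nat.Primes) : ℕ) = residue O o)
    (hSm : ∀ ℓ ∈ Sm, ℓ.Prime → ℓ ≠ 2 → ℓ ∈ T.S) (hR : ∀ e ∈ R, 2 ≤ e)
    (P : ℕ → ValuationSubring Ω) (φ : ℕ → GQ)
    (hP : ∀ q ∈ Q, (P q).LiesOverPrime q ∧ (P q).IsFrobeniusAt (φ q) q ∧
      (r (φ q)).trace = 0 ∧ r (φ q) ≠ 1)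
    (B : Finset ℕ) : T.CubeInjective hV B := by
  refine cubeInjective_base T hχ hS hV (fun h2 => ?_) hdih (Nat.pos_of_ne_zero hD.ne_zero) hcont
    hmod hm hSm hR (fun a ha => ?_) B
  · rcases Finset.mem_union.mp h2 with h | h
    · exact Nat.not_even_iff_odd.mpr hodd (even_iff_two_dvd.mpr (hV₀ 2 h))
    · exact h2Q h
  · rcases Finset.mem_union.mp ha with h | h
    · have hap := T.prime a (hV ha)
      obtain ⟨A, hA⟩ := Frobenius.exists_liesOverPrime Ω hap
      obtain ⟨ψ, hψ⟩ := exists_frobenius_transp hdih hD hodd hap (hV₀ a h) hA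
      exact ⟨A, ψ, hA, hψ⟩
    · exact ⟨P a, φ a, hP a h⟩

end Fermat.Agent.TwoAdic.TopDown

end
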