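import Fermat.Agent.TwoAdic.Geometry.RowSetup

/-!
# The rows at the Atkin–Lehner primes

The rows hold at every Atkin–Lehner prime of a setup.
-/

set_option autoImplicit false

noncomputable section

open AlgebraicCurve ModularCurve IsLocalRing

namespace Fermat.Agent.TwoAdic.Geometry

attribute [local instance] ALSetup.isPrime

local notation "Qbar" => AlgebraicClosure ℚ

variable {O : Type} [CommRing O] [IsLocalRing O] (T : ALSetup O)

/-- **The rows hold** at the primes of `T.W` other than `p`. -/
theorem setup_rowLaws {V : Finset ℕ} (hV : V ⊆ T.W) {a : ℕ} (ha : a ∈ V) [NeZero a]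
    [NeZero (T.level V)] [NeZero (T.level (V.erase a))] {p : ℕ} [Fact p.Prime] (hpa : p ≠ a)
    {A : ValuationSubring Qbar} (hA : A.LiesOverPrime a) {σ₀ φ : Qbar ≃ₐ[ℚ] Qbar}
    (hσ₀ : TameInertia.IsTameGenerator A p a σ₀) (hφ : A.IsFrobeniusAt φ a) :
    RowLaws (level_erase T ha) p σ₀ φ := by
  have hd : T.core ∣ T.level (V.erase a) := dvd_mul_right _ _
  refine rowLaws (level_erase T ha) (T.prime a (hV ha))
    (T.not_dvd_level ((V.erase_subset a).trans hV) (hV ha) (Finset.notMem_erase a V)) hpa
    (fun t h => T.elliptic₄ (ZMod.castHom hd (ZMod T.core) t) ?_)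
    (fun t h => T.elliptic₃ (ZMod.castHom hd (ZMod T.core) t) ?_) hA hσ₀ hφ
  · simpa only [map_add, map_pow, map_one, map_zero] using congrArg (ZMod.castHom hd (ZMod T.core)) h
  · simpa only [map_add, map_pow, map_one, map_zero] using congrArg (ZMod.castHom hd (ZMod T.core)) h

end Fermat.Agent.TwoAdic.Geometry

end
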