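import Fermat.Agent.TwoAdic.Geometry.RowSetup

/-!
# Naturality of the reductions

The reductions at `a` commute with the maps of the cube at the other primes, the involution at `a`
swaps them, and the trace to the level without `a` is read off them.
-/

set_option autoImplicit false
set_option linter.unusedSectionVars false

noncomputable section

open AlgebraicCurve ModularCurve IsLocalRing

universe uκ

namespace Fermat.Agent.TwoAdic.Geometry

open HeckeJ0 HeckeModule EigenSystems Bridge

attribute [local instance] ALSetup.isPrime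

local notation "Qbar" => AlgebraicClosure ℚ

section Split

variable {M q N : ℕ} [NeZero M] [NeZero q] [NeZero N] {h : M * q = N} {p : ℕ}
  {σ₀ φ : Qbar ≃ₐ[ℚ] Qbar}

/-- The involution at `q` swaps the reductions. -/
theorem RowSplit.swap (hq : q.Prime) (hqM : ¬ q ∣ M) {x : JZero N} {y : JZero M × JZero M}
    (hx : RowSplit h p σ₀ φ x y) :
    RowSplit h p σ₀ φ (Bridge.alAt hq hqM h x) (y.2, y.1) := by
  obtain ⟨u, e, k, hu, he, rfl, rfl⟩ := hx
  refine ⟨(u.2, u.1), Bridge.alAt hq hqM h e, k, ?_, ?_, ?_, ?_⟩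
  · exact Prod.ext (by rw [Prod.smul_fst, ← Prod.smul_snd, hu]; rfl)
      (by rw [Prod.smul_snd, ← Prod.smul_fst, hu]; rfl)
  · rw [← map_nsmul, he, map_zero]
  · have hinv : ∀ z, Bridge.alAt hq hqM h (resPic (Dvd.intro q h) z) = Bridge.betaPic h z := by
      subst h
      intro z
      rw [alAt_rfl, betaPic_rfl, alPic_resPic]
    rw [map_add, map_sub, alAt_galois, pairPull_apply, map_add, hinv, alAt_betaPic hq hqM h,
      pairPull_apply, add_comm (Bridge.betaPic h u.1)]
  · rw [mixPic_apply, mixPic_apply]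
    exact Prod.ext (add_comm _ _) (add_comm _ _)

/-- The push forward along `z ↦ q z` from the reductions: `Tr` has the values of the push forward
on the two pullbacks. -/
theorem RowSplit.trace (R : RowLaws h p σ₀ φ) {Tr : JZero N →+ JZero M}
    (hσ : ∀ (k : ℕ) x, p ^ k • x = 0 → Tr (σ₀ • x) = σ₀ • Tr x)
    (hα : ∀ (k : ℕ) u, p ^ k • u = 0 →
      Tr (resPic (Dvd.intro q h) u) = φ • u + q • (φ⁻¹ • u))
    (hβ : ∀ (k : ℕ) u, p ^ k • u = 0 → Tr (Bridge.betaPic h u) = (q + 1) • u)
    {x : JZero N} {y : JZero M × JZero M} (hx : RowSplit h p σ₀ φ x y) :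
    Tr x = y.2 + φ • y.1 := by
  obtain ⟨u, e, k, hu, he, rfl, rfl⟩ := hx
  have hu1 : p ^ k • u.1 = 0 := by rw [← Prod.smul_fst, hu]; rfl
  have hu2 : p ^ k • u.2 = 0 := by rw [← Prod.smul_snd, hu]; rfl
  set Φ := DistribSMul.toAddMonoidHom (JZero M) φ
  rw [map_add, map_sub, hσ k e he, R.level_fixed (k := k) (by rw [← map_nsmul, he, map_zero]),
    sub_self, add_zero, pairPull_apply, map_add, hα k _ hu1, hβ k _ hu2, mixPic_apply]
  show _ = vPic M q φ u.1 + u.2 + Φ (u.1 + vPic M q φ u.2)
  rw [map_add, vPic_apply, vPic_apply, map_nsmul]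
  show _ = q • (φ⁻¹ • u.1) + u.2 + (φ • u.1 + q • (φ • φ⁻¹ • u.2))
  rw [smul_inv_smul, succ_nsmul]
  abel

/-- The Hecke operator at a good prime is `φ + q φ⁻¹` on `p`-power torsion. -/
theorem heckeOperatorBar_eq_frob {A : ValuationSubring Qbar} [Fact p.Prime] (hq : q.Prime)
    (hqMp : ¬ q ∣ M * p) (hA : A.LiesOverPrime q) (hφ : A.IsFrobeniusAt φ q) {j : ℕ} {u : JZero M}
    (hu : p ^ j • u = 0) : heckeOperatorBar M ⟨q, hq⟩ u = φ • u + q • (φ⁻¹ • u) := by
  have hj : p ^ j • (φ⁻¹ • u) = 0 := by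
    show p ^ j • DistribSMul.toAddMonoidHom (JZero M) φ⁻¹ u = 0
    rw [← map_nsmul, hu, map_zero]
  have h := (SemistableRed.allRelations M p).frobenius q hq hqMp A hA φ hφ (φ⁻¹ • u) ⟨j, hj⟩
  rw [smul_inv_smul] at h
  rw [← sub_eq_zero, ← neg_eq_zero.mpr h]
  abel

end Split

variable {O : Type} [CommRing O] [IsLocalRing O] (T : ALSetup O) (hχ : T.χ = 1) {A : Type}
  [AddCommGroup A] [Module O A] {p k : ℕ} [Fact p.Prime] {κ : Type uκ} [Fintype κ]
  (e : A ≃+ (κ → ZMod (p ^ k)))

include e in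
/-- Reductions of points under a map of Jacobians. -/
theorem pointTuple_map_val {V' V : Finset ℕ} [NeZero (T.level V)] [NeZero (T.level V')]
    (gJ : JZero (T.level V') →+ JZero (T.level V)) (v : Fin (rk (T.level V')) → A) (j : κ) :
    (pointTuple e (coordAct (O := O) (torsRestrict (p ^ k) gJ) v) j : JZero (T.level V)) =
      gJ (pointTuple e v j : JZero (T.level V')) := by
  rw [pointTuple_coordAct, coe_torsRestrict]

section Row

variable {V : Finset ℕ} (hV : V ⊆ T.W) {a : ℕ} (ha : a ∈ V) [NeZero a] [NeZero (T.level V)]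
  [NeZero (T.level (V.erase a))] {σ₀ φ : Qbar ≃ₐ[ℚ] Qbar}
  (R : RowLaws (level_erase T ha) p σ₀ φ)

include R in
/-- A class killed by the monodromy is the class of a split tuple. -/
theorem exists_splitCoords (z : (monHom T hχ e hV σ₀).ker) :
    ∃ (v : splitCoords T e ha (σ₀ := σ₀) (φ := φ)) (s : awayMonoid T.m),
      (z : T.H V A) = cls T hχ v.1 s := ker_le_splitPart T hχ e hV ha R z.2

/-- The reductions of a point of a split tuple. -/
theorem rowSplit_point (v : splitCoords T e ha (σ₀ := σ₀) (φ := φ)) (j : κ) :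
    RowSplit (level_erase T ha) p σ₀ φ (pointTuple e v.1 j : JZero (T.level V))
      ((pointTuple e (liftHom e (R.redFst (k := k)) v) j : JZero (T.level (V.erase a))),
        (pointTuple e (liftHom e (R.redSnd (k := k)) v) j : JZero (T.level (V.erase a)))) := by
  rw [pointTuple_liftHom, pointTuple_liftHom, ← coe_subPoint]
  exact R.rowSplit _

include R in
/-- **Naturality of the reductions**, on coordinates. -/
theorem liftHom_eq_of_split {W' : Finset ℕ} [NeZero (T.level W')] (v : splitCoords T e ha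
      (σ₀ := σ₀) (φ := φ)) (w₁ w₂ : Fin (rk (T.level (V.erase a))) → A)
    (h : ∀ j, RowSplit (level_erase T ha) p σ₀ φ (pointTuple e v.1 j : JZero (T.level V))
      ((pointTuple e w₁ j : JZero (T.level (V.erase a))),
        (pointTuple e w₂ j : JZero (T.level (V.erase a))))) :
    liftHom e (R.redFst (k := k)) v = w₁ ∧ liftHom e (R.redSnd (k := k)) v = w₂ := by
  constructor <;>
  · apply (pointTuple (N := T.level (V.erase a)) e).injective
    funext j
    rw [pointTuple_liftHom]
    first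
      | exact Subtype.ext (R.red_eq _ (y := (_, _)) (by rw [coe_subPoint]; exact h j)).1
      | exact Subtype.ext (R.red_eq _ (y := (_, _)) (by rw [coe_subPoint]; exact h j)).2

include hV in
theorem smul_mem_ker (o : O) {z : T.H V A} (hz : z ∈ (monHom T hχ e hV σ₀).ker) :
    o • z ∈ (monHom T hχ e hV σ₀).ker := by
  rw [AddMonoidHom.mem_ker, monHom_apply] at hz ⊢
  rw [map_smul, ← smul_sub, hz, smul_zero]

/-- The reductions are linear. -/
theorem rowRed_smul (o : O) {z z' : (monHom T hχ e hV σ₀).ker}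
    (hz : (z' : T.H V A) = o • (z : T.H V A)) :
    rowRed T hχ e hV ha R z' = o • rowRed T hχ e hV ha R z := by
  obtain ⟨v, s, hv⟩ := exists_splitCoords T hχ e hV ha R z
  have hs : ∀ {W' : Finset ℕ} [NeZero (T.level W')] (u : Fin (rk (T.level W')) → A),
      o • cls T hχ u s = cls T hχ (o • u) s := fun u => by
    rw [cls_def, cls_def, LocalizedModule.smul'_mk, map_smul]
  rw [hv, hs] at hz
  rw [rowRed_eq T hχ e hV ha R (v := o • v) (hz.trans rfl), rowRed_eq T hχ e hV ha R hv,
    map_smul, map_smul, Prod.smul_mk, ← hs, ← hs, smul_comm o (T.c a)]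

/-- The involution at `a` swaps the reductions. -/
theorem rowRed_swap {z z' : (monHom T hχ e hV σ₀).ker}
    (hz : (z' : T.H V A) = T.w A hV a (z : T.H V A)) :
    rowRed T hχ e hV ha R z' = ((rowRed T hχ e hV ha R z).2, (rowRed T hχ e hV ha R z).1) := by
  obtain ⟨v, s, hv⟩ := exists_splitCoords T hχ e hV ha R z
  have hna := T.not_dvd_level ((V.erase_subset a).trans hV) (hV ha) (Finset.notMem_erase a V)
  let z'' : (monHom T hχ e hV σ₀).ker := ⟨T.c a • (z' : T.H V A), smul_mem_ker T hχ e hV _ z'.2⟩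
  have hz'' : (z'' : T.H V A) = cls T hχ
      (coordAct (O := O) (torsRestrict (p ^ k)
        (Bridge.alAt (T.prime a (hV ha)) hna (level_erase T ha))) v.1) s := by
    show T.c a • (z' : T.H V A) = _
    rw [hz, hv, w_cls T hχ e hV ha hna (level_erase T ha)]
  have hpt : ∀ j, RowSplit (level_erase T ha) p σ₀ φ
      (pointTuple e (coordAct (O := O) (torsRestrict (p ^ k)
        (Bridge.alAt (T.prime a (hV ha)) hna (level_erase T ha))) v.1) j : JZero (T.level V))
      ((pointTuple e (liftHom e (R.redSnd (k := k)) v) j : JZero (T.level (V.erase a))),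
        (pointTuple e (liftHom e (R.redFst (k := k)) v) j : JZero (T.level (V.erase a)))) :=
    fun j => by
      rw [pointTuple_map_val T e]
      exact (rowSplit_point T e ha R v j).swap (T.prime a (hV ha)) hna
  obtain ⟨h1, h2⟩ := liftHom_eq_of_split T e ha R (W' := V)
    (⟨_, (mem_subLift e).mpr fun j => ⟨_, hpt j⟩⟩ : splitCoords T e ha) _ _ hpt
  have e1 := rowRed_eq T hχ e hV ha R (v := ⟨_, (mem_subLift e).mpr fun j => ⟨_, hpt j⟩⟩) hz''
  rw [h1, h2] at e1
  have e2 : rowRed T hχ e hV ha R z' = T.c a • rowRed T hχ e hV ha R z'' :=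
    rowRed_smul T hχ e hV ha R _ (by
      show (z' : T.H V A) = T.c a • (T.c a • (z' : T.H V A))
      rw [smul_smul, c_mul_c T hχ (hV ha), one_smul])
  rw [e2, e1, rowRed_eq T hχ e hV ha R hv, Prod.smul_mk, smul_smul, c_mul_c T hχ (hV ha),
    one_smul]

/-- **The trace from the reductions.** -/
theorem rowRed_trace {Tr : JZero (T.level V) →+ JZero (T.level (V.erase a))}
    (hσ : ∀ (j : ℕ) x, p ^ j • x = 0 → Tr (σ₀ • x) = σ₀ • Tr x)
    (hα : ∀ (j : ℕ) u, p ^ j • u = 0 →
      Tr (resPic (Dvd.intro a (level_erase T ha)) u) = φ • u + a • (φ⁻¹ • u))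
    (hβ : ∀ (j : ℕ) u, p ^ j • u = 0 →
      Tr (Bridge.betaPic (level_erase T ha) u) = (a + 1) • u)
    (G : T.H V A →+ T.H (V.erase a) A)
    (hG : ∀ ι x s, G (setupClass T hχ ι x s) = setupClass T hχ ι (torsRestrict (p ^ k) Tr x) s)
    (z : (monHom T hχ e hV σ₀).ker) :
    G z = (rowRed T hχ e hV ha R z).1 +
      T.c a • setupGal T hχ ((V.erase_subset a).trans hV) (nsmul_eq_zero_of_basis e) φ
        (rowRed T hχ e hV ha R z).2 := by
  obtain ⟨v, s, hv⟩ := exists_splitCoords T hχ e hV ha R z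
  rw [rowRed_eq T hχ e hV ha R hv, hv, map_cls T hχ e hG]
  dsimp only
  rw [map_smul, smul_smul,
    c_mul_c T hχ (hV ha), one_smul, gal_cls T hχ e, cls_def, cls_def, cls_def, mk_add_mk_same,
    ← map_add]
  refine congrArg (LocalizedModule.mk · s) (congrArg _ ?_)
  apply (pointTuple (N := T.level (V.erase a)) e).injective
  funext j
  rw [map_add, Pi.add_apply]
  refine Subtype.ext ?_
  rw [pointTuple_map_val T e, AddSubgroup.coe_add, pointTuple_coordAct, coe_galTors]
  exact (rowSplit_point T e ha R v j).trace R hσ hα hβ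

end Row

section Natural

variable {V V' : Finset ℕ} (hV : V ⊆ T.W) (hV' : V' ⊆ T.W) {a : ℕ} (ha : a ∈ V) (ha' : a ∈ V')
  [NeZero a] [NeZero (T.level V)] [NeZero (T.level V')] [NeZero (T.level (V.erase a))]
  [NeZero (T.level (V'.erase a))] {σ₀ φ : Qbar ≃ₐ[ℚ] Qbar}
  (R : RowLaws (level_erase T ha) p σ₀ φ) (R' : RowLaws (level_erase T ha') p σ₀ φ)

/-- **The reductions commute** with a map commuting with pullbacks at `a` and Galois. -/
theorem rowRed_natural (gJ : JZero (T.level V') →+ JZero (T.level V))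
    (g₀J : JZero (T.level (V'.erase a)) →+ JZero (T.level (V.erase a)))
    (hg : ∀ (σ : Qbar ≃ₐ[ℚ] Qbar) x, gJ (σ • x) = σ • gJ x)
    (hg₀ : ∀ (σ : Qbar ≃ₐ[ℚ] Qbar) x, g₀J (σ • x) = σ • g₀J x)
    (hα : ∀ (j : ℕ) u, p ^ j • u = 0 → gJ (resPic (Dvd.intro a (level_erase T ha')) u) =
      resPic (Dvd.intro a (level_erase T ha)) (g₀J u))
    (hβ : ∀ (j : ℕ) u, p ^ j • u = 0 → gJ (Bridge.betaPic (level_erase T ha') u) =
      Bridge.betaPic (level_erase T ha) (g₀J u))
    (G : T.H V' A →+ T.H V A) (G₀ : T.H (V'.erase a) A →ₗ[O] T.H (V.erase a) A)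
    (hG : ∀ v s, G (cls T hχ v s) = cls T hχ (coordAct (O := O) (torsRestrict (p ^ k) gJ) v) s)
    (hG₀ : ∀ v s, G₀ (cls T hχ v s) =
      cls T hχ (coordAct (O := O) (torsRestrict (p ^ k) g₀J) v) s)
    (z : (monHom T hχ e hV' σ₀).ker) (z' : (monHom T hχ e hV σ₀).ker)
    (hz : (z' : T.H V A) = G z) :
    rowRed T hχ e hV ha R z' =
      (G₀ (rowRed T hχ e hV' ha' R' z).1, G₀ (rowRed T hχ e hV' ha' R' z).2) := by
  obtain ⟨v, s, hv⟩ := exists_splitCoords T hχ e hV' ha' R' z
  rw [hv, hG] at hz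
  have hpt : ∀ j, RowSplit (level_erase T ha) p σ₀ φ
      (pointTuple e (coordAct (O := O) (torsRestrict (p ^ k) gJ) v.1) j : JZero (T.level V))
      ((pointTuple e (coordAct (O := O) (torsRestrict (p ^ k) g₀J)
          (liftHom e (R'.redFst (k := k)) v)) j : JZero (T.level (V.erase a))),
        (pointTuple e (coordAct (O := O) (torsRestrict (p ^ k) g₀J)
          (liftHom e (R'.redSnd (k := k)) v)) j : JZero (T.level (V.erase a)))) := fun j => by
    rw [pointTuple_map_val T e, pointTuple_map_val T e, pointTuple_map_val T e]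
    exact (rowSplit_point T e ha' R' v j).map (fun _ x _ => hg σ₀ x) (hg₀ φ⁻¹) hα hβ
  obtain ⟨h1, h2⟩ := liftHom_eq_of_split T e ha R (W' := V)
    (⟨_, (mem_subLift e).mpr fun j => ⟨_, hpt j⟩⟩ : splitCoords T e ha) _ _ hpt
  rw [rowRed_eq T hχ e hV ha R (v := ⟨_, (mem_subLift e).mpr fun j => ⟨_, hpt j⟩⟩) hz,
    rowRed_eq T hχ e hV' ha' R' hv, h1, h2, map_smul, hG₀, hG₀]

end Natural

section Cube

variable {V : Finset ℕ} (hV : V ⊆ T.W) {a b : ℕ} (ha : a ∈ V) (hb : b ∈ V) (hab : a ≠ b)
  [NeZero a] [NeZero b] [NeZero (T.level V)] [NeZero (T.level (V.erase a))]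
  [NeZero (T.level (V.erase b))] [NeZero (T.level ((V.erase b).erase a))]
  {σ₀ φ : Qbar ≃ₐ[ℚ] Qbar} (R : RowLaws (level_erase T ha) p σ₀ φ)
  (R' : RowLaws (level_erase T (Finset.mem_erase.mpr ⟨hab, ha⟩)) p σ₀ φ)

include hb hab in
theorem level_erase₂ : T.level ((V.erase b).erase a) * b = T.level (V.erase a) := by
  rw [Finset.erase_right_comm]
  exact level_erase T (Finset.mem_erase.mpr ⟨hab.symm, hb⟩)

include hb in
/-- The reductions commute with the map from a lower level. -/
theorem rowRed_map_res (z : (monHom T hχ e ((V.erase_subset b).trans hV) σ₀).ker)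
    (z' : (monHom T hχ e hV σ₀).ker)
    (hz : (z' : T.H V A) = T.res A hV (V.erase_subset b) z) :
    rowRed T hχ e hV ha R z' =
      (T.res A ((V.erase_subset a).trans hV) (Finset.erase_subset_erase a (V.erase_subset b))
          (rowRed T hχ e ((V.erase_subset b).trans hV) (Finset.mem_erase.mpr ⟨hab, ha⟩) R' z).1,
        T.res A ((V.erase_subset a).trans hV) (Finset.erase_subset_erase a (V.erase_subset b))
          (rowRed T hχ e ((V.erase_subset b).trans hV) (Finset.mem_erase.mpr ⟨hab, ha⟩) R' z).2) :=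
  rowRed_natural T hχ e hV ((V.erase_subset b).trans hV) ha (Finset.mem_erase.mpr ⟨hab, ha⟩) R R'
    (Bridge.betaPic (level_erase T hb)) (Bridge.betaPic (level_erase₂ T hb hab))
    (fun σ x => betaPic_galois _ σ x) (fun σ x => betaPic_galois _ σ x)
    (fun _ u _ => (resPic_betaPic (level_erase₂ T hb hab) (Dvd.intro a (level_erase T ha))
      (Dvd.intro a (level_erase T (Finset.mem_erase.mpr ⟨hab, ha⟩))) (level_erase T hb) u).symm)
    (fun _ u _ => betaPic_betaPic (level_erase T (Finset.mem_erase.mpr ⟨hab, ha⟩)) (level_erase T hb)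
      (level_erase₂ T hb hab) (level_erase T ha) u)
    (T.res A hV (V.erase_subset b)).toAddMonoidHom
    (T.res A ((V.erase_subset a).trans hV) (Finset.erase_subset_erase a (V.erase_subset b)))
    (fun v s => res_cls T hχ e hV (V.erase_subset b) (level_erase T hb) v s)
    (fun v s => res_cls T hχ e _ _ (level_erase₂ T hb hab) v s) z z' hz

include hb hab in
/-- The reductions commute with the involutions at the other primes. -/
theorem rowRed_map_w (z z' : (monHom T hχ e hV σ₀).ker)
    (hz : (z' : T.H V A) = T.w A hV b z) :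
    rowRed T hχ e hV ha R z' =
      (T.w A ((V.erase_subset a).trans hV) b (rowRed T hχ e hV ha R z).1,
        T.w A ((V.erase_subset a).trans hV) b (rowRed T hχ e hV ha R z).2) := by
  have hbe : b ∈ V.erase a := Finset.mem_erase.mpr ⟨hab.symm, hb⟩
  have hn := T.not_dvd_level ((V.erase_subset b).trans hV) (hV hb) (Finset.notMem_erase b V)
  have hn' : ¬ b ∣ T.level ((V.erase b).erase a) :=
    T.not_dvd_level (((V.erase b).erase_subset a).trans ((V.erase_subset b).trans hV)) (hV hb)
      fun h => Finset.notMem_erase b V (Finset.mem_of_mem_erase h)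
  let z'' : (monHom T hχ e hV σ₀).ker := ⟨T.c b • (z' : T.H V A), smul_mem_ker T hχ e hV _ z'.2⟩
  have key := rowRed_natural T hχ e hV hV ha ha R R
    (Bridge.alAt (T.prime b (hV hb)) hn (level_erase T hb))
    (Bridge.alAt (T.prime b (hV hb)) hn' (level_erase₂ T hb hab))
    (fun σ x => alAt_galois _ _ _ σ x) (fun σ x => alAt_galois _ _ _ σ x)
    (fun j u hu => (alAt_pairPull_comm (n := p ^ j) (level_erase T ha) (level_erase₂ T hb hab)
      (level_erase T hb) (T.prime a (hV ha))
      (T.not_dvd_level ((V.erase_subset a).trans hV) (hV ha) (Finset.notMem_erase a V))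
      (T.prime b (hV hb)) hn hn'
      ((T.isAL hV).mono (by simp [Finset.insert_subset_iff, ha, hb]))
      ((T.isAL ((V.erase_subset a).trans hV)).mono (by simp [hbe])) hab.symm hu).1)
    (fun j u hu => (alAt_pairPull_comm (n := p ^ j) (level_erase T ha) (level_erase₂ T hb hab)
      (level_erase T hb) (T.prime a (hV ha))
      (T.not_dvd_level ((V.erase_subset a).trans hV) (hV ha) (Finset.notMem_erase a V))
      (T.prime b (hV hb)) hn hn'
      ((T.isAL hV).mono (by simp [Finset.insert_subset_iff, ha, hb]))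
      ((T.isAL ((V.erase_subset a).trans hV)).mono (by simp [hbe])) hab.symm hu).2)
    (T.c b • T.w A hV b).toAddMonoidHom (T.c b • T.w A ((V.erase_subset a).trans hV) b)
    (fun v s => w_cls T hχ e hV hb hn (level_erase T hb) v s)
    (fun v s => w_cls T hχ e _ hbe hn' (level_erase₂ T hb hab) v s)
    z z'' (by show T.c b • (z' : T.H V A) = T.c b • T.w A hV b z; rw [hz])
  have e2 : rowRed T hχ e hV ha R z' = T.c b • rowRed T hχ e hV ha R z'' :=
    rowRed_smul T hχ e hV ha R _ (by
      show (z' : T.H V A) = T.c b • (T.c b • (z' : T.H V A))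
      rw [smul_smul, c_mul_c T hχ (hV hb), one_smul])
  rw [e2, key, LinearMap.smul_apply, LinearMap.smul_apply, Prod.smul_mk, smul_smul, smul_smul,
    c_mul_c T hχ (hV hb), one_smul, one_smul]

end Cube

end Fermat.Agent.TwoAdic.Geometry

end
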