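import Fermat.Agent.TwoAdic.Geometry.CubeSetup
import Fermat.Agent.TwoAdic.Geometry.RowNatural
import Fermat.Agent.TwoAdic.Geometry.RowLawsSetup
import Fermat.Agent.SemistableRed.AllFacts

/-!
# Injective faces of the residual cube

The reductions of the residual cube, filled from the rows of a setup; hence the faces of the cube
are injective when Frobenius elements at its primes have trace zero.
-/

set_option autoImplicit false
set_option linter.unusedSectionVars false

noncomputable section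

open AlgebraicCurve ModularCurve IsLocalRing

universe uκ

namespace Fermat.Agent.TwoAdic.Geometry

open HeckeJ0 HeckeModule EigenSystems Bridge

attribute [local instance] ALSetup.isPrime

local notation "Qbar" => AlgebraicClosure ℚ
local notation "Γ" => AlgebraicClosure ℚ ≃ₐ[ℚ] AlgebraicClosure ℚ

variable {O : Type} [CommRing O] [IsLocalRing O] (T : ALSetup O) (hχ : T.χ = 1) {A : Type}
  [AddCommGroup A] [Module O A] (hA : ∀ r ∈ maximalIdeal O, ∀ a : A, r • a = 0) {κ : Type uκ}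
  [Fintype κ] (e : A ≃+ (κ → ZMod (2 ^ 1)))

include e in
/-- The residual monodromy is the monodromy of the rows. -/
theorem monAll_eq_monHom (σ : Γ) {U : Finset ℕ} (hU : U ⊆ T.W) [NeZero (T.level U)] :
    T.monAll hA hχ σ U = monHom T hχ e hU σ := by
  refine AddMonoidHom.ext fun x => ?_
  rw [T.monAll_apply, T.actAll_apply hA hχ σ hU, monHom_apply]

include hχ hA in
/-- The scalars of the involutions act trivially on residual classes. -/
theorem c_smul_H {b : ℕ} (hb : b ∈ T.W) (U : Finset ℕ) (x : T.H U A) : T.c b • x = x := by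
  have hm : T.c b - 1 ∈ maximalIdeal O := by
    refine (maximalIdeal.isMaximal O).isPrime.mem_of_pow_mem 2 ?_
    rw [show (T.c b - 1) ^ 2 = 2 * (1 - T.c b) by linear_combination c_mul_c T hχ hb]
    exact Ideal.mul_mem_right _ _ T.two
  have h := T.smul_H_eq_zero hA U hm x
  rwa [sub_smul, one_smul, sub_eq_zero] at h

include hA in
/-- An odd multiple of a residual class is the class. -/
theorem odd_nsmul_H {a : ℕ} (ha : Odd a) (U : Finset ℕ) (x : T.H U A) : a • x = x := by
  obtain ⟨j, rfl⟩ := ha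
  rw [add_nsmul, one_nsmul, mul_nsmul, two_nsmul, T.add_self_H hA, nsmul_zero, zero_add]

variable {V : Finset ℕ} (hV : V ⊆ T.W) (h2V : 2 ∉ V) {σ φ : ℕ → Γ}
  (P : ℕ → ValuationSubring Qbar)
  (hP : ∀ a ∈ V, (P a).LiesOverPrime a ∧ TameInertia.IsTameGenerator (P a) 2 a (σ a) ∧
    (P a).IsFrobeniusAt (φ a) a)

include hV h2V in
theorem odd_of_mem {a : ℕ} (ha : a ∈ V) : Odd a :=
  (T.prime a (hV ha)).odd_of_ne_two fun h => h2V (h ▸ ha)

include hV h2V hP in
/-- The rows at a prime of a face. -/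
theorem faceRows {U : Finset ℕ} (hU : U ⊆ V) {a : ℕ} (ha : a ∈ U) [NeZero a] [NeZero (T.level U)]
    [NeZero (T.level (U.erase a))] : RowLaws (level_erase T ha) 2 (σ a) (φ a) :=
  haveI : Fact (Nat.Prime 2) := ⟨Nat.prime_two⟩
  setup_rowLaws T (hU.trans hV) ha (fun h => h2V (by rw [h]; exact hU ha)) (hP a (hU ha)).1 (hP a (hU ha)).2.1
    (hP a (hU ha)).2.2

variable [Fact (Nat.Prime 2)]

theorem mem_monHom_ker (σ₀ : Γ) {U : Finset ℕ} (hU : U ⊆ T.W) [NeZero (T.level U)] {x : T.H U A}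
    (hx : x ∈ (T.monAll hA hχ σ₀ U).ker) : x ∈ (monHom T hχ e hU σ₀).ker := by
  rw [AddMonoidHom.mem_ker] at hx ⊢
  rw [← monAll_eq_monHom T hχ hA e σ₀ hU]
  exact hx

include e in
theorem mem_monAll_ker (σ₀ : Γ) {U : Finset ℕ} (hU : U ⊆ T.W) [NeZero (T.level U)] {x : T.H U A}
    (hx : x ∈ (monHom T hχ e hU σ₀).ker) : x ∈ (T.monAll hA hχ σ₀ U).ker := by
  rw [AddMonoidHom.mem_ker] at hx ⊢
  rw [monAll_eq_monHom T hχ hA e σ₀ hU]
  exact hx

/-- The reductions on the invariants of a face. -/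
def faceRed (U : Finset ℕ) (hU : U ⊆ V) (a : ℕ) (ha : a ∈ U) :
    (T.monAll hA hχ (σ a) U).ker →+ T.H (U.erase a) A × T.H (U.erase a) A :=
  haveI : NeZero a := ⟨(T.prime a (hV (hU ha))).ne_zero⟩
  haveI : NeZero (T.level U) := ⟨T.level_ne_zero (hU.trans hV)⟩
  haveI : NeZero (T.level (U.erase a)) :=
    ⟨T.level_ne_zero (((U.erase_subset a).trans hU).trans hV)⟩
  (rowRed T hχ e (hU.trans hV) (σ₀ := σ a) (φ := φ a) ha (faceRows T hV h2V P hP hU ha)).comp
    (AddSubgroup.inclusion fun _ hx => mem_monHom_ker T hχ hA e (σ a) (hU.trans hV) hx)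

theorem faceRed_apply {U : Finset ℕ} (hU : U ⊆ V) {a : ℕ} (ha : a ∈ U) [NeZero a]
    [NeZero (T.level U)] [NeZero (T.level (U.erase a))] (z : (T.monAll hA hχ (σ a) U).ker)
    (z' : (monHom T hχ e (hU.trans hV) (σ a)).ker) (h : (z' : T.H U A) = z) :
    faceRed T hχ hA e hV h2V P hP U hU a ha z =
      rowRed T hχ e (hU.trans hV) ha (faceRows T hV h2V P hP hU ha) z' := by
  obtain rfl : z' = ⟨z, mem_monHom_ker T hχ hA e (σ a) (hU.trans hV) z.2⟩ := Subtype.ext h
  rfl

include h2V in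
/-- Without its scalars the twisted Frobenius is the inverse Frobenius. -/
theorem c_smul_vMap {U : Finset ℕ} (hU : U ⊆ V) {a : ℕ} (ha : a ∈ U) [NeZero a]
    [NeZero (T.level U)] [NeZero (T.level (U.erase a))] (f : Γ) (x : T.H (U.erase a) A) :
    T.c a • vMap T hχ e ((U.erase_subset a).trans (hU.trans hV)) f x =
      T.actAll hA hχ f⁻¹ (U.erase a) x := by
  rw [c_smul_H T hχ hA (hV (hU ha)), vMap_apply, odd_nsmul_H T hA (odd_of_mem T hV h2V (hU ha)),
    T.actAll_apply hA hχ f⁻¹ ((U.erase_subset a).trans (hU.trans hV))]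

section Laws

variable {U : Finset ℕ} (hU : U ⊆ V) {a : ℕ} (ha : a ∈ U) [NeZero a] [NeZero (T.level U)]
  [NeZero (T.level (U.erase a))]

include P hP h2V hV hU ha e in
/-- The monodromy at `a` kills the pullbacks at `a`. -/
theorem monAll_pairUp_self (v : T.H (U.erase a) A × T.H (U.erase a) A) :
    T.monAll hA hχ (σ a) U (T.pairUp A a (U.erase a) U v) = 0 := by
  have hR := faceRows T hV h2V P hP hU ha
  have h1 := monHom_res T hχ e (hU.trans hV) ha hR v.1
  have h2 := monHom_alMap T hχ e (hU.trans hV) ha hR v.2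
  rw [monAll_eq_monHom T hχ hA e (σ a) (hU.trans hV),
    T.pairUp_apply (hU.trans hV) (U.erase_subset a), map_add,
    w_res_eq T hχ (hU.trans hV) _ ha, c_smul_H T hχ hA (hV (hU ha)), h1, h2, add_zero]

theorem faceRed_pairUp_self (v : T.H (U.erase a) A × T.H (U.erase a) A)
    (z : (T.monAll hA hχ (σ a) U).ker) (hz : (z : T.H U A) = T.pairUp A a (U.erase a) U v) :
    faceRed T hχ hA e hV h2V P hP U hU a ha z =
      (v.1 + T.actAll hA hχ (φ a)⁻¹ (U.erase a) v.2,
        T.actAll hA hχ (φ a)⁻¹ (U.erase a) v.1 + v.2) := by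
  have hR := faceRows T hV h2V P hP hU ha
  have hm : T.w A (hU.trans hV) a (T.res A (hU.trans hV) (U.erase_subset a) v.2) ∈
      (monHom T hχ e (hU.trans hV) (σ a)).ker := by
    rw [AddMonoidHom.mem_ker, w_res_eq T hχ (hU.trans hV) _ ha, c_smul_H T hχ hA (hV (hU ha))]
    exact monHom_alMap T hχ e (hU.trans hV) ha hR v.2
  have e1 := rowRed_res T hχ e (hU.trans hV) ha hR v.1
    (z := ⟨_, monHom_res T hχ e (hU.trans hV) ha hR v.1⟩) rfl
  have e2 := rowRed_res T hχ e (hU.trans hV) ha hR v.2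
    (z := ⟨_, monHom_res T hχ e (hU.trans hV) ha hR v.2⟩) rfl
  have e3 := rowRed_swap T hχ e (hU.trans hV) ha hR
    (z := ⟨_, monHom_res T hχ e (hU.trans hV) ha hR v.2⟩) (z' := ⟨_, hm⟩) rfl
  have hsum : ((⟨_, monHom_res T hχ e (hU.trans hV) ha hR v.1⟩ + ⟨_, hm⟩ :
      (monHom T hχ e (hU.trans hV) (σ a)).ker) : T.H U A) = z := by
    rw [hz, T.pairUp_apply (hU.trans hV) (U.erase_subset a), AddSubgroup.coe_add]
  rw [faceRed_apply T hχ hA e hV h2V P hP hU ha z _ hsum, map_add, e1, e3, e2, Prod.mk_add_mk,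
    c_smul_vMap T hχ hA e hV h2V hU ha, c_smul_vMap T hχ hA e hV h2V hU ha]

variable {b : ℕ} [NeZero b] (hb : b ∈ U) (hab : a ≠ b) [NeZero (T.level (U.erase b))]
  [NeZero (T.level ((U.erase b).erase a))]

include hb hab in
/-- The reductions at `a` commute with the pullbacks at `b`. -/
theorem faceRed_pairUp (x y : (T.monAll hA hχ (σ a) (U.erase b)).ker)
    (z : (T.monAll hA hχ (σ a) U).ker) (hz : (z : T.H U A) =
      T.pairUp A b (U.erase b) U ((x : T.H (U.erase b) A), (y : T.H (U.erase b) A))) :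
    faceRed T hχ hA e hV h2V P hP U hU a ha z =
      (T.pairUp A b ((U.erase b).erase a) (U.erase a)
          ((faceRed T hχ hA e hV h2V P hP (U.erase b) ((U.erase_subset b).trans hU) a
              (Finset.mem_erase.mpr ⟨hab, ha⟩) x).1,
            (faceRed T hχ hA e hV h2V P hP (U.erase b) ((U.erase_subset b).trans hU) a
              (Finset.mem_erase.mpr ⟨hab, ha⟩) y).1),
        T.pairUp A b ((U.erase b).erase a) (U.erase a)
          ((faceRed T hχ hA e hV h2V P hP (U.erase b) ((U.erase_subset b).trans hU) a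
              (Finset.mem_erase.mpr ⟨hab, ha⟩) x).2,
            (faceRed T hχ hA e hV h2V P hP (U.erase b) ((U.erase_subset b).trans hU) a
              (Finset.mem_erase.mpr ⟨hab, ha⟩) y).2)) := by
  have hUW := hU.trans hV
  have hbU : U.erase b ⊆ V := (U.erase_subset b).trans hU
  have hbW : U.erase b ⊆ T.W := (U.erase_subset b).trans hUW
  have hR := faceRows T hV h2V P hP hU ha
  have hR' := faceRows T hV h2V P hP hbU (Finset.mem_erase.mpr ⟨hab, ha⟩)
  have hx := mem_monHom_ker T hχ hA e (σ a) hbW x.2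
  have hy := mem_monHom_ker T hχ hA e (σ a) hbW y.2
  have hres : ∀ u : T.H (U.erase b) A, u ∈ (monHom T hχ e hbW (σ a)).ker →
      T.res A hUW (U.erase_subset b) u ∈ (monHom T hχ e hUW (σ a)).ker := fun u h => by
    rw [AddMonoidHom.mem_ker, monHom_apply] at h ⊢
    rw [← setupGal_res T hχ hUW (nsmul_eq_zero_of_basis e) (U.erase_subset b), ← map_sub, h,
      map_zero]
  have hw : T.w A hUW b (T.res A hUW (U.erase_subset b) y) ∈
      (monHom T hχ e hUW (σ a)).ker := by
    have h := hres y hy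
    rw [AddMonoidHom.mem_ker, monHom_apply] at h ⊢
    rw [setupGal_w T hχ hUW (nsmul_eq_zero_of_basis e) hb, ← map_sub, h, map_zero]
  have e1 := rowRed_map_res T hχ e hUW ha hb hab hR hR' ⟨_, hx⟩ ⟨_, hres x hx⟩ rfl
  have e2 := rowRed_map_res T hχ e hUW ha hb hab hR hR' ⟨_, hy⟩ ⟨_, hres y hy⟩ rfl
  have e3 := rowRed_map_w T hχ e hUW ha hb hab hR ⟨_, hres y hy⟩ ⟨_, hw⟩ rfl
  have hsum : ((⟨_, hres x hx⟩ + ⟨_, hw⟩ :
      (monHom T hχ e hUW (σ a)).ker) : T.H U A) = z := by
    rw [hz, T.pairUp_apply hUW (U.erase_subset b), AddSubgroup.coe_add]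
  rw [faceRed_apply T hχ hA e hV h2V P hP hU ha z _ hsum, map_add, e1, e3, e2, Prod.mk_add_mk,
    faceRed_apply T hχ hA e hV h2V P hP hbU (Finset.mem_erase.mpr ⟨hab, ha⟩) x ⟨_, hx⟩ rfl,
    faceRed_apply T hχ hA e hV h2V P hP hbU (Finset.mem_erase.mpr ⟨hab, ha⟩) y ⟨_, hy⟩ rfl,
    T.pairUp_apply ((U.erase_subset a).trans hUW)
      (Finset.erase_subset_erase a (U.erase_subset b)),
    T.pairUp_apply ((U.erase_subset a).trans hUW)
      (Finset.erase_subset_erase a (U.erase_subset b))]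

end Laws

/-- **The reductions of the residual cube.** -/
def cubeReductions : T.CubeReductions hA hχ V σ φ where
  red := faceRed T hχ hA e hV h2V P hP
  surjective U hU a ha := by
    have : NeZero a := ⟨(T.prime a (hV (hU ha))).ne_zero⟩
    have : NeZero (T.level U) := ⟨T.level_ne_zero (hU.trans hV)⟩
    have : NeZero (T.level (U.erase a)) :=
      ⟨T.level_ne_zero (((U.erase_subset a).trans hU).trans hV)⟩
    intro y
    obtain ⟨z, hz⟩ := rowRed_surjective T hχ e (hU.trans hV) ha (faceRows T hV h2V P hP hU ha) y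
    exact ⟨⟨z, mem_monAll_ker T hχ hA e (σ a) (hU.trans hV) z.2⟩,
      (faceRed_apply T hχ hA e hV h2V P hP hU ha _ z rfl).trans hz⟩
  eq_zero U hU a ha x := by
    have : NeZero a := ⟨(T.prime a (hV (hU ha))).ne_zero⟩
    have : NeZero (T.level U) := ⟨T.level_ne_zero (hU.trans hV)⟩
    have : NeZero (T.level (U.erase a)) :=
      ⟨T.level_ne_zero (((U.erase_subset a).trans hU).trans hV)⟩
    rw [faceRed_apply T hχ hA e hV h2V P hP hU ha x
      ⟨x, mem_monHom_ker T hχ hA e (σ a) (hU.trans hV) x.2⟩ rfl, rowRed_eq_zero_iff]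
    exact exists_congr fun u => by
      rw [DFunLike.congr_fun (monAll_eq_monHom T hχ hA e (σ a) (hU.trans hV)) u]
  mon_sq U hU a ha x := by
    have : NeZero a := ⟨(T.prime a (hV (hU ha))).ne_zero⟩
    have : NeZero (T.level U) := ⟨T.level_ne_zero (hU.trans hV)⟩
    have : NeZero (T.level (U.erase a)) :=
      ⟨T.level_ne_zero (((U.erase_subset a).trans hU).trans hV)⟩
    rw [monAll_eq_monHom T hχ hA e (σ a) (hU.trans hV)]
    exact monHom_monHom T hχ e (hU.trans hV) ha (faceRows T hV h2V P hP hU ha) x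
  mon_up U hU a ha v :=
    haveI : NeZero a := ⟨(T.prime a (hV (hU ha))).ne_zero⟩
    haveI : NeZero (T.level U) := ⟨T.level_ne_zero (hU.trans hV)⟩
    haveI : NeZero (T.level (U.erase a)) :=
      ⟨T.level_ne_zero (((U.erase_subset a).trans hU).trans hV)⟩
    monAll_pairUp_self T hχ hA e hV h2V P hP hU ha v
  red_up_self U hU a ha v z hz :=
    haveI : NeZero a := ⟨(T.prime a (hV (hU ha))).ne_zero⟩
    haveI : NeZero (T.level U) := ⟨T.level_ne_zero (hU.trans hV)⟩
    haveI : NeZero (T.level (U.erase a)) :=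
      ⟨T.level_ne_zero (((U.erase_subset a).trans hU).trans hV)⟩
    faceRed_pairUp_self T hχ hA e hV h2V P hP hU ha v z hz
  red_up U hU a ha b hb hab x y z hz :=
    haveI : NeZero a := ⟨(T.prime a (hV (hU ha))).ne_zero⟩
    haveI : NeZero b := ⟨(T.prime b (hV (hU hb))).ne_zero⟩
    haveI : NeZero (T.level U) := ⟨T.level_ne_zero (hU.trans hV)⟩
    haveI : NeZero (T.level (U.erase a)) :=
      ⟨T.level_ne_zero (((U.erase_subset a).trans hU).trans hV)⟩
    haveI : NeZero (T.level (U.erase b)) :=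
      ⟨T.level_ne_zero (((U.erase_subset b).trans hU).trans hV)⟩
    haveI : NeZero (T.level ((U.erase b).erase a)) :=
      ⟨T.level_ne_zero ((((U.erase b).erase_subset a).trans ((U.erase_subset b).trans hU)).trans hV)⟩
    faceRed_pairUp T hχ hA e hV h2V P hP hU ha hb hab x y z hz

end Fermat.Agent.TwoAdic.Geometry

namespace Fermat.Agent.TwoAdic

attribute [local instance] ALSetup.isPrime

open HeckeModule

local notation "Γ" => AlgebraicClosure ℚ ≃ₐ[ℚ] AlgebraicClosure ℚ

/-- A finite group of exponent two has a basis. -/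
theorem exists_basis_two {A : Type} [AddCommGroup A] [Finite A] (h : ∀ a : A, 2 • a = 0) :
    ∃ n : ℕ, Nonempty (A ≃+ (Fin n → ZMod (2 ^ 1))) := by
  have : Fact (Nat.Prime 2) := ⟨Nat.prime_two⟩
  let : Module (ZMod 2) A := AddCommGroup.zmodModule h
  exact ⟨_, ⟨(Module.finBasis (ZMod 2) A).equivFun.toAddEquiv⟩⟩

/-- **The faces of the cube are injective** when at every prime a Frobenius element has trace zero,
with an element of trace one next to it. -/
theorem ALSetup.cubeInjective_of_frobenius {O : Type} [CommRing O] [IsLocalRing O]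
    [IsNoetherianRing O] [IsAdicComplete (maximalIdeal O) O] [Finite (ResidueField O)]
    (T : ALSetup O) (hχ : T.χ = 1) (hS : T.S.Finite) {V : Finset ℕ} (hV : V ⊆ T.W) (h2V : 2 ∉ V)
    (hdat : ∀ a ∈ V, ∃ (P : ValuationSubring (AlgebraicClosure ℚ)) (φ g : Γ),
      P.LiesOverPrime a ∧ P.IsFrobeniusAt φ a ∧
        T.TraceAt φ⁻¹ 0 ∧ T.TraceAt g 1 ∧ T.TraceAt (g * φ⁻¹) 0)
    (B : Finset ℕ) : T.CubeInjective hV B := by
  have : Fact (Nat.Prime 2) := ⟨Nat.prime_two⟩
  choose! P φ g hP hφ h1 h2 h3 using hdat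
  have hgen : ∀ a ∈ V, ∃ σ, TameInertia.IsTameGenerator (P a) 2 a σ := fun a ha =>
    TameInertia.exists_tameGenerator (p := 2) Nat.prime_two (T.prime a (hV ha))
      (fun h => h2V (by rw [h]; exact ha)) (hP a ha)
  choose! σ hσ using hgen
  have : Finite (O ⧸ maximalIdeal O) := (inferInstance : Finite (ResidueField O))
  obtain ⟨n, ⟨e⟩⟩ := exists_basis_two (A := O ⧸ maximalIdeal O) fun a => by
    rw [two_nsmul]
    exact T.add_self_coeff smul_quotient_eq_zero a
  exact T.cubeInjective_of_reductions hχ hS (fun U _ => SemistableRed.allRelations _ 2) hV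
    (Geometry.cubeReductions T hχ smul_quotient_eq_zero e hV h2V P
      fun a ha => ⟨hP a ha, hσ a ha, hφ a ha⟩)
    (fun a ha => ⟨g a, h1 a ha, h2 a ha, h3 a ha⟩) B

end Fermat.Agent.TwoAdic

end
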