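import Fermat.Agent.TwoAdic.Geometry.CubeSocle

/-!
# The residual cube of a setup

The residual cube of a setup as a cube with rows: the pairs of pullbacks, the monodromy at a tame
generator and the twisted Frobenius. Given the reductions, its faces are injective.
-/

set_option autoImplicit false

noncomputable section

open IsLocalRing
open Fermat.Agent.HeckeModule

namespace Fermat.Agent.TwoAdic

attribute [local instance] ALSetup.isPrime

local notation "Γ" => AlgebraicClosure ℚ ≃ₐ[ℚ] AlgebraicClosure ℚ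

namespace ALSetup

variable {O : Type} [CommRing O] [IsLocalRing O] (T : ALSetup O) {A : Type} [AddCommGroup A]
  [Module O A] (hA : ∀ r ∈ maximalIdeal O, ∀ a : A, r • a = 0) (hχ : T.χ = 1)

/-- The residual Galois action, total in the level. -/
def actAll (σ : Γ) (U : Finset ℕ) : T.H U A →+ T.H U A :=
  if h : U ⊆ T.W then
    haveI : NeZero (T.level U) := ⟨T.level_ne_zero h⟩
    (Bridge.setupGal T hχ h (T.two_pow_one_smul hA) σ).toAddMonoidHom
  else AddMonoidHom.id _

/-- The monodromy of `σ`, total in the level. -/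
def monAll (σ : Γ) (U : Finset ℕ) : T.H U A →+ T.H U A :=
  T.actAll hA hχ σ U - AddMonoidHom.id _

lemma actAll_eq (σ : Γ) {U : Finset ℕ} (hU : U ⊆ T.W) [NeZero (T.level U)] :
    T.actAll hA hχ σ U =
      (Bridge.setupGal T hχ hU (T.two_pow_one_smul hA) σ).toAddMonoidHom := by
  rw [actAll, dif_pos hU]

lemma actAll_apply (σ : Γ) {U : Finset ℕ} (hU : U ⊆ T.W) [NeZero (T.level U)] (x : T.H U A) :
    T.actAll hA hχ σ U x = Bridge.setupGal T hχ hU (T.two_pow_one_smul hA) σ x := by
  rw [T.actAll_eq hA hχ σ hU]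
  rfl

lemma monAll_apply (σ : Γ) (U : Finset ℕ) (x : T.H U A) :
    T.monAll hA hχ σ U x = T.actAll hA hχ σ U x - x := rfl

/-- Galois commutes with the pairs of degeneracy maps. -/
lemma actAll_pairUp (σ : Γ) {b : ℕ} {S U : Finset ℕ} (hU : U ⊆ T.W) (hSU : S ⊆ U) (hb : b ∈ U)
    (v : T.H S A × T.H S A) :
    T.actAll hA hχ σ U (T.pairUp A b S U v) =
      T.pairUp A b S U (T.actAll hA hχ σ S v.1, T.actAll hA hχ σ S v.2) := by
  have : NeZero (T.level U) := ⟨T.level_ne_zero hU⟩
  have : NeZero (T.level S) := ⟨T.level_ne_zero (hSU.trans hU)⟩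
  rw [T.pairUp_apply hU hSU, T.pairUp_apply hU hSU, map_add, T.actAll_apply hA hχ σ hU,
    T.actAll_apply hA hχ σ hU, T.actAll_apply hA hχ σ (hSU.trans hU),
    T.actAll_apply hA hχ σ (hSU.trans hU), Bridge.setupGal_w T hχ hU _ hb,
    ← Bridge.setupGal_res T hχ hU, ← Bridge.setupGal_res T hχ hU]

/-- Monodromy commutes with the pairs of degeneracy maps. -/
lemma monAll_pairUp (σ : Γ) {b : ℕ} {S U : Finset ℕ} (hU : U ⊆ T.W) (hSU : S ⊆ U) (hb : b ∈ U)
    (v : T.H S A × T.H S A) :
    T.monAll hA hχ σ U (T.pairUp A b S U v) =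
      T.pairUp A b S U (T.monAll hA hχ σ S v.1, T.monAll hA hχ σ S v.2) := by
  rw [monAll_apply, T.actAll_pairUp hA hχ σ hU hSU hb, monAll_apply, monAll_apply, ← map_sub]
  rfl

/-- The reductions at the primes of `V` for the tame generators `σ` and the Frobenius elements
`φ`. -/
structure CubeReductions (V : Finset ℕ) (σ φ : ℕ → Γ) where
  /-- the reductions on the invariants -/
  red : ∀ U : Finset ℕ, U ⊆ V → ∀ a ∈ U, (T.monAll hA hχ (σ a) U).ker →+
    T.H (U.erase a) A × T.H (U.erase a) A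
  surjective : ∀ (U : Finset ℕ) (hU : U ⊆ V) (a : ℕ) (ha : a ∈ U),
    Function.Surjective (red U hU a ha)
  eq_zero : ∀ (U : Finset ℕ) (hU : U ⊆ V) (a : ℕ) (ha : a ∈ U)
    (x : (T.monAll hA hχ (σ a) U).ker),
    red U hU a ha x = 0 ↔ ∃ e, T.monAll hA hχ (σ a) U e = x
  mon_sq : ∀ U ⊆ V, ∀ a ∈ U, ∀ x,
    T.monAll hA hχ (σ a) U (T.monAll hA hχ (σ a) U x) = 0
  mon_up : ∀ U ⊆ V, ∀ a ∈ U, ∀ v,
    T.monAll hA hχ (σ a) U (T.pairUp A a (U.erase a) U v) = 0
  red_up_self : ∀ (U : Finset ℕ) (hU : U ⊆ V) (a : ℕ) (ha : a ∈ U) (v)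
    (z : (T.monAll hA hχ (σ a) U).ker), (z : T.H U A) = T.pairUp A a (U.erase a) U v →
      red U hU a ha z = (v.1 + T.actAll hA hχ (φ a)⁻¹ (U.erase a) v.2,
        T.actAll hA hχ (φ a)⁻¹ (U.erase a) v.1 + v.2)
  red_up : ∀ (U : Finset ℕ) (hU : U ⊆ V) (a : ℕ) (ha : a ∈ U) (b : ℕ), b ∈ U → ∀ hab : a ≠ b,
    ∀ (x y : (T.monAll hA hχ (σ a) (U.erase b)).ker) (z : (T.monAll hA hχ (σ a) U).ker),
      (z : T.H U A) = T.pairUp A b (U.erase b) U ((x : T.H (U.erase b) A), (y : T.H (U.erase b) A)) →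
        red U hU a ha z =
          (T.pairUp A b ((U.erase b).erase a) (U.erase a)
              ((red (U.erase b) ((U.erase_subset b).trans hU) a
                  (Finset.mem_erase.mpr ⟨hab, ha⟩) x).1,
                (red (U.erase b) ((U.erase_subset b).trans hU) a
                  (Finset.mem_erase.mpr ⟨hab, ha⟩) y).1),
            T.pairUp A b ((U.erase b).erase a) (U.erase a)
              ((red (U.erase b) ((U.erase_subset b).trans hU) a
                  (Finset.mem_erase.mpr ⟨hab, ha⟩) x).2,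
                (red (U.erase b) ((U.erase_subset b).trans hU) a
                  (Finset.mem_erase.mpr ⟨hab, ha⟩) y).2))

variable {V : Finset ℕ} {σ φ : ℕ → Γ} (R : T.CubeReductions hA hχ V σ φ)

/-- The reductions, total in the levels. -/
def redAll (a : ℕ) (S U : Finset ℕ) : (T.monAll hA hχ (σ a) U).ker →+ T.H S A × T.H S A :=
  if h : U ⊆ V ∧ a ∈ U ∧ U.erase a = S then h.2.2 ▸ R.red U h.1 a h.2.1 else 0

lemma redAll_eq {a : ℕ} {U : Finset ℕ} (hU : U ⊆ V) (ha : a ∈ U) :
    T.redAll hA hχ R a (U.erase a) U = R.red U hU a ha := by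
  rw [redAll, dif_pos ⟨hU, ha, rfl⟩]

variable (hV : V ⊆ T.W)

/-- **The residual cube with its rows.** -/
def rowCubeOf : RowCube ℕ V Γ fun U => T.H U A where
  up b S U := T.pairUp A b S U
  N a U := T.monAll hA hχ (σ a) U
  red a S U := T.redAll hA hχ R a S U
  act g U := T.actAll hA hχ g U
  V a S := T.actAll hA hχ (φ a)⁻¹ S
  up_comm U hU b hb c hc hbc p q := by
    have hUW := hU.trans hV
    have hcb : (U.erase b).erase c ⊆ U.erase b := Finset.erase_subset _ _
    have hbc' : (U.erase b).erase c ⊆ U.erase c := Finset.erase_subset_erase c (U.erase_subset b)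
    have hb' : b ∈ U.erase c := Finset.mem_erase.mpr ⟨hbc, hb⟩
    have hc' : c ∈ U.erase b := Finset.mem_erase.mpr ⟨hbc.symm, hc⟩
    simp only [T.pairUp_apply hUW (U.erase_subset b), T.pairUp_apply hUW (U.erase_subset c),
      T.pairUp_apply ((U.erase_subset b).trans hUW) hcb,
      T.pairUp_apply ((U.erase_subset c).trans hUW) hbc', map_add]
    rw [← T.w_res hUW (U.erase_subset b) hc', ← T.w_res hUW (U.erase_subset b) hc',
      ← T.w_res hUW (U.erase_subset c) hb', ← T.w_res hUW (U.erase_subset c) hb',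
      T.res_res hUW (U.erase_subset b), T.res_res hUW (U.erase_subset b),
      T.res_res hUW (U.erase_subset b), T.res_res hUW (U.erase_subset b),
      T.res_res hUW (U.erase_subset c), T.res_res hUW (U.erase_subset c),
      T.res_res hUW (U.erase_subset c), T.res_res hUW (U.erase_subset c),
      T.w_comm hUW hb hc]
    abel
  N_up U hU a _ b hb _ v := T.monAll_pairUp hA hχ (σ a) (hU.trans hV) (U.erase_subset b) hb v
  N_sq := R.mon_sq
  red_surjective U hU a ha := by rw [T.redAll_eq hA hχ R hU ha]; exact R.surjective U hU a ha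
  red_eq_zero U hU a ha x := by rw [T.redAll_eq hA hχ R hU ha]; exact R.eq_zero U hU a ha x
  red_up U hU a ha b hb hab x y z hz := by
    rw [T.redAll_eq hA hχ R hU ha,
      T.redAll_eq hA hχ R ((U.erase_subset b).trans hU) (Finset.mem_erase.mpr ⟨hab, ha⟩)]
    exact R.red_up U hU a ha b hb hab x y z hz
  N_up_self := R.mon_up
  red_up_self U hU a ha v z hz := by
    rw [T.redAll_eq hA hχ R hU ha]
    exact R.red_up_self U hU a ha v z hz
  V_up U hU a _ _ b hb v := T.actAll_pairUp hA hχ (φ a)⁻¹ (hU.trans hV) (U.erase_subset b) hb v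
  act_up g U hU b hb v := T.actAll_pairUp hA hχ g (hU.trans hV) (U.erase_subset b) hb v

end ALSetup

namespace ALSetup

variable {O : Type} [CommRing O] [IsLocalRing O] [IsNoetherianRing O]
  [IsAdicComplete (maximalIdeal O) O] (T : ALSetup O)

/-- **The cube is injective** when reductions exist and the Frobenius elements have trace zero,
with an element of trace one next to them. -/
theorem cubeInjective_of_reductions (hχ : T.χ = 1) (hS : T.S.Finite)
    (hes : ∀ (U : Finset ℕ) [NeZero (T.level U)],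
      EigenRep.EichlerShimuraRelations (T.level U) 2)
    {V : Finset ℕ} (hV : V ⊆ T.W) {σ φ : ℕ → Γ}
    (R : T.CubeReductions (A := O ⧸ maximalIdeal O) smul_quotient_eq_zero hχ V σ φ)
    (htr : ∀ a ∈ V, ∃ g : Γ, T.TraceAt (φ a)⁻¹ 0 ∧ T.TraceAt g 1 ∧ T.TraceAt (g * (φ a)⁻¹) 0)
    (B : Finset ℕ) : T.CubeInjective hV B := by
  refine T.cubeInjective_of_rows hV (T.rowCubeOf smul_quotient_eq_zero hχ R hV)
    (fun _ _ _ _ => rfl) ?_ B
  refine T.socleHyp_of_traces smul_quotient_eq_zero hχ hS hes hV _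
    (fun U hU _ g => T.actAll_eq smul_quotient_eq_zero hχ g (hU.trans hV)) fun a ha => ?_
  obtain ⟨g, h1, h2, h3⟩ := htr a ha
  exact ⟨(φ a)⁻¹, g, h1, h2, h3, fun _ _ _ => rfl⟩

end ALSetup

end Fermat.Agent.TwoAdic
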