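import Fermat.Agent.TwoAdic.Geometry.KernelSetup
import Fermat.Agent.SemistableRed.Swap
import Fermat.Agent.ResidualTorsion.Modular
import Fermat.Agent.ToricRows.FixedRep
import Fermat.Agent.TwoAdic.Geometry.Instances

/-!
# The relation between monodromy, Frobenius and the involution

`N (φ + κ w) = 0` for the monodromy `N` at a tame generator, a Frobenius `φ` and the involution
`w` at the same prime, with an integer `κ`: from `φ = - q w` on monodromy classes.
-/

set_option autoImplicit false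

noncomputable section

open IsLocalRing AlgebraicCurve ModularCurve
open scoped Pointwise

namespace Fermat.Agent.TwoAdic.Geometry

theorem pullPic_algEquiv {K F : Type*} [Field K] [IsAlgClosed K] [Field F] [Algebra K F]
    [FunctionFieldRR.IsFunctionField K F] (s : F ≃ₐ[K] F) (x : Pic0 K F) :
    pullPic s.toAlgHom x = SemilinearAut.ofAlgAut s • x := by
  obtain ⟨D, rfl⟩ := Pic0.mk_surjective x
  rw [pullPic_mk, SemilinearAut.pic0_smul_mk]
  refine congrArg Pic0.mk (Subtype.ext (Finsupp.ext fun v => ?_))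
  set g := SemilinearAut.ofAlgAut s
  have hv : v.restrictAlong s.toAlgHom (HeckeJ0.isIntegral_of_isFunctionField _) = g⁻¹ • v := by
    refine Place.ext (SetLike.ext fun y => ?_)
    show s y ∈ v.toValuationSubring ↔ y ∈ g⁻¹ • v.toValuationSubring
    rw [ValuationSubring.mem_inv_pointwise_smul_iff]
    rfl
  obtain ⟨π, hπ⟩ := IsDiscreteValuationRing.exists_irreducible (g⁻¹ • v).toValuationSubring
  have h1 := Place.ord_restrictAlong s.toAlgHom (HeckeJ0.isIntegral_of_isFunctionField _) v π.1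
  have h2 : (g⁻¹ • v).ord π.1 = v.ord (g • π.1) := by
    have := SemilinearAut.ord_smul (g := g) (v := g⁻¹ • v) (f := π.1)
    rw [smul_inv_smul] at this
    exact this.symm
  rw [hv, Place.ord_coe_irreducible _ hπ, mul_one] at h1
  rw [Place.ord_coe_irreducible _ hπ] at h2
  rw [coe_pullDiv, hv, show (Place.ramificationIndexAlong s.toAlgHom v : ℤ) = 1 from
    h1.symm.trans h2.symm, one_mul]
  exact (SemilinearAut.divisor_smul_apply g (D : Divisor K F) v).symm

local notation "Qbar" => AlgebraicClosure ℚ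

/-- On `p`-power torsion of `J₀(M q)`: `σ₀ (φ y + κ w y) = φ y + κ w y`. -/
theorem exists_smul_frob_add_alPic {M q p m : ℕ} [NeZero M] [NeZero q] (hq : q.Prime)
    (hqM : ¬ q ∣ M) (hp : p.Prime) (hpq : p ≠ q) {P : ValuationSubring Qbar}
    (hP : P.LiesOverPrime q) {σ₀ φ : Qbar ≃ₐ[ℚ] Qbar}
    (hσ₀ : TameInertia.IsTameGenerator P p q σ₀) (hφ : P.IsFrobeniusAt φ q) :
    ∃ κ : ℤ, ∀ y : JZero (M * q), p ^ m • y = 0 →
      σ₀ • (φ • y + κ • alPic hq hqM y) = φ • y + κ • alPic hq hqM y := by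
  have : Fact q.Prime := ⟨hq⟩
  have := ResidualTorsion.charP_residue hP
  have : IsAlgClosed (ResidueField P) := Reduction.isAlgClosed_residueField
  have := SemistableRed.isFunctionField_level (M * q)
  have S : SemistableRed.Setting P M q := ⟨hqM, hP, ⟨_, IgusaGenus.reductionFacts hqM hP⟩⟩
  have : NeZero (M * q) := ⟨mul_ne_zero (NeZero.ne M) hq.ne_zero⟩
  classical
  obtain ⟨F₀, hF₀, hF₀fix⟩ := ToricRows.exists_field_fixing_killed (M * q) (n := p ^ m)
    (pow_ne_zero _ hp.ne_zero)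
  let ρ : (Qbar ≃ₐ[ℚ] Qbar) →* Equiv.Perm {y : JZero (M * q) // p ^ m • y = 0} :=
    { toFun := fun τ =>
        { toFun := fun y => ⟨τ • (y : JZero (M * q)), by
            rw [← ToricRows.gal_nsmul, y.2, ToricRows.gal_zero]⟩
          invFun := fun y => ⟨τ⁻¹ • (y : JZero (M * q)), by
            rw [← ToricRows.gal_nsmul, y.2, ToricRows.gal_zero]⟩
          left_inv := fun y => Subtype.ext (inv_smul_smul τ _)
          right_inv := fun y => Subtype.ext (smul_inv_smul τ _) }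
      map_one' := Equiv.ext fun y => Subtype.ext (one_smul _ _)
      map_mul' := fun τ τ' => Equiv.ext fun y => Subtype.ext (mul_smul τ τ' _) }
  have hcop : (p ^ m).Coprime q := Nat.Coprime.pow_left _ ((Nat.coprime_primes hp hq).mpr hpq)
  have key : ∀ τ ∈ P.inertiaSubgroupIn ℚ, ∀ y : JZero (M * q), p ^ m • y = 0 → ∀ j : ℕ,
      τ ^ j • y = y + j • (τ • y - y) := by
    intro τ hτ y hy j
    have hu := SemistableRed.inertiaUnipotent_of_facts hqM
      (fun B hB => SemistableRed.goodReductionFacts M q hqM B hB) P hP τ hτ (p ^ m) hcop y hy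
    induction j with
    | zero => simp
    | succ j ih =>
      rw [pow_succ', mul_smul, ih, ToricRows.gal_add, ToricRows.gal_nsmul, succ_nsmul]
      have h2 : τ • (τ • y - y) = τ • y - y := by
        rw [ToricRows.gal_sub, ← sub_eq_zero]
        refine Eq.trans ?_ hu
        abel
      rw [h2]
      abel
  have hexp : ∀ τ, τ ∈ P.inertiaSubgroupIn ℚ → ρ τ ^ p ^ m = 1 := fun τ hτ => by
    rw [← map_pow]
    refine Equiv.ext fun y => Subtype.ext ?_
    show τ ^ p ^ m • (y : JZero (M * q)) = y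
    rw [key τ hτ y y.2, nsmul_sub, ← ToricRows.gal_nsmul, y.2, ToricRows.gal_zero, sub_self,
      add_zero]
  have hconj : φ⁻¹ * σ₀ * φ ∈ P.inertiaSubgroupIn ℚ := by
    have hd : φ ∈ P.decompositionSubgroup ℚ := hφ.choose
    have := TameInertia.inertia_normal_in_decomposition (φ := φ⁻¹) (σ := σ₀) (inv_mem hd) hσ₀.1
    rwa [inv_inv] at this
  obtain ⟨j, hj⟩ := TameInertia.exists_eq_pow_tameGenerator hp hq hpq hP (MonoidHom.id _) (ρ := ρ)
    ⟨F₀, hF₀, fun τ hτ => by
      rw [MonoidHom.mem_ker]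
      exact Equiv.ext fun y => Subtype.ext (hF₀fix τ hτ _ y.2)⟩ (k := m) hexp hσ₀ hconj
  refine ⟨(j * q : ℕ), fun y hy => ?_⟩
  have hal : ∀ σ : Qbar ≃ₐ[ℚ] Qbar, alPic hq hqM (σ • y) = σ • alPic hq hqM y :=
    fun σ => alPic_galois hq hqM σ y
  have h1 : (φ⁻¹ * σ₀ * φ) • y = y + j • (σ₀ • y - y) := by
    have h := congrArg Subtype.val (Equiv.ext_iff.mp hj ⟨y, hy⟩)
    rw [← map_pow] at h
    exact h.trans (key σ₀ hσ₀.1 y hy j)
  have h2 := S.signed_monodromy hφ hσ₀.1 hcop y hy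
  have hw : SemilinearAut.ofAlgAut S.w • (σ₀ • y - y) = alPic hq hqM (σ₀ • y - y) :=
    (pullPic_algEquiv _ _).symm
  rw [hw] at h2
  have h3 : σ₀ • φ • y = φ • y + j • (φ • (σ₀ • y - y)) := by
    rw [← ToricRows.gal_nsmul, ← ToricRows.gal_add, ← h1, ← mul_smul, ← mul_smul]
    congr 1
    group
  rw [natCast_zsmul, ToricRows.gal_add, ToricRows.gal_nsmul, h3, ← hal,
    eq_neg_of_add_eq_zero_left h2, map_sub, mul_nsmul' _ j q, mul_nsmul' _ j q, neg_nsmul,
    nsmul_sub, nsmul_sub]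
  abel

/-- The same at a level `N = M q`. -/
theorem exists_smul_frob_add_alAt {M q N p m : ℕ} [NeZero M] [NeZero q] [NeZero N] (h : M * q = N)
    (hq : q.Prime) (hqM : ¬ q ∣ M) (hp : p.Prime) (hpq : p ≠ q) {P : ValuationSubring Qbar}
    (hP : P.LiesOverPrime q) {σ₀ φ : Qbar ≃ₐ[ℚ] Qbar}
    (hσ₀ : TameInertia.IsTameGenerator P p q σ₀) (hφ : P.IsFrobeniusAt φ q) :
    ∃ κ : ℤ, ∀ y : JZero N, p ^ m • y = 0 →
      σ₀ • (φ • y + κ • Bridge.alAt hq hqM h y) = φ • y + κ • Bridge.alAt hq hqM h y := by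
  subst h
  obtain ⟨κ, hκ⟩ := exists_smul_frob_add_alPic (m := m) hq hqM hp hpq hP hσ₀ hφ
  exact ⟨κ, fun y hy => by rw [Bridge.alAt_rfl]; exact hκ y hy⟩

end Fermat.Agent.TwoAdic.Geometry

namespace Fermat.Agent.TwoAdic.ALSetup

open HeckeModule

attribute [local instance] ALSetup.isPrime

variable {O : Type} [CommRing O] [IsDomain O] [IsLocalRing O] (T : ALSetup O) {A : Type}
  [AddCommGroup A] [Module O A] (hχ : T.χ = 1) {k : ℕ} (hA : ∀ a : A, 2 ^ k • a = 0)

/-- With trivial character the scalars of the involutions are signs. -/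
theorem c_eq_one_or_neg_one {e : ℕ} (he : e ∈ T.W) (hχ : T.χ = 1) :
    T.c e = 1 ∨ T.c e = -1 := by
  have h := T.sq e he (T.coprime_M he)
  rw [hχ, MonoidHom.one_apply] at h
  exact mul_self_eq_one_iff.mp h

/-- **`N (φ + κ w) = 0`** at the level of `V`. -/
theorem exists_theta {V : Finset ℕ} (hV : V ⊆ T.W) [NeZero (T.level V)] {q : ℕ} (hqV : q ∈ V)
    (hq2 : q ≠ 2) {P : ValuationSubring (AlgebraicClosure ℚ)} (hP : P.LiesOverPrime q)
    {σ₀ φ : AlgebraicClosure ℚ ≃ₐ[ℚ] AlgebraicClosure ℚ}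
    (hσ₀ : TameInertia.IsTameGenerator P 2 q σ₀) (hφ : P.IsFrobeniusAt φ q) :
    ∃ κ : ℤ, ∀ x, T.monodromyAt hχ hA hV σ₀
      (Bridge.setupGal T hχ hV hA φ x + κ • T.w A hV q x) = 0 := by
  have hq := T.prime q (hV hqV)
  have hes : V.erase q ⊆ T.W := (Finset.erase_subset q V).trans hV
  have : NeZero (T.level (V.erase q)) := ⟨T.level_ne_zero hes⟩
  have : NeZero q := ⟨hq.ne_zero⟩
  have hqM := T.not_dvd_level hes (hV hqV) (Finset.notMem_erase q V)
  have h : T.level (V.erase q) * q = T.level V := by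
    rw [mul_comm, ← T.level_insert (Finset.notMem_erase q V), Finset.insert_erase hqV]
  obtain ⟨κ₀, hκ⟩ := Geometry.exists_smul_frob_add_alAt (m := k) h hq hqM Nat.prime_two
    (fun h => hq2 h.symm) hP hσ₀ hφ
  obtain ⟨s, hs⟩ : ∃ s : ℤ, (s : O) = T.c q * T.c q * T.c q ∧ (s : O) * T.c q = 1 := by
    rcases T.c_eq_one_or_neg_one (hV hqV) hχ with h | h
    · exact ⟨1, by simp [h]⟩
    · exact ⟨-1, by simp [h]⟩
  refine ⟨κ₀ * s, fun x => ?_⟩
  rw [T.monodromyAt_apply, sub_eq_zero]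
  refine DFunLike.congr_fun (Bridge.setup_ext T hχ hV hA
    (F := ((Bridge.setupGal T hχ hV hA σ₀) ∘ₗ
      (Bridge.setupGal T hχ hV hA φ + (κ₀ * s) • T.w A hV q)).toAddMonoidHom)
    (G := (Bridge.setupGal T hχ hV hA φ + (κ₀ * s) • T.w A hV q).toAddMonoidHom)
    fun ι y t => ?_) x
  show Bridge.setupGal T hχ hV hA σ₀ (Bridge.setupGal T hχ hV hA φ _ + (κ₀ * s) • T.w A hV q _) =
    Bridge.setupGal T hχ hV hA φ _ + (κ₀ * s) • T.w A hV q _
  rw [Bridge.setupGal_setupClass, Bridge.w_setupClass T hχ hV hqV hqM h, mul_zsmul,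
    ← Int.cast_smul_eq_zsmul O s, smul_smul, hs.2, one_smul]
  have hadd : ∀ (y z : Pic0.torsion (AlgebraicClosure ℚ) (modularFunctionFieldBar (T.level V)) (2 ^ k))
      (m : ℤ), Bridge.setupClass T hχ ι y t + m • Bridge.setupClass T hχ ι z t =
        Bridge.setupClass T hχ ι (y + m • z) t := fun y z m => by
    let f : Pic0.torsion (AlgebraicClosure ℚ) (modularFunctionFieldBar (T.level V)) (2 ^ k) →+
        T.H V A := AddMonoidHom.mk' (fun u => Bridge.setupClass T hχ ι u t) fun u v => by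
      unfold Bridge.setupClass Bridge.torsLoc
      rw [map_add, mk_add_mk_same]
    show f y + m • f z = f (y + m • z)
    rw [map_add, map_zsmul]
  rw [hadd, Bridge.setupGal_setupClass]
  refine congrArg (fun y => Bridge.setupClass T hχ ι y t) (Subtype.ext ?_)
  rw [Bridge.coe_galTors]
  push_cast
  rw [Bridge.coe_galTors, Bridge.coe_torsRestrict]
  refine hκ _ ?_
  rw [← natCast_zsmul]
  exact Pic0.mem_torsion.mp y.2

end Fermat.Agent.TwoAdic.ALSetup
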