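import Fermat.Agent.TwoAdic.Geometry.KernelTotal
import Fermat.Agent.TwoAdic.Geometry.Theta
import Fermat.Agent.TwoAdic.Geometry.Bridge.Trace

/-!
# The geometric inputs of the descent

The three geometric inputs of the descent at a prime of a setup.
-/

set_option autoImplicit false
set_option linter.unusedSectionVars false

noncomputable section

open AlgebraicCurve ModularCurve IsLocalRing

namespace Fermat.Agent.TwoAdic.Geometry

open HeckeJ0 HeckeModule EigenSystems Bridge

attribute [local instance] ALSetup.isPrime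

local notation "Qbar" => AlgebraicClosure ℚ

variable {O : Type} [CommRing O] [IsLocalRing O] (T : ALSetup O) (hχ : T.χ = 1) {A : Type}
  [AddCommGroup A] [Module O A] {k : ℕ} {q : ℕ} [Fact q.Prime] [NeZero q] {V U : Finset ℕ}
  (hV : V ⊆ T.W) (hS : T.CoreInS) (hqU : q ∉ U) (hUV : insert q U = V) [NeZero (T.level V)]
  [NeZero (T.level U)]

/-- The trace follows the norm along the second degeneracy map. -/
theorem traceIsNorm : TraceIsNorm (A := A) (k := k) T hχ hV hS hqU hUV := fun ι x s =>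
  tr_setupClass T hχ hS hV hqU hUV (level_face T hV hqU hUV) ι x s

/-- **The geometric inputs of the descent at `q`**, modulo `2 ^ k`. -/
theorem descent_geometry {O : Type} [CommRing O] [IsDomain O] [IsDiscreteValuationRing O]
    [Finite (ResidueField O)] [CharZero O] (T : ALSetup O) (hχ : T.χ = 1) {q : ℕ}
    [Fact q.Prime] [NeZero q] {V U : Finset ℕ} (hV : V ⊆ T.W) (hS : T.CoreInS) (hqU : q ∉ U)
    (hUV : insert q U = V) [NeZero (T.level V)] [NeZero (T.level U)] (hq2 : q ≠ 2)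
    {σ₀ φ : Qbar ≃ₐ[ℚ] Qbar} {P : ValuationSubring Qbar} (hP : P.LiesOverPrime q)
    (hσ₀ : TameInertia.IsTameGenerator P 2 q σ₀) (hφ : P.IsFrobeniusAt φ q) (k : ℕ)
    (hA : ∀ a : O ⧸ Ideal.span {(2 : O) ^ k}, 2 ^ k • a = 0) :
    Nonempty (T.KernelRows hχ hA hS hV hqU hUV σ₀ φ) ∧
      (∃ κ : ℤ, ∀ x, T.monodromyAt hχ hA hV σ₀
        (setupGal T hχ hV hA φ x + κ • T.w (O ⧸ Ideal.span {(2 : O) ^ k}) hV q x) = 0) ∧
      ∀ σ x, T.tr (O ⧸ Ideal.span {(2 : O) ^ k}) hS hV hqU hUV (setupGal T hχ hV hA σ x) =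
        setupGal T hχ (T.face_subset hV hUV) hA σ
          (T.tr (O ⧸ Ideal.span {(2 : O) ^ k}) hS hV hqU hUV x) :=
  ⟨nonempty_kernelRows_span T hχ hV hS hqU hUV hq2 hP hσ₀ hφ k hA (traceIsNorm T hχ hV hS hqU hUV),
    T.exists_theta hχ hA hV (hUV ▸ Finset.mem_insert_self q U) hq2 hP hσ₀ hφ,
    Bridge.tr_setupGal T hχ hS hV hqU hUV hA⟩

end Fermat.Agent.TwoAdic.Geometry

end
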