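import Fermat.Agent.TwoAdic.Descend.Assembled
import Fermat.Agent.TwoAdic.Geometry.DescentGeometry

/-!
# The descent loop

The descent loop with its geometric inputs supplied.
-/

set_option autoImplicit false

noncomputable section

open IsLocalRing GaloisRep CongruenceSubgroup Fermat.Agent.DefRing Fermat.Agent.Deform

namespace Fermat.Agent.TwoAdic

open HeckeJ0 LevelRaising HeckeModule

attribute [local instance] ALSetup.isPrime

namespace Descend

open Pair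

variable {O : Type} [CommRing O] [IsDomain O] [IsDiscreteValuationRing O] [CharZero O]
  [IsAdicComplete (maximalIdeal O) O] [Finite (ResidueField O)] [CharP (ResidueField O) 2]
  {D : NormalData O} (E : LiftData) {Q : Finset ℕ} {C : Set (GQ × GQ)}
  (T : ALSetup O) (V₀ : Finset ℕ)

/-- **Descent to no auxiliary prime**, from the traces and the cube alone. -/
theorem descent_geometric [Fact (Nat.Prime 2)] (hr : IsDihedralResidual E.D D.rbar)
    (hspan : Submodule.span (ResidueField O) (Set.range D.rbar) = ⊤)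
    (hS : T.CoreInS) (hχ : T.χ = 1) (hV : V₀ ∪ E.aux ⊆ T.W)
    (hdisj : ∀ q ∈ E.aux, q ∉ V₀ ∧ q ∉ Q)
    (P : ℕ → ValuationSubring (AlgebraicClosure ℚ)) (φ : ℕ → GQ)
    (hP : ∀ q ∈ E.aux, (P q).LiesOverPrime q ∧ (P q).IsFrobeniusAt (φ q) q ∧
      (D.rbar (φ q)).trace = 0 ∧ D.rbar (φ q) ≠ 1)
    (hsign : ∀ q ∈ E.aux, (E.sgn q : O) = -T.c q)
    (hihara : ∀ (q : ℕ) (S : Stage E), q ∈ S.1 → q.Prime →
      IharaPrimes (awayMonoid T.m) (T.level (V₀ ∪ (S.erase q).1)) q 2)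
    (hcube : T.CubeInjective hV (V₀ ∪ E.aux))
    (h : ∀ S : Stage E, IsResidualPair D S.data Q C)
    (U : ∀ S : Stage E, (pairFunctor (h S)).UniversalPoint)
    [∀ S : Stage E, Module (U S).R (T.NewQuot O (stage_subset E T V₀ hV S) (V₀ ∪ S.1))]
    [∀ S : Stage E, IsScalarTower O (U S).R (T.NewQuot O (stage_subset E T V₀ hV S) (V₀ ∪ S.1))]
    (hSfin : T.S.Finite) (h2 : 2 ∉ T.S) (S₀ : Finset ℕ) (hS₀ : ∀ ℓ ∈ T.S, ℓ.Prime → ℓ ∈ S₀)
    (hτ : ∀ (S : Stage E) (ℓ : ℕ) (hℓ : ℓ.Prime) (hℓS : ℓ ∉ T.S), ℓ ∉ S₀ →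
      ∀ P' : ValuationSubring (AlgebraicClosure ℚ), P'.LiesOverPrime ℓ →
        ∀ σ : GQ, P'.IsFrobeniusAt σ ℓ →
        ∀ m : T.NewQuot O (stage_subset E T V₀ hV S) (V₀ ∪ S.1),
          Matrix.trace (uRep (U S) σ) • m
            = T.newAct O (stage_subset E T V₀ hV S) (V₀ ∪ S.1) (awayX O hℓ hℓS) m)
    (hα : ∀ (S : Stage E) (m : T.NewQuot O (stage_subset E T V₀ hV S) (V₀ ∪ S.1)),
      T.newAct O (stage_subset E T V₀ hV S) (V₀ ∪ S.1) (awayX O Nat.prime_two h2)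
          (uRoot (U S) • m)
        = uRoot (U S) • uRoot (U S) • m + (2 : O) • m)
    (hci : IsFiniteCI O (U ⟨E.aux, subset_rfl⟩).R)
    (β : Module.Basis (Fin 2) (U ⟨E.aux, subset_rfl⟩).R
      (T.NewQuot O (stage_subset E T V₀ hV ⟨E.aux, subset_rfl⟩) (V₀ ∪ E.aux)))
    (S : Stage E) :
    IsFiniteCI O (U S).R ∧ Nonempty
      (Module.Basis (Fin 2) (U S).R (T.NewQuot O (stage_subset E T V₀ hV S) (V₀ ∪ S.1))) := by
  classical
  have hgen : ∀ q : ℕ, ∃ σ : GQ,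
      q ∈ E.aux → TameInertia.IsTameGenerator (P q) 2 q σ := fun q => by
    by_cases hq : q ∈ E.aux
    · obtain ⟨σ, hσ⟩ := TameInertia.exists_tameGenerator Nat.prime_two (E.aux_spec q hq).1
        (E.aux_spec q hq).2.1.symm (hP q hq).1
      exact ⟨σ, fun _ => hσ⟩
    · exact ⟨1, fun h => absurd h hq⟩
  choose σ₀ hσ₀ using hgen
  refine descent_assembled E T V₀ hr hspan hS hχ hV hdisj P φ σ₀
    (fun q hq => ⟨(hP q hq).1, (hP q hq).2.1, (hP q hq).2.2.1, (hP q hq).2.2.2, (hσ₀ q hq).1⟩)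
    hsign hihara hcube h U hSfin h2 S₀ hS₀ hτ hα (fun q _ S hqV hq _ _ k => ?_) hci β S
  have : NeZero q := ⟨(Fact.out : q.Prime).ne_zero⟩
  have hqA : q ∈ E.aux := S.2 hq
  exact Geometry.descent_geometry T hχ (stage_subset E T V₀ hV S) hS hqV
    (insert_union_erase V₀ hq) (E.aux_spec q hqA).2.1 (hP q hqA).1 (hσ₀ q hqA) (hP q hqA).2.1 k
    (two_pow_smul_span O k)

end Descend

end Fermat.Agent.TwoAdic

end
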