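import Fermat.Agent.TwoAdic.RowDescent
import Mathlib.Algebra.Group.Subgroup.Lattice
import Mathlib.GroupTheory.QuotientGroup.Basic
import Mathlib.Tactic.Abel

/-!
# The descent kernel, abstractly

The descent kernel, abstractly. `N` is the monodromy at the prime leaving the level, `red` the
reductions of its kernel to two copies of the level below, `ζ` the norm to the new quotient. The
classes of trace zero lie in every stable subgroup containing the monodromy classes.
-/

set_option autoImplicit false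

universe uX uY uC uQ uG uι

namespace Fermat.Agent.TwoAdic.Geometry

section Rows

variable {X : Type uX} [AddCommGroup X] {Y : Type uY} [AddCommGroup Y] {C : Type uC}
  [AddCommGroup C] (N : X →+ X) (red : N.ker →+ Y × Y) (ζ : X →+ C) (M : AddSubgroup C)
  (nrm : Y →+ Y)

/-- The norms of sums of reductions of invariant classes dying in `C ⧸ M`. -/
def redSum : AddSubgroup Y :=
  ((M.comap ζ).comap N.ker.subtype).map
    (nrm.comp ((AddMonoidHom.fst Y Y + AddMonoidHom.snd Y Y).comp red))

theorem mem_redSum {z : N.ker} (hz : ζ z ∈ M) : nrm ((red z).1 + (red z).2) ∈ redSum N red ζ M nrm :=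
  ⟨z, hz, rfl⟩

variable (hsurj : Function.Surjective red) (hzero : ∀ z, red z = 0 → ∃ e, N e = (z : X))
  (hmon : ∀ e, ζ (N e) ∈ M) (swapX : X →+ X) (hζswap : ∀ x, ζ (swapX x) = ζ x)
  (hswap : ∀ z : N.ker, ∃ z' : N.ker, (z' : X) = swapX z ∧ red z' = ((red z).2, (red z).1))
  {ι : Type uι} (W : Finset ι) (wX : ι → X →+ X) (wY : ι → Y →+ Y)
  (hζw : ∀ e ∈ W, ∀ x, ζ (wX e x) = ζ x)
  (hw : ∀ e ∈ W, ∀ z : N.ker, ∃ z' : N.ker, (z' : X) = wX e z ∧
    red z' = (wY e (red z).1, wY e (red z).2))
  (hnrm : ∀ t, nrm t = 0 → t ∈ W.sup fun e => (wY e - AddMonoidHom.id Y).range)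

include hsurj hzero hmon hζswap hswap hζw hw hnrm in
/-- An invariant class dies as soon as the norm of the sum of its reductions is one of `redSum`. -/
theorem mem_of_redSum (z : N.ker) (hz : nrm ((red z).1 + (red z).2) ∈ redSum N red ζ M nrm) :
    ζ z ∈ M := by
  obtain ⟨z₁, hz₁, he⟩ := hz
  let P : AddSubgroup (Y × Y) := ((M.comap ζ).comap N.ker.subtype).map red
  have hanti : ∀ t, ((-t, t) : Y × Y) ∈ P := fun t => by
    obtain ⟨z₂, hz₂⟩ := hsurj (t, 0)
    obtain ⟨z₃, hz₃, hr⟩ := hswap z₂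
    refine ⟨z₃ - z₂, ?_, ?_⟩
    · show ζ ((z₃ : X) - z₂) ∈ M
      rw [map_sub, hz₃, hζswap, sub_self]
      exact zero_mem M
    · rw [map_sub, hr, hz₂]
      simp
  have haug : (W.sup fun e => (wY e - AddMonoidHom.id Y).range) ≤
      P.comap (AddMonoidHom.inl Y Y) := Finset.sup_le fun e he' => by
    rintro _ ⟨t, rfl⟩
    obtain ⟨z₂, hz₂⟩ := hsurj (t, 0)
    obtain ⟨z₃, hz₃, hr⟩ := hw e he' z₂
    refine ⟨z₃ - z₂, ?_, ?_⟩
    · show ζ ((z₃ : X) - z₂) ∈ M
      rw [map_sub, hz₃, hζw e he', sub_self]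
      exact zero_mem M
    · rw [map_sub, hr, hz₂]
      simp
  set d := z - z₁ with hd
  have hsum : nrm ((red d).1 + (red d).2) = 0 := by
    have he' : nrm ((red z₁).1 + (red z₁).2) = nrm ((red z).1 + (red z).2) := he
    rw [hd, map_sub, Prod.fst_sub, Prod.snd_sub,
      show (red z).1 - (red z₁).1 + ((red z).2 - (red z₁).2) =
        ((red z).1 + (red z).2) - ((red z₁).1 + (red z₁).2) by abel, map_sub, he', sub_self]
  have hdP : red d ∈ P := by
    rw [show red d = (AddMonoidHom.inl Y Y ((red d).1 + (red d).2)) + (-(red d).2, (red d).2) by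
      simp]
    exact add_mem (haug (hnrm _ hsum)) (hanti _)
  obtain ⟨z₄, hz₄, hr₄⟩ := hdP
  obtain ⟨e, hNe⟩ := hzero (d - z₄) (by rw [map_sub, hr₄, sub_self])
  have h1 : ζ ((d : X) - z₄) ∈ M := by
    rw [show ((d : X) - z₄) = N e from hNe.symm]
    exact hmon e
  have h2 : ζ (z₄ : X) ∈ M := hz₄
  have h3 : ζ (z₁ : X) ∈ M := hz₁
  have := add_mem (add_mem h1 h2) h3
  rwa [← map_add, ← map_add, sub_add_cancel, hd,
    show ((z - z₁ : N.ker) : X) + z₁ = z from sub_add_cancel (z : X) _] at this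

end Rows

section Kernel

variable {G : Type uG} [Monoid G] {X : Type uX} [AddCommGroup X] {C : Type uC} [AddCommGroup C]
  {Q : Type uQ} [AddCommGroup Q] (actC : G →* AddMonoid.End C) (M : AddSubgroup C)

/-- **Socle**: no stable subgroup above `M` in which `φ` is a scalar modulo `M`, next to an element
behaving like a three-cycle. -/
theorem le_of_scalar (hM : ∀ g, ∀ x ∈ M, actC g x ∈ M) {φ f g : G} (hf : actC f * actC φ = 1)
    (h2 : IsNilpotent (2 : AddMonoid.End C))
    (hg : IsNilpotent (actC g * actC g + actC g + 1))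
    (hff : IsNilpotent (actC f * actC f - 1))
    (hgf : IsNilpotent (actC g * actC f * (actC g * actC f) - 1))
    {K : AddSubgroup C} (hK : ∀ g, ∀ x ∈ K, actC g x ∈ K) (κ : ℤ)
    (hscal : ∀ x ∈ K, actC φ x + κ • x ∈ M) : K ≤ M := by
  let S : Subring (AddMonoid.End C) :=
    { carrier := {u | (∀ x ∈ K, u x ∈ K) ∧ ∀ x ∈ M, u x ∈ M}
      mul_mem' := fun {u v} hu hv => ⟨fun x hx => hu.1 _ (hv.1 x hx), fun x hx => hu.2 _ (hv.2 x hx)⟩
      one_mem' := ⟨fun x hx => hx, fun x hx => hx⟩
      add_mem' := fun {u v} hu hv =>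
        ⟨fun x hx => add_mem (hu.1 x hx) (hv.1 x hx), fun x hx => add_mem (hu.2 x hx) (hv.2 x hx)⟩
      zero_mem' := ⟨fun x _ => zero_mem K, fun x _ => zero_mem M⟩
      neg_mem' := fun {u} hu =>
        ⟨fun x hx => neg_mem (hu.1 x hx), fun x hx => neg_mem (hu.2 x hx)⟩ }
  let gs : S := ⟨actC g, hK g, hM g⟩
  let fs : S := ⟨actC f, hK f, hM f⟩
  let π : S →+* AddMonoid.End (K ⧸ M.addSubgroupOf K) :=
    { toFun := fun u => QuotientAddGroup.map _ _
        (((u : AddMonoid.End C).comp K.subtype).codRestrict K fun x => u.2.1 x x.2)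
        fun x hx => u.2.2 _ hx
      map_one' := AddMonoidHom.ext fun q => by
        obtain ⟨x, rfl⟩ := QuotientAddGroup.mk_surjective q; rfl
      map_mul' := fun u v => AddMonoidHom.ext fun q => by
        obtain ⟨x, rfl⟩ := QuotientAddGroup.mk_surjective q; rfl
      map_zero' := AddMonoidHom.ext fun q => by
        obtain ⟨x, rfl⟩ := QuotientAddGroup.mk_surjective q; rfl
      map_add' := fun u v => AddMonoidHom.ext fun q => by
        obtain ⟨x, rfl⟩ := QuotientAddGroup.mk_surjective q; rfl }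
  have hnil : ∀ u : S, IsNilpotent (u : AddMonoid.End C) → IsNilpotent (π u) := by
    rintro u ⟨n, hn⟩
    exact IsNilpotent.map (⟨n, Subtype.ext (by rw [SubmonoidClass.coe_pow, hn]; rfl)⟩ :
      IsNilpotent u) π
  have hsub : Subsingleton (AddMonoid.End (K ⧸ M.addSubgroupOf K)) := by
    refine subsingleton_of_transposition (h := π gs) (F := π fs) ?_ ?_ ?_ ?_ ?_
    · refine AddMonoidHom.ext fun q => ?_
      obtain ⟨x, rfl⟩ := QuotientAddGroup.mk_surjective q
      show (QuotientAddGroup.mk (⟨actC g (actC f x), _⟩ : K) : K ⧸ M.addSubgroupOf K) =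
        QuotientAddGroup.mk (⟨actC f (actC g x), _⟩ : K)
      refine (QuotientAddGroup.eq_iff_sub_mem).mpr ?_
      show actC g (actC f x) - actC f (actC g x) ∈ M
      -- modulo `M` the element `f` is a scalar inverse to `-κ`
      have key : ∀ y ∈ K, y + κ • actC f y ∈ M := fun y hy => by
        have h := hM f _ (hscal y hy)
        rwa [map_add, map_zsmul, show actC f (actC φ y) = y from DFunLike.congr_fun hf y] at h
      have h1 := hM g _ (key _ (hK f x x.2))
      have h2' := key _ (hK f _ (hK g x x.2))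
      have h3 := hM g _ (key x x.2)
      have h4 := key _ (hK g x x.2)
      have h5 := key _ (hK g _ (hK f x x.2))
      -- `g f x ≡ f g x` as both invert `-κ` on `g x`
      have e1 : actC f (actC g x) + κ • actC f (actC g (actC f x)) ∈ M := by
        have := hM f _ h3
        rwa [map_add, map_add, map_zsmul, map_zsmul] at this
      have := sub_mem h5 e1
      rwa [show actC g (actC f x) + κ • actC f (actC g (actC f x)) -
        (actC f (actC g x) + κ • actC f (actC g (actC f x))) =
        actC g (actC f x) - actC f (actC g x) by abel] at this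
    · simpa only [map_ofNat] using hnil 2 h2
    · simpa only [map_mul, map_add, map_one] using hnil (gs * gs + gs + 1) hg
    · simpa only [map_mul, map_sub, map_one] using hnil (fs * fs - 1) hff
    · simpa only [map_mul, map_sub, map_one] using hnil (gs * fs * (gs * fs) - 1) hgf
  intro x hx
  have h0 := DFunLike.congr_fun
    (Subsingleton.elim (1 : AddMonoid.End (K ⧸ M.addSubgroupOf K)) 0)
    (QuotientAddGroup.mk (⟨x, hx⟩ : K))
  exact (QuotientAddGroup.eq_zero_iff (⟨x, hx⟩ : K)).mp h0

variable (D : C →+ Q) (ζ : X →+ C) (N : X →+ X)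

/-- **Descent kernel.** If `F + κ P` maps into the kernel of the monodromy, `P` being the identity in
`C`, the invariant classes of trace zero die in `C ⧸ M` and the socle is as above, then the kernel
of the trace is in `M`. -/
theorem ker_le_of_monodromy
    (hD : ∀ g x, D x = 0 → D (actC g x) = 0) (hζ : Function.Surjective ζ) {φ : G}
    (F P : X →+ X) (hF : ∀ x, ζ (F x) = actC φ (ζ x)) (hP : ∀ x, ζ (P x) = ζ x) (κ : ℤ)
    (hN : ∀ x, N (F x + κ • P x) = 0) (hker : ∀ z, N z = 0 → D (ζ z) = 0 → ζ z ∈ M)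
    (hsoc : ∀ K : AddSubgroup C, (∀ g, ∀ x ∈ K, actC g x ∈ K) →
      (∀ x ∈ K, actC φ x + κ • x ∈ M) → K ≤ M) :
    D.ker ≤ M := by
  refine hsoc D.ker (fun g x hx => ?_) fun x hx => ?_
  · rw [AddMonoidHom.mem_ker] at hx ⊢
    exact hD g x hx
  · obtain ⟨y, rfl⟩ := hζ x
    rw [AddMonoidHom.mem_ker] at hx
    have h := hker _ (hN y) (by
      rw [map_add, map_zsmul, hF, hP, map_add, map_zsmul, hD _ _ hx, hx, zsmul_zero, add_zero])
    rwa [map_add, map_zsmul, hF, hP] at h

end Kernel

end Fermat.Agent.TwoAdic.Geometry
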