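import Fermat.Agent.TwoAdic.Geometry.RowNatural
import Fermat.Agent.TwoAdic.Geometry.RowLawsSetup
import Fermat.Agent.TwoAdic.Geometry.KernelSetup

/-!
# The rows of the descent kernel

The rows of the descent kernel, filled from the reductions of a setup.
-/

set_option autoImplicit false
set_option linter.unusedSectionVars false

noncomputable section

open AlgebraicCurve ModularCurve IsLocalRing

universe uκ

namespace Fermat.Agent.TwoAdic.Geometry

open HeckeJ0 HeckeModule EigenSystems Bridge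

attribute [local instance] ALSetup.isPrime

local notation "Qbar" => AlgebraicClosure ℚ

variable {O : Type} [CommRing O] [IsLocalRing O] (T : ALSetup O) (hχ : T.χ = 1) {A : Type}
  [AddCommGroup A] [Module O A] {k : ℕ} {κ : Type uκ} [Fintype κ]
  (e : A ≃+ (κ → ZMod (2 ^ k))) {q : ℕ} [Fact q.Prime] [NeZero q]
  {V : Finset ℕ} (hV : V ⊆ T.W) (hq : q ∈ V) (hS : T.CoreInS) [NeZero (T.level V)]
  [NeZero (T.level (V.erase q))] {σ₀ φ : Qbar ≃ₐ[ℚ] Qbar}
  (R : RowLaws (level_erase T hq) 2 σ₀ φ)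

/-- The trace to the level without `q` follows `Tr` on torsion classes. -/
def TraceFollows (Tr : JZero (T.level V) →+ JZero (T.level (V.erase q))) : Prop :=
  ∀ (ι : ZMod (2 ^ k) →+ A) x s,
    T.tr A hS hV (Finset.notMem_erase q V) (Finset.insert_erase hq) (setupClass T hχ ι x s) =
      setupClass T hχ ι (torsRestrict (2 ^ k) Tr x) s

include e R in
/-- A preimage of a pair of reductions, mapped from a face, has the mapped reductions. -/
theorem exists_old {b : ℕ} (hb : b ∈ V) (hqb : q ≠ b)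
    (Rb : haveI : NeZero (T.level (V.erase b)) := ⟨T.level_ne_zero ((V.erase_subset b).trans hV)⟩
      haveI : NeZero (T.level ((V.erase b).erase q)) :=
        ⟨T.level_ne_zero (((V.erase b).erase_subset q).trans ((V.erase_subset b).trans hV))⟩
      RowLaws (level_erase T (Finset.mem_erase.mpr ⟨hqb, hq⟩)) 2 σ₀ φ)
    {S : Finset ℕ} (hS' : (V.erase b).erase q = S) (hSV : S ⊆ V.erase q) (v : T.H S A) :
    ∃ (z : (T.monodromyAt hχ (nsmul_eq_zero_of_basis e) hV σ₀).ker) (x : T.H (V.erase b) A),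
      (z : T.H V A) = T.res A hV (V.erase_subset b) x ∧
        rowRed T hχ e hV hq R z = (T.res A ((V.erase_subset q).trans hV) hSV v, 0) := by
  subst hS'
  have : NeZero b := ⟨(T.prime b (hV hb)).ne_zero⟩
  have : NeZero (T.level (V.erase b)) := ⟨T.level_ne_zero ((V.erase_subset b).trans hV)⟩
  have : NeZero (T.level ((V.erase b).erase q)) :=
    ⟨T.level_ne_zero (((V.erase b).erase_subset q).trans ((V.erase_subset b).trans hV))⟩
  obtain ⟨z₀, hz₀⟩ := rowRed_surjective T hχ e ((V.erase_subset b).trans hV)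
    (Finset.mem_erase.mpr ⟨hqb, hq⟩) Rb (v, 0)
  have hker : T.res A hV (V.erase_subset b) (z₀ : T.H (V.erase b) A) ∈
      (monHom T hχ e hV σ₀).ker := by
    have h := z₀.2
    rw [AddMonoidHom.mem_ker, monHom_apply] at h ⊢
    rw [← setupGal_res T hχ hV (nsmul_eq_zero_of_basis e) (V.erase_subset b), ← map_sub, h, map_zero]
  refine ⟨⟨_, hker⟩, z₀, rfl, (rowRed_map_res T hχ e hV hq hb hqb R Rb z₀ ⟨_, hker⟩ rfl).trans ?_⟩
  rw [hz₀]
  exact Prod.ext rfl (map_zero _)

/-- **The rows of the descent kernel**, on the level without `q`. -/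
def kernelRows (Rb : ∀ (b : ℕ) (_ : b ∈ V) (hqb : q ≠ b),
      haveI : NeZero (T.level (V.erase b)) := ⟨T.level_ne_zero ((V.erase_subset b).trans hV)⟩
      haveI : NeZero (T.level ((V.erase b).erase q)) :=
        ⟨T.level_ne_zero (((V.erase b).erase_subset q).trans ((V.erase_subset b).trans hV))⟩
      RowLaws (level_erase T (Finset.mem_erase.mpr ⟨hqb, ‹q ∈ V›⟩)) 2 σ₀ φ)
    (Tr : JZero (T.level V) →+ JZero (T.level (V.erase q)))
    (hσ : ∀ (j : ℕ) x, 2 ^ j • x = 0 → Tr (σ₀ • x) = σ₀ • Tr x)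
    (hα : ∀ (j : ℕ) u, 2 ^ j • u = 0 →
      Tr (resPic (Dvd.intro q (level_erase T hq)) u) = φ • u + q • (φ⁻¹ • u))
    (hβ : ∀ (j : ℕ) u, 2 ^ j • u = 0 →
      Tr (Bridge.betaPic (level_erase T hq) u) = (q + 1) • u)
    (hTr : TraceFollows (A := A) (k := k) T hχ hV hq hS Tr) :
    T.KernelRows hχ (nsmul_eq_zero_of_basis e) hS hV (Finset.notMem_erase q V)
      (Finset.insert_erase hq) σ₀ φ where
  red := rowRed T hχ e hV hq R
  surjective := rowRed_surjective T hχ e hV hq R
  eq_zero z hz := (rowRed_eq_zero_iff T hχ e hV hq R z).mp hz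
  swap z := by
    have hker : T.w A hV q (z : T.H V A) ∈ (monHom T hχ e hV σ₀).ker := by
      have h := z.2
      rw [AddMonoidHom.mem_ker] at h ⊢
      rw [monHom_apply, setupGal_w T hχ hV (nsmul_eq_zero_of_basis e) hq, ← map_sub]
      exact (congrArg _ h).trans (map_zero _)
    exact ⟨⟨_, hker⟩, rfl, rowRed_swap T hχ e hV hq R rfl⟩
  comm b hb z := by
    have hbV : b ∈ V := Finset.mem_of_mem_erase hb
    have hqb : q ≠ b := (Finset.ne_of_mem_erase hb).symm
    have : NeZero b := ⟨(T.prime b (hV hbV)).ne_zero⟩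
    have : NeZero (T.level (V.erase b)) := ⟨T.level_ne_zero ((V.erase_subset b).trans hV)⟩
    have : NeZero (T.level ((V.erase b).erase q)) :=
      ⟨T.level_ne_zero (((V.erase b).erase_subset q).trans ((V.erase_subset b).trans hV))⟩
    have hker : T.w A hV b (z : T.H V A) ∈ (monHom T hχ e hV σ₀).ker := by
      have h := z.2
      rw [AddMonoidHom.mem_ker] at h ⊢
      rw [monHom_apply, setupGal_w T hχ hV (nsmul_eq_zero_of_basis e) hbV, ← map_sub]
      exact (congrArg _ h).trans (map_zero _)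
    exact ⟨⟨_, hker⟩, rfl, rowRed_map_w T hχ e hV hq hbV hqb R z ⟨_, hker⟩ rfl⟩
  res y := by
    have hker : T.res A hV (V.erase_subset q) y ∈ (monHom T hχ e hV σ₀).ker :=
      monHom_res T hχ e hV hq R y
    refine ⟨⟨_, hker⟩, rfl, (rowRed_res T hχ e hV hq R y rfl).trans (Prod.ext rfl ?_)⟩
    show T.c q • vMap T hχ e _ φ y = _
    rw [T.verAt_apply, vMap_apply, ← Nat.cast_smul_eq_nsmul O, smul_smul]
  old b hb v := by
    have hbV : b ∈ V := Finset.mem_of_mem_erase hb
    have hqb : q ≠ b := (Finset.ne_of_mem_erase hb).symm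
    obtain ⟨z, x, hzx, hz⟩ := exists_old T hχ e hV hq R hbV hqb (Rb b hbV hqb)
      (Finset.erase_right_comm (s := V) (a := b) (b := q)) ((V.erase q).erase_subset b) v
    exact ⟨z, x, hzx, hz⟩
  tr_red z := by
    rw [T.frobAt_apply]
    exact rowRed_trace T hχ e hV hq R hσ hα hβ
      (T.tr A hS hV (Finset.notMem_erase q V) (Finset.insert_erase hq)).toAddMonoidHom hTr z

end Fermat.Agent.TwoAdic.Geometry

end
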