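import Fermat.Agent.TwoAdic.Geometry.KernelFill
import Fermat.Agent.TwoAdic.Geometry.NormIdentities
import Fermat.Agent.TwoAdic.Descend.CoeffBasis

/-!
# Existence of the rows of the descent kernel

The rows of the descent kernel exist at every prime of a setup other than two, given that the
trace follows the norm along the second degeneracy map.
-/

set_option autoImplicit false
set_option linter.unusedSectionVars false

noncomputable section

open AlgebraicCurve ModularCurve IsLocalRing

universe uκ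

namespace Fermat.Agent.TwoAdic.Geometry

open HeckeJ0 HeckeModule EigenSystems Bridge

attribute [local instance] ALSetup.isPrime

local notation "Qbar" => AlgebraicClosure ℚ

/-- The norm along `β` from level `N = M q`. -/
def normBetaAt {M q N : ℕ} [NeZero M] [NeZero q] [NeZero N] (h : M * q = N) :
    JZero N →+ JZero M :=
  (SemistableRed.normMap M q (heckeBetaBar Qbar M q)).comp (resPic (dvd_of_eq h.symm))

theorem normBetaAt_galois {M q N : ℕ} [NeZero M] [NeZero q] [NeZero N] (h : M * q = N)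
    (σ : Qbar ≃ₐ[ℚ] Qbar) (x : JZero N) : normBetaAt h (σ • x) = σ • normBetaAt h x := by
  rw [normBetaAt, AddMonoidHom.comp_apply, AddMonoidHom.comp_apply, resPic_galois]
  exact SemistableRed.normMap_equivariant M q _ (HeckeJ0.intertwines_heckeBetaBar M q) σ _

variable {O : Type} [CommRing O] [IsLocalRing O] (T : ALSetup O) (hχ : T.χ = 1) {A : Type}
  [AddCommGroup A] [Module O A] {k : ℕ} {q : ℕ} [Fact q.Prime] {V U : Finset ℕ} (hV : V ⊆ T.W)
  (hS : T.CoreInS) (hqU : q ∉ U) (hUV : insert q U = V)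
  [NeZero (T.level V)] [NeZero (T.level U)]
  {σ₀ φ : Qbar ≃ₐ[ℚ] Qbar} {P : ValuationSubring Qbar}

include hV hqU hUV in
theorem level_face : T.level U * q = T.level V := by
  rw [← hUV, T.level_insert hqU, mul_comm]

/-- The trace to the face follows the norm along `β` on torsion classes. -/
def TraceIsNorm [NeZero q] : Prop :=
  ∀ (ι : ZMod (2 ^ k) →+ A) x s,
    T.tr A hS hV hqU hUV (setupClass T hχ ι x s) =
      setupClass T hχ ι (torsRestrict (2 ^ k) (normBetaAt (level_face T hV hqU hUV)) x) s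

/-- **The rows of the descent kernel exist**, on coefficients free over `ZMod (2 ^ k)`. -/
theorem nonempty_kernelRows [NeZero q] {κ : Type uκ} [Fintype κ]
    (e : A ≃+ (κ → ZMod (2 ^ k))) (hq2 : q ≠ 2) (hA : ∀ a : A, 2 ^ k • a = 0)
    (hP : P.LiesOverPrime q) (hσ₀ : TameInertia.IsTameGenerator P 2 q σ₀)
    (hφ : P.IsFrobeniusAt φ q)
    (hTr : TraceIsNorm (A := A) (k := k) T hχ hV hS hqU hUV) :
    Nonempty (T.KernelRows hχ hA hS hV hqU hUV σ₀ φ) := by
  obtain rfl : U = V.erase q := by rw [← hUV, Finset.erase_insert hqU]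
  have hq : q ∈ V := hUV ▸ Finset.mem_insert_self q _
  have hqp : q.Prime := Fact.out
  have : Fact (Nat.Prime 2) := ⟨Nat.prime_two⟩
  have hna := T.not_dvd_level ((V.erase_subset q).trans hV) (hV hq) (Finset.notMem_erase q V)
  have hna2 : ¬ q ∣ T.level (V.erase q) * 2 := fun h => (hqp.dvd_mul.mp h).elim hna
    fun h2 => hq2 ((Nat.prime_dvd_prime_iff_eq hqp Nat.prime_two).mp h2)
  refine ⟨kernelRows T hχ e hV hq hS (setup_rowLaws T hV hq hq2.symm hP hσ₀ hφ)
    (fun b hb hqb => ?_) (normBetaAt (level_erase T hq)) (fun _ x _ => normBetaAt_galois _ σ₀ x)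
    (fun j u hu => ?_) (fun j u _ => ?_) hTr⟩
  · have : NeZero (T.level (V.erase b)) := ⟨T.level_ne_zero ((V.erase_subset b).trans hV)⟩
    have : NeZero (T.level ((V.erase b).erase q)) :=
      ⟨T.level_ne_zero (((V.erase b).erase_subset q).trans ((V.erase_subset b).trans hV))⟩
    exact setup_rowLaws T ((V.erase_subset b).trans hV) (Finset.mem_erase.mpr ⟨hqb, hq⟩) hq2.symm
      hP hσ₀ hφ
  · exact (normMap_inclPic hqp hna (level_erase T hq) u).trans
      (heckeOperatorBar_eq_frob (p := 2) hqp hna2 hP hφ hu)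
  · exact normMap_betaPic hqp hna (level_erase T hq) u

/-- **The rows of the descent kernel exist** modulo every power of two. -/
theorem nonempty_kernelRows_span {O : Type} [CommRing O] [IsDomain O] [IsDiscreteValuationRing O]
    [Finite (ResidueField O)] [CharZero O] (T : ALSetup O) (hχ : T.χ = 1) {q : ℕ}
    [Fact q.Prime] [NeZero q] {V U : Finset ℕ} (hV : V ⊆ T.W) (hS : T.CoreInS) (hqU : q ∉ U)
    (hUV : insert q U = V) [NeZero (T.level V)] [NeZero (T.level U)] (hq2 : q ≠ 2)
    {σ₀ φ : Qbar ≃ₐ[ℚ] Qbar} {P : ValuationSubring Qbar} (hP : P.LiesOverPrime q)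
    (hσ₀ : TameInertia.IsTameGenerator P 2 q σ₀) (hφ : P.IsFrobeniusAt φ q) (k : ℕ)
    (hA : ∀ a : O ⧸ Ideal.span {(2 : O) ^ k}, 2 ^ k • a = 0)
    (hTr : TraceIsNorm (A := O ⧸ Ideal.span {(2 : O) ^ k}) (k := k) T hχ hV hS hqU hUV) :
    Nonempty (T.KernelRows hχ hA hS hV hqU hUV σ₀ φ) := by
  obtain ⟨f, ⟨e⟩⟩ := Descend.exists_addEquiv_quotient_two_pow (O := O) k
  exact nonempty_kernelRows T hχ hV hS hqU hUV e hq2 hA hP hσ₀ hφ hTr

end Fermat.Agent.TwoAdic.Geometry

end
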