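import Fermat.Agent.TwoAdic.Geometry.Maps
import Fermat.Agent.ToricRows.Modular
import Fermat.Agent.MazurPrinciple.Torsion

/-!
# Reductions of the degeneracy pullbacks

The reductions of the two degeneracy pullbacks `α^* y`, `β^* y` of a class of order a power of `p`
from level `M` to level `M q`: `(ȳ, π^* ȳ)` and `(π^* ȳ, ȳ)`.
-/

set_option autoImplicit false
set_option linter.unusedSectionVars false

noncomputable section

open IsLocalRing AlgebraicCurve ModularCurve Fermat.Agent.FunctionFieldRR
  Fermat.Agent.Reduction Fermat.Agent.SemistableRed Fermat.Agent.MazurPrinciple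
  Fermat.Agent.ToricRows

namespace Fermat.Agent.TwoAdic.Geometry

local notation "Qbar" => AlgebraicClosure ℚ

variable {A : ValuationSubring Qbar} {M q : ℕ} [NeZero M] [NeZero q] [Fact q.Prime]
  [CharP (ResidueField A) q] [IsAlgClosed (ResidueField A)] (S : Setting A M q)

variable [IsFunctionField Qbar (modularFunctionFieldBar (M * q))]
  [IsFunctionField (ResidueField A) (modularFunctionFieldFullC (ResidueField A) M)]
  [HasPrincipalDivisors Qbar (modularFunctionFieldBar M)]
  [HasPrincipalDivisors (ResidueField A) (modularFunctionFieldFullC (ResidueField A) M)]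

/-- The pullback along `π` on the special fibre. -/
abbrev piPic : JZeroC (ResidueField A) M →+ JZeroC (ResidueField A) M :=
  pullPic (piG (ResidueField A) M q)

/-- The two sides of a pullback from level `M`: `P` is the side map (`α` or `β`), `v` its values. -/
theorem isRedClass_pullPic (φ : modularFunctionFieldBar M →ₐ[Qbar] modularFunctionFieldBar (M * q))
    (ψ : Fin 2 → (modularFunctionFieldFullC (ResidueField A) M →ₐ[ResidueField A]
      modularFunctionFieldFullC (ResidueField A) M))
    (hφ : ∀ x, S.model.IsInt x → ∀ i,
      SRep (S.side i (φ x)) (ψ i (S.model.red x) : LaurentSeries (ResidueField A)))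
    {p : ℕ} (m : ℕ) {y : JZero M} (hy : p ^ m • y = 0) :
    IsRedClass S.splitModel p (pullPic φ y)
      fun i => pullPic (ψ i) (reductionModL A M y) := by
  obtain ⟨D, u, rfl, hu, hD⟩ := SplitModel.exists_function y hy
  obtain ⟨c, hc, hci, hcr⟩ := S.model.exists_scale hu
  have : CharP (modularFunctionFieldFullC (ResidueField A) M) q :=
    charP_of_injective_algebraMap (algebraMap (ResidueField A) _).injective q
  obtain ⟨h, R, hR⟩ := exists_redMap_modL S
  have hord : ∀ P, ((p ^ m : ℕ) : ℤ) * (D : Divisor Qbar (modularFunctionFieldBar M)) P =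
      P.ord (c • u) := fun P => by
    rw [Algebra.smul_def, P.ord_mul ((map_ne_zero _).mpr hc) hu, ord_algebraMap, zero_add, hD]
  set E := reductionDegZeroAlong (placeReductionModL h)
    (isPlaceReductionModL_placeReductionModL h).1 D with hE
  have hbar : ∀ P, ((p ^ m : ℕ) : ℤ) *
      (E : Divisor (ResidueField A) (modularFunctionFieldFullC (ResidueField A) M)) P =
        P.ord (S.model.red (c • u)) := fun P => by
    rw [← dvs_apply, ← R.spec _ hci hcr, hE, coe_reductionDegZeroAlong, ← hR,
      show dvs (K := Qbar) (c • u) = ((p ^ m : ℕ) : ℤ) •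
        (D : Divisor Qbar (modularFunctionFieldBar M)) from (eq_dvs fun P => by
          rw [Finsupp.smul_apply, smul_eq_mul, hord]).symm,
      Finsupp.mapDomain_smul, Finsupp.smul_apply, smul_eq_mul]
  have hside : ∀ i, S.gauss.Int i (φ (c • u)) ∧
      S.gauss.red i (φ (c • u)) = ψ i (S.model.red (c • u)) := fun i => S.red_eq (hφ _ hci i)
  let d : Datum S.splitModel p m (pullPic φ (Pic0.mk D)) :=
    { D := pullDiv φ D
      u := φ (c • u)
      c := fun _ => 1
      mk_D := (pullPic_mk φ D).symm
      u_ne := (map_ne_zero φ).mpr fun h0 => hcr (by rw [h0, S.model.red_zero])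
      ord_u := fun P => (ord_pullDiv φ D hord P).symm
      int := fun i => by rw [one_smul]; exact (hside i).1
      red_ne := fun i => by
        rw [one_smul]
        show S.gauss.red i (φ (c • u)) ≠ 0
        rw [(hside i).2]
        exact (map_ne_zero (ψ i)).mpr hcr }
  refine ⟨m, d, fun i => pullDiv (ψ i) E, fun i P => ?_, fun i => ?_⟩
  · show P.ord (S.gauss.red i ((1 : Qbar) • φ (c • u))) = _
    rw [one_smul, (hside i).2]
    exact (ord_pullDiv (ψ i) E hbar P).symm
  · beta_reduce
    rw [reductionModL_mk h]
    exact pullPic_mk (ψ i) E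

/-- The reductions of `α^* y`. -/
theorem isRedClass_alpha {p : ℕ} (m : ℕ) {y : JZero M} (hy : p ^ m • y = 0) :
    IsRedClass S.splitModel p (pullPic (heckeAlphaBar Qbar M q) y)
      ![reductionModL A M y, piPic (A := A) (M := M) (q := q) (reductionModL A M y)] := by
  have h := isRedClass_pullPic S (heckeAlphaBar Qbar M q)
    ![AlgHom.id (ResidueField A) _, piG (ResidueField A) M q] (fun x hx i => by
      have := S.srep_alpha x hx i
      fin_cases i <;> exact this) m hy
  convert h using 1
  funext i
  fin_cases i
  · exact (pullPic_id _).symm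
  · rfl

/-- The reductions of `β^* y`. -/
theorem isRedClass_beta {p : ℕ} (m : ℕ) {y : JZero M} (hy : p ^ m • y = 0) :
    IsRedClass S.splitModel p (pullPic (heckeBetaBar Qbar M q) y)
      ![piPic (A := A) (M := M) (q := q) (reductionModL A M y), reductionModL A M y] := by
  have h := isRedClass_pullPic S (heckeBetaBar Qbar M q)
    ![piG (ResidueField A) M q, AlgHom.id (ResidueField A) _] (fun x hx i => by
      have := S.srep_beta x hx i
      fin_cases i <;> exact this) m hy
  convert h using 1
  funext i
  fin_cases i
  · rfl
  · exact (pullPic_id _).symm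

end Fermat.Agent.TwoAdic.Geometry

end
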