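import Fermat.Agent.TwoAdic.Geometry.RowTorsion
import Fermat.Agent.TwoAdic.Geometry.Bridge.Tuples
import Fermat.Agent.OrdinaryT.HeckeSide

/-!
# The rows on torsion points

The rows on `J₀(N)[p ^ k]` as maps of the split subgroup, and the identities between pullbacks at
two primes.
-/

set_option autoImplicit false
set_option linter.unusedSectionVars false

noncomputable section

open AlgebraicCurve ModularCurve

namespace Fermat.Agent.TwoAdic.Geometry

open HeckeJ0 HeckeModule EigenSystems Bridge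

local notation "Qbar" => AlgebraicClosure ℚ

section Degeneracy

variable {M M' N ℓ : ℕ} [NeZero M] [NeZero M'] [NeZero N] [NeZero ℓ]

/-- The embedding of function fields of `z ↦ ℓ z`. -/
def betaHom (h : M * ℓ = N) :
    ↥(modularFunctionFieldBar M) →ₐ[Qbar] ↥(modularFunctionFieldBar N) :=
  (inclBar (dvd_of_eq h)).comp (heckeBetaBar Qbar M ℓ)

theorem coe_betaHom (h : M * ℓ = N) (x : ↥(modularFunctionFieldBar M)) :
    (betaHom h x : LaurentSeries Qbar) = qExpand Qbar ℓ (x : LaurentSeries Qbar) := by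
  rw [betaHom, AlgHom.comp_apply, coe_inclBar, coe_heckeBetaBar]

theorem betaPic_eq (h : M * ℓ = N) (x : JZero M) : Bridge.betaPic h x = pullPic (betaHom h) x := by
  rw [betaHom, ← pullPic_comp]
  rfl

theorem resPic_betaPic {L : ℕ} [NeZero L] (h : M * ℓ = N) (h' : N ∣ L) (h₁ : M ∣ M')
    (h₂ : M' * ℓ = L) (x : JZero M) :
    resPic h' (Bridge.betaPic h x) = Bridge.betaPic h₂ (resPic h₁ x) := by
  rw [betaPic_eq, betaPic_eq, resPic, resPic, pullPic_comp, pullPic_comp]
  exact congrArg (fun φ => pullPic φ x) (AlgHom.ext fun y => Subtype.ext (by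
    simp only [AlgHom.comp_apply, coe_inclBar, coe_betaHom]))

theorem betaPic_betaPic {L a : ℕ} [NeZero L] [NeZero a] (h : M * ℓ = N) (h' : N * a = L)
    (h₁ : M * a = M') (h₂ : M' * ℓ = L) (x : JZero M) :
    Bridge.betaPic h' (Bridge.betaPic h x) = Bridge.betaPic h₂ (Bridge.betaPic h₁ x) := by
  rw [betaPic_eq, betaPic_eq, betaPic_eq, betaPic_eq, pullPic_comp, pullPic_comp]
  exact congrArg (fun φ => pullPic φ x) (AlgHom.ext fun y => Subtype.ext (by
    simp only [AlgHom.comp_apply, coe_betaHom]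
    exact OrdinaryT.qExpand_comm _ _ _))

theorem alAt_betaPic (hℓ : ℓ.Prime) (hℓM : ¬ ℓ ∣ M) (h : M * ℓ = N) (x : JZero M) :
    Bridge.alAt hℓ hℓM h (Bridge.betaPic h x) = resPic (Dvd.intro ℓ h) x := by
  subst h
  rw [alAt_rfl, betaPic_rfl, ← alPic_resPic hℓ hℓM, alPic_alPic]

end Degeneracy

section Hecke

variable {M q N : ℕ} [NeZero M] [NeZero q] [NeZero N]

/-- The Hecke operators away from `q` commute with both pullbacks on torsion. -/
theorem heckeOperatorBar_pairPull (h : M * q = N) (hq : q.Prime) (l : Nat.Primes)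
    (hlq : (l : ℕ) ≠ q) {n : ℕ} [NeZero n] {u : JZero M} (hu : n • u = 0) :
    heckeOperatorBar N l (resPic (Dvd.intro q h) u) =
        resPic (Dvd.intro q h) (heckeOperatorBar M l u) ∧
      heckeOperatorBar N l (Bridge.betaPic h u) =
        Bridge.betaPic h (heckeOperatorBar M l u) := by
  subst h
  have : Fact (l : ℕ).Prime := ⟨l.2⟩
  have : NeZero (l : ℕ) := ⟨l.2.ne_zero⟩
  have hmem : u ∈ Pic0.torsion Qbar (modularFunctionFieldBar M) n := by
    rw [Pic0.mem_torsion, natCast_zsmul]; exact hu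
  set x : Pic0.torsion Qbar (modularFunctionFieldBar M) n := ⟨u, hmem⟩
  set ι : ZMod n →+ ZMod n := AddMonoidHom.id _
  have hdiv : (l : ℕ) ∣ M * q → (l : ℕ) ∣ M := fun hd =>
    (l.2.dvd_mul.mp hd).resolve_right fun hd' =>
      hlq ((Nat.prime_dvd_prime_iff_eq l.2 hq).mp hd')
  have hinj : Function.Injective (torsClass (O := ℤ) (A := ZMod n)
      (levelChar_one_rep (one_dvd (M * q))) ι) := torsClass_injective _ ι fun a b => id
  constructor
  · have hd : q * M ∣ M * q := dvd_of_eq (mul_comm q M)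
    set y := torsRestrict n (resPic (dvd_mul_right M q)) x
    suffices e : heckeTors (M * q) n l y =
        torsRestrict n (resPic (dvd_mul_right M q)) (heckeTors M n l x) by
      have e' := congrArg (fun z : Pic0.torsion Qbar (modularFunctionFieldBar (M * q)) n =>
        (z : JZero (M * q))) e
      exact ((coe_heckeTors l y).symm.trans e').trans ((coe_torsRestrict _ _).trans
        (congrArg _ (coe_heckeTors l x)))
    refine hinj ?_
    rw [torsClass_heckeBar _ ι l y _ (coe_heckeTors l y),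
      torsClass_resPic_char ι x y (one_dvd M) (one_dvd (M * q)) hd (coe_torsRestrict _ _),
      torsClass_resPic_char ι (heckeTors M n l x) _ (one_dvd M) (one_dvd (M * q)) hd
        (coe_torsRestrict _ _),
      torsClass_heckeBar _ ι l x _ (coe_heckeTors l x)]
    exact (charDegen_heckeOp _ _ _ (NeZero.ne q) hd
      (fun hd' => hlq ((Nat.prime_dvd_prime_iff_eq l.2 hq).mp hd')) hdiv _).symm
  · have hd : 1 * M ∣ M * q := by rw [one_mul]; exact dvd_mul_right M q
    set y := torsRestrict n (Bridge.betaPic (ℓ := q) rfl) x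
    suffices e : heckeTors (M * q) n l y =
        torsRestrict n (Bridge.betaPic (ℓ := q) rfl) (heckeTors M n l x) by
      have e' := congrArg (fun z : Pic0.torsion Qbar (modularFunctionFieldBar (M * q)) n =>
        (z : JZero (M * q))) e
      exact ((coe_heckeTors l y).symm.trans e').trans ((coe_torsRestrict _ _).trans
        (congrArg _ (coe_heckeTors l x)))
    refine hinj ?_
    rw [torsClass_heckeBar _ ι l y _ (coe_heckeTors l y),
      torsClass_pullBeta_char ι x y (one_dvd M) (one_dvd (M * q)) hd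
        ((coe_torsRestrict _ _).trans (betaPic_rfl _)),
      torsClass_pullBeta_char ι (heckeTors M n l x) _ (one_dvd M) (one_dvd (M * q)) hd
        ((coe_torsRestrict _ _).trans (betaPic_rfl _)),
      torsClass_heckeBar _ ι l x _ (coe_heckeTors l x)]
    exact (charDegen_heckeOp _ _ _ one_ne_zero hd l.2.not_dvd_one hdiv _).symm

end Hecke

section TwoPrimes

/-- The involution at `b` commutes with the two pullbacks at `q` on torsion. -/
theorem alAt_pairPull_comm {M q N b M₀ N₀ : ℕ} [NeZero M] [NeZero q] [NeZero N] [NeZero b]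
    [NeZero M₀] [NeZero N₀] (h : M * q = N) (hb : M₀ * b = M) (hb' : N₀ * b = N)
    (hq : q.Prime) (hqM : ¬ q ∣ M) (hbp : b.Prime) (hbN₀ : ¬ b ∣ N₀) (hbM₀ : ¬ b ∣ M₀)
    (hW : IsALPrimes N {q, b}) (hWM : IsALPrimes M {b}) (hne : b ≠ q) {n : ℕ} [NeZero n]
    {u : JZero M} (hu : n • u = 0) :
    Bridge.alAt hbp hbN₀ hb' (resPic (Dvd.intro q h) u) =
        resPic (Dvd.intro q h) (Bridge.alAt hbp hbM₀ hb u) ∧
      Bridge.alAt hbp hbN₀ hb' (Bridge.betaPic h u) =
        Bridge.betaPic h (Bridge.alAt hbp hbM₀ hb u) := by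
  have hmem : u ∈ Pic0.torsion Qbar (modularFunctionFieldBar M) n := by
    rw [Pic0.mem_torsion, natCast_zsmul]; exact hu
  set x : Pic0.torsion Qbar (modularFunctionFieldBar M) n := ⟨u, hmem⟩
  set ι : ZMod n →+ ZMod n := AddMonoidHom.id _
  have hd : 1 * M ∣ N := by rw [one_mul]; exact Dvd.intro q h
  have hinj : Function.Injective (torsClass (O := ℤ) (A := ZMod n)
      (trivial_rep (one_dvd N) (χ := (1 : (ZMod 1)ˣ →* ℤ)) rfl) ι) :=
    torsClass_injective _ ι fun a b => id
  set yb := torsRestrict n (Bridge.betaPic h) x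
  set al := torsRestrict n (Bridge.alAt hbp hbN₀ hb')
  set alq := torsRestrict n (Bridge.alAt hq hqM h)
  set alM := torsRestrict n (Bridge.alAt hbp hbM₀ hb)
  have cal : ∀ z, torsClass (O := ℤ) (A := ZMod n)
      (trivial_rep (one_dvd N) (χ := (1 : (ZMod 1)ˣ →* ℤ)) rfl) ι (al z) =
      alOp (ZMod n) hW (by simp) (one_dvd N) 1 (Nat.coprime_one_right b) 1
        (torsClass (trivial_rep (one_dvd N) rfl) ι z) := fun z =>
    ((alOp_torsClass hbp hbN₀ hb' hW (by simp) (one_dvd N) rfl (Nat.coprime_one_right b) 1 ι z).trans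
      (one_smul ℤ _)).symm
  have caq : ∀ z, torsClass (O := ℤ) (A := ZMod n)
      (trivial_rep (one_dvd N) (χ := (1 : (ZMod 1)ˣ →* ℤ)) rfl) ι (alq z) =
      alOp (ZMod n) hW (by simp) (one_dvd N) 1 (Nat.coprime_one_right q) 1
        (torsClass (trivial_rep (one_dvd N) rfl) ι z) := fun z =>
    ((alOp_torsClass hq hqM h hW (by simp) (one_dvd N) rfl (Nat.coprime_one_right q) 1 ι z).trans
      (one_smul ℤ _)).symm
  have cb : ∀ z, torsClass (O := ℤ) (A := ZMod n)
      (trivial_rep (one_dvd N) (χ := (1 : (ZMod 1)ˣ →* ℤ)) rfl) ι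
        (torsRestrict n (Bridge.betaPic h) z) =
      charDegen (ZMod n) (one_dvd M) 1 (one_dvd N) one_ne_zero hd
        (torsClass (trivial_rep (one_dvd M) rfl) ι z) := fun z =>
    (charDegen_torsClass h (one_dvd M) (one_dvd N) rfl hd ι z).symm
  have e1 : al yb = torsRestrict n (Bridge.betaPic h) (alM x) := by
    refine hinj ?_
    rw [cal, cb, cb,
      alOp_charDegen_one (one_dvd M) 1 (one_dvd N) hWM hW (by simp) (by simp)
        (Nat.coprime_one_right b) 1 hd]
    refine congrArg _ ?_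
    exact (alOp_torsClass hbp hbM₀ hb hWM (by simp) (one_dvd M) rfl (Nat.coprime_one_right b) 1 ι
      x).trans (one_smul ℤ _)
  have e2 : al (alq yb) = alq (al yb) := by
    refine hinj ?_
    rw [cal, caq, caq, cal]
    exact alOp_comm hW (by simp) (one_dvd N) 1 _ _ (by simp) _ _ hne _
  have e1' : Bridge.alAt hbp hbN₀ hb' (Bridge.betaPic h u) =
      Bridge.betaPic h (Bridge.alAt hbp hbM₀ hb u) :=
    (coe_torsRestrict _ _).symm.trans ((congrArg Subtype.val e1).trans (coe_torsRestrict _ _))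
  refine ⟨?_, e1'⟩
  rw [← alAt_betaPic hq hqM h u, ← alAt_betaPic hq hqM h, ← e1']
  exact (coe_torsRestrict _ _).symm.trans ((congrArg Subtype.val e2).trans (coe_torsRestrict _ _))

end TwoPrimes

section Split

variable {M q N : ℕ} [NeZero M] [NeZero q] [NeZero N] {h : M * q = N} {p : ℕ}
  {σ₀ φ : Qbar ≃ₐ[ℚ] Qbar} (k : ℕ)

variable (h p σ₀ φ) in
/-- The split classes killed by `p ^ k`. -/
def splitTors : AddSubgroup (Pic0.torsion Qbar (modularFunctionFieldBar N) (p ^ k)) where
  carrier := {x | ∃ y, RowSplit h p σ₀ φ (x : JZero N) y}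
  zero_mem' := ⟨0, RowSplit.zero⟩
  add_mem' := fun ⟨_, hx⟩ ⟨_, hy⟩ => ⟨_, hx.add hy⟩
  neg_mem' := fun ⟨_, hx⟩ => ⟨_, hx.neg⟩

variable {k}

theorem RowLaws.mem_torsion (R : RowLaws h p σ₀ φ) {x : JZero N} {y : JZero M × JZero M}
    (hx : RowSplit h p σ₀ φ x y) (hxk : x ∈ Pic0.torsion Qbar (modularFunctionFieldBar N) (p ^ k)) :
    y.1 ∈ Pic0.torsion Qbar (modularFunctionFieldBar M) (p ^ k) ∧
      y.2 ∈ Pic0.torsion Qbar (modularFunctionFieldBar M) (p ^ k) := by
  rw [Pic0.mem_torsion, natCast_zsmul] at hxk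
  have h1 := hx.nsmul (p ^ k)
  rw [hxk] at h1
  have h2 := R.unique h1 RowSplit.zero
  constructor <;> rw [Pic0.mem_torsion, natCast_zsmul]
  · exact congrArg Prod.fst h2
  · exact congrArg Prod.snd h2

/-- The first reduction of a split class of level `p ^ k`. -/
def RowLaws.redFst (R : RowLaws h p σ₀ φ) :
    splitTors h p σ₀ φ k →+ Pic0.torsion Qbar (modularFunctionFieldBar M) (p ^ k) :=
  AddMonoidHom.mk' (fun x => ⟨x.2.choose.1, (R.mem_torsion x.2.choose_spec x.1.2).1⟩)
    fun x x' => Subtype.ext (congrArg Prod.fst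
      (R.unique (x + x').2.choose_spec (x.2.choose_spec.add x'.2.choose_spec)))

/-- The second reduction of a split class of level `p ^ k`. -/
def RowLaws.redSnd (R : RowLaws h p σ₀ φ) :
    splitTors h p σ₀ φ k →+ Pic0.torsion Qbar (modularFunctionFieldBar M) (p ^ k) :=
  AddMonoidHom.mk' (fun x => ⟨x.2.choose.2, (R.mem_torsion x.2.choose_spec x.1.2).2⟩)
    fun x x' => Subtype.ext (congrArg Prod.snd
      (R.unique (x + x').2.choose_spec (x.2.choose_spec.add x'.2.choose_spec)))

theorem RowLaws.red_eq (R : RowLaws h p σ₀ φ) (x : splitTors h p σ₀ φ k)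
    {y : JZero M × JZero M} (hy : RowSplit h p σ₀ φ (x.1 : JZero N) y) :
    (R.redFst x : JZero M) = y.1 ∧ (R.redSnd x : JZero M) = y.2 :=
  have e := R.unique x.2.choose_spec hy
  ⟨congrArg Prod.fst e, congrArg Prod.snd e⟩

theorem RowLaws.rowSplit (R : RowLaws h p σ₀ φ) (x : splitTors h p σ₀ φ k) :
    RowSplit h p σ₀ φ (x.1 : JZero N) ((R.redFst x : JZero M), (R.redSnd x : JZero M)) :=
  x.2.choose_spec

/-- The reductions commute with the Hecke operators away from `q`. -/
theorem RowLaws.subIntertwines (R : RowLaws h p σ₀ φ) (hp : p ≠ 0) (hq : q.Prime) {S : Set ℕ}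
    (hqS : q ∈ S) :
    SubIntertwines S (R.redFst (k := k)) ∧ SubIntertwines S (R.redSnd (k := k)) := by
  have key : ∀ l : Nat.Primes, (l : ℕ) ∉ S → ∀ x : splitTors h p σ₀ φ k,
      RowSplit h p σ₀ φ (heckeTors N (p ^ k) l x.1 : JZero N)
        (heckeOperatorBar M l (R.redFst x : JZero M),
          heckeOperatorBar M l (R.redSnd x : JZero M)) := fun l hl x => by
    have hlq : (l : ℕ) ≠ q := fun e => hl (e ▸ hqS)
    rw [coe_heckeTors]
    refine (R.rowSplit x).map (g := (heckeOperatorBar N l).toAddMonoidHom)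
      (g₀ := (heckeOperatorBar M l).toAddMonoidHom)
      (fun _ e _ => heckeGaloisEquivariant N σ₀ l e)
      (fun u => heckeGaloisEquivariant M φ⁻¹ l u) (fun j u hu => ?_) (fun j u hu => ?_)
    · have : NeZero (p ^ j) := ⟨pow_ne_zero _ hp⟩
      exact (heckeOperatorBar_pairPull h hq l hlq hu).1
    · have : NeZero (p ^ j) := ⟨pow_ne_zero _ hp⟩
      exact (heckeOperatorBar_pairPull h hq l hlq hu).2
  refine ⟨fun l hl x => ⟨⟨_, key l hl x⟩, Subtype.ext ?_⟩,
    fun l hl x => ⟨⟨_, key l hl x⟩, Subtype.ext ?_⟩⟩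
  · exact (R.red_eq ⟨_, _, key l hl x⟩ (key l hl x)).1.trans (coe_heckeTors l _).symm
  · exact (R.red_eq ⟨_, _, key l hl x⟩ (key l hl x)).2.trans (coe_heckeTors l _).symm

end Split

end Fermat.Agent.TwoAdic.Geometry

end
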