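import Fermat.Agent.TwoAdic.Geometry.RowPoints
import Fermat.Agent.TwoAdic.Geometry.Bridge.Frobenius

/-!
# The reductions on the modules of a setup

The reductions at a prime `a` on the invariants of the monodromy in the modules of a setup with
trivial character, for coefficients free over `ZMod (p ^ k)`.
-/

set_option autoImplicit false
set_option linter.unusedSectionVars false

noncomputable section

open AlgebraicCurve ModularCurve IsLocalRing

universe uκ

namespace Fermat.Agent.TwoAdic.Geometry

open HeckeJ0 HeckeModule EigenSystems Bridge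

attribute [local instance] ALSetup.isPrime

local notation "Qbar" => AlgebraicClosure ℚ

variable {O : Type} [CommRing O] [IsLocalRing O] (T : ALSetup O) (hχ : T.χ = 1) {A : Type}
  [AddCommGroup A] [Module O A] {p k : ℕ} [Fact p.Prime] {κ : Type uκ} [Fintype κ]
  (e : A ≃+ (κ → ZMod (p ^ k)))

instance neZero_prime_pow : NeZero (p ^ k) := ⟨pow_ne_zero _ (Fact.out : p.Prime).ne_zero⟩

/-- A localised class with given coordinates. -/
abbrev cls {V : Finset ℕ} [NeZero (T.level V)] (v : Fin (rk (T.level V)) → A)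
    (s : awayMonoid T.m) : T.H V A :=
  latLoc (trivial_rep (T.dvd_level V) hχ) v s

theorem cls_def {V : Finset ℕ} [NeZero (T.level V)] (v : Fin (rk (T.level V)) → A)
    (s : awayMonoid T.m) :
    cls T hχ v s = LocalizedModule.mk (latClass (trivial_rep (T.dvd_level V) hχ) v) s := rfl

theorem setupClass_eq {V : Finset ℕ} [NeZero (T.level V)] {n : ℕ} [NeZero n] (ι : ZMod n →+ A)
    (x : Pic0.torsion Qbar (modularFunctionFieldBar (T.level V)) n) (s : awayMonoid T.m) :
    setupClass T hχ ι x s =
      torsLoc (trivial_rep (T.dvd_level V) hχ) (awayMonoid T.m) ι x s := by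
  unfold setupClass
  rfl

theorem level_erase {V : Finset ℕ} {a : ℕ} (ha : a ∈ V) :
    T.level (V.erase a) * a = T.level V := by
  rw [mul_comm, ← T.level_insert (Finset.notMem_erase a V), Finset.insert_erase ha]

include e in
/-- Additive maps following `g` on torsion classes follow its coordinate map. -/
theorem map_cls {V V' : Finset ℕ} [NeZero (T.level V)] [NeZero (T.level V')]
    {g : Pic0.torsion Qbar (modularFunctionFieldBar (T.level V)) (p ^ k) →+
      Pic0.torsion Qbar (modularFunctionFieldBar (T.level V')) (p ^ k)}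
    {G : T.H V A →+ T.H V' A}
    (hG : ∀ ι x s, G (setupClass T hχ ι x s) = setupClass T hχ ι (g x) s)
    (v : Fin (rk (T.level V)) → A) (s : awayMonoid T.m) :
    G (cls T hχ v s) = cls T hχ (coordAct (O := O) g v) s :=
  map_latLoc e (trivial_rep (T.dvd_level V) hχ) (trivial_rep (T.dvd_level V') hχ)
    (fun ι x s => by rw [← setupClass_eq, ← setupClass_eq]; exact hG ι x s) v s

include e in
/-- Every element of the module of a setup is the class of a tuple. -/
theorem exists_cls {V : Finset ℕ} [NeZero (T.level V)] (hV : V ⊆ T.W) (z : T.H V A) :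
    ∃ v s, z = cls T hχ v s :=
  exists_latLoc (S := T.S) (n := p ^ k) (trivial_rep (T.dvd_level V) hχ)
    (torsSpanned T hV (nsmul_eq_zero_of_basis e)) z

section Maps

variable {V V' : Finset ℕ} [NeZero (T.level V)] [NeZero (T.level V')]

/-- The monodromy of `σ`. -/
def monHom (hV : V ⊆ T.W) (σ : Qbar ≃ₐ[ℚ] Qbar) : T.H V A →+ T.H V A :=
  (setupGal T hχ hV (nsmul_eq_zero_of_basis e) σ).toAddMonoidHom - AddMonoidHom.id _

theorem monHom_apply (hV : V ⊆ T.W) (σ : Qbar ≃ₐ[ℚ] Qbar) (z : T.H V A) :
    monHom T hχ e hV σ z = setupGal T hχ hV (nsmul_eq_zero_of_basis e) σ z - z := rfl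

include e in
theorem gal_cls (hV : V ⊆ T.W) (σ : Qbar ≃ₐ[ℚ] Qbar) (v : Fin (rk (T.level V)) → A)
    (s : awayMonoid T.m) :
    setupGal T hχ hV (nsmul_eq_zero_of_basis e) σ (cls T hχ v s) =
      cls T hχ (coordAct (O := O) (galTors (T.level V) (p ^ k) σ) v) s :=
  map_cls T hχ e (G := (setupGal T hχ hV (nsmul_eq_zero_of_basis e) σ).toAddMonoidHom)
    (fun ι x t => setupGal_setupClass T hχ hV (nsmul_eq_zero_of_basis e) σ ι x t) v s

theorem cls_sub (v w : Fin (rk (T.level V)) → A) (s : awayMonoid T.m) :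
    cls T hχ v s - cls T hχ w s = cls T hχ (v - w) s := by
  rw [sub_eq_iff_eq_add, cls_def, cls_def, cls_def, mk_add_mk_same, ← map_add, sub_add_cancel]

include e in
theorem monHom_cls (hV : V ⊆ T.W) (σ : Qbar ≃ₐ[ℚ] Qbar) (v : Fin (rk (T.level V)) → A)
    (s : awayMonoid T.m) :
    monHom T hχ e hV σ (cls T hχ v s) =
      cls T hχ (coordAct (O := O) (galTors (T.level V) (p ^ k) σ) v - v) s := by
  rw [monHom_apply, gal_cls T hχ e, cls_sub]

/-- The pullback along `z ↦ z` with the involution at `b`, without its scalar. -/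
def alMap (hV : V ⊆ T.W) (h : V' ⊆ V) (b : ℕ) : T.H V' A →+ T.H V A :=
  (T.c b • (T.w A hV b ∘ₗ T.res A hV h)).toAddMonoidHom

theorem alMap_apply (hV : V ⊆ T.W) (h : V' ⊆ V) (b : ℕ) (z : T.H V' A) :
    alMap T hV h b z = T.c b • T.w A hV b (T.res A hV h z) := rfl

include hχ in
theorem c_mul_c {b : ℕ} (hb : b ∈ T.W) : T.c b * T.c b = 1 := by
  rw [T.sq b hb (T.coprime_M hb), hχ, MonoidHom.one_apply]

include hχ in
theorem w_res_eq {b : ℕ} (hV : V ⊆ T.W) (h : V' ⊆ V) (hb : b ∈ V) (z : T.H V' A) :
    T.w A hV b (T.res A hV h z) = T.c b • alMap T hV h b z := by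
  rw [alMap_apply, smul_smul, c_mul_c T hχ (hV hb), one_smul]

include e in
theorem res_cls (hV : V ⊆ T.W) (h : V' ⊆ V) {ℓ : ℕ} [NeZero ℓ]
    (hℓ : T.level V' * ℓ = T.level V) (v : Fin (rk (T.level V')) → A) (s : awayMonoid T.m) :
    T.res A hV h (cls T hχ v s) =
      cls T hχ (coordAct (O := O) (torsRestrict (p ^ k) (Bridge.betaPic hℓ)) v) s :=
  map_cls T hχ e (G := (T.res A hV h).toAddMonoidHom)
    (fun ι x t => res_setupClass T hχ hV h hℓ ι x t) v s

include e in
theorem w_cls (hV : V ⊆ T.W) {b M₀ : ℕ} [NeZero b] [NeZero M₀] (hb : b ∈ V) (hbM : ¬ b ∣ M₀)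
    (hℓ : M₀ * b = T.level V) (v : Fin (rk (T.level V)) → A) (s : awayMonoid T.m) :
    T.c b • T.w A hV b (cls T hχ v s) =
      cls T hχ (coordAct (O := O)
        (torsRestrict (p ^ k) (Bridge.alAt (T.prime b (hV hb)) hbM hℓ)) v) s :=
  map_cls T hχ e (G := (T.c b • T.w A hV b).toAddMonoidHom) (fun ι x t => by
    show T.c b • T.w A hV b (setupClass T hχ ι x t) = _
    rw [w_setupClass T hχ hV hb hbM hℓ, smul_smul, c_mul_c T hχ (hV hb), one_smul]) v s

end Maps

section Row

variable {V : Finset ℕ} (hV : V ⊆ T.W) {a : ℕ} (ha : a ∈ V) [NeZero a] [NeZero (T.level V)]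
  [NeZero (T.level (V.erase a))] {σ₀ φ : Qbar ≃ₐ[ℚ] Qbar}
  (R : RowLaws (level_erase T ha) p σ₀ φ)

/-- The coordinates of split classes. -/
abbrev splitCoords : Submodule O (Fin (rk (T.level V)) → A) :=
  subLift (O := O) e (splitTors (level_erase T ha) p σ₀ φ k)

variable {e}

include hV in
/-- The two reductions commute with the Hecke operators away from `S`. -/
theorem intertwines :
    SubIntertwines T.S (R.redFst (k := k)) ∧ SubIntertwines T.S (R.redSnd (k := k)) :=
  R.subIntertwines (Fact.out : p.Prime).ne_zero (T.prime a (hV ha)) (T.mem_S a (hV ha))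

variable (e)

/-- The classes spanned by split torsion points. -/
def splitPart : AddSubgroup (T.H V A) :=
  locPart e (trivial_rep (T.dvd_level V) hχ) (trivial_rep (T.dvd_level (V.erase a)) hχ)
    (isAway_awayMonoid T.m) (intertwines T hV ha R).1

/-- The first reduction. -/
def fstMap : splitPart T hχ e hV ha R →+ T.H (V.erase a) A :=
  locPartMap e _ _ _ (intertwines T hV ha R).1

/-- The second reduction. -/
def sndMap : splitPart T hχ e hV ha R →+ T.H (V.erase a) A :=
  (locPartMap e (trivial_rep (T.dvd_level V) hχ) (trivial_rep (T.dvd_level (V.erase a)) hχ)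
    (isAway_awayMonoid T.m) (intertwines T hV ha R).2).comp (AddSubgroup.inclusion fun _ hz => hz)

theorem fstMap_eq {z : splitPart T hχ e hV ha R} {v : splitCoords T e ha (σ₀ := σ₀) (φ := φ)}
    {s : awayMonoid T.m} (hz : (z : T.H V A) = cls T hχ v.1 s) :
    fstMap T hχ e hV ha R z = cls T hχ (liftHom e R.redFst v) s :=
  locPartMap_apply e _ _ _ _ v s z hz

theorem sndMap_eq {z : splitPart T hχ e hV ha R} {v : splitCoords T e ha (σ₀ := σ₀) (φ := φ)}
    {s : awayMonoid T.m} (hz : (z : T.H V A) = cls T hχ v.1 s) :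
    sndMap T hχ e hV ha R z = cls T hχ (liftHom e R.redSnd v) s :=
  locPartMap_apply e _ _ _ _ v s _ hz

/-- Classes of split tuples lie in the split part. -/
theorem cls_mem_splitPart (v : splitCoords T e ha (σ₀ := σ₀) (φ := φ)) (s : awayMonoid T.m) :
    cls T hχ v.1 s ∈ splitPart T hχ e hV ha R :=
  latLoc_mem_locPart e _ _ _ _ v s

include hV in
/-- The Eisenstein prime of the setup at the level of `V`. -/
theorem exists_eisenPrime : ∃ (r : Nat.Primes), ¬ (r : ℕ) ∣ T.level V ∧
    (haveI : Fact (r : ℕ).Prime := ⟨r.2⟩; eisen O (r : ℕ)) ∈ awayMonoid T.m := by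
  obtain ⟨r, hr, hS, h1, hm⟩ := T.eisenstein
  have : Fact r.Prime := ⟨hr⟩
  refine ⟨⟨r, hr⟩, fun hd => ?_, eisen_mem_awayMonoid hS hm⟩
  have h2 := congrArg (ZMod.castHom (dvd_trans hd (T.level_dvd hV)) (ZMod r)) h1
  rw [map_natCast, map_one, ZMod.natCast_self] at h2
  exact zero_ne_one h2

/-- The Eisenstein operator on torsion. -/
def eisTors (N : ℕ) [NeZero N] (r : Nat.Primes) (n : ℕ) :
    Pic0.torsion Qbar (modularFunctionFieldBar N) n →+
      Pic0.torsion Qbar (modularFunctionFieldBar N) n :=
  torsRestrict n (eisPic N r)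

include e in
theorem eisen_latClass {W' : Finset ℕ} [NeZero (T.level W')] (r : Nat.Primes)
    [Fact (r : ℕ).Prime] (v : Fin (rk (T.level W')) → A) :
    eisen O (r : ℕ) • latClass (trivial_rep (T.dvd_level W') hχ) v =
      latClass (trivial_rep (T.dvd_level W') hχ)
        (coordAct (O := O) (eisTors (T.level W') r (p ^ k)) v) := by
  have : NeZero (r : ℕ) := ⟨r.2.ne_zero⟩
  rw [eisen_smul, show heckeOp _ (r : ℕ) (latClass (trivial_rep (T.dvd_level W') hχ) v) = _ from
    heckeGen_latClass (n := p ^ k) e (trivial_rep (T.dvd_level W') hχ) r v, ← map_smul, ← map_sub]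
  refine congrArg _ ?_
  apply (pointTuple (N := T.level W') e).injective
  funext j
  rw [map_sub, Pi.sub_apply, pointTuple_coordAct, pointTuple_coordAct,
    show ((r : ℕ) : O) + 1 = (((r : ℕ) + 1 : ℕ) : O) by push_cast; rfl, Nat.cast_smul_eq_nsmul,
    map_nsmul, Pi.smul_apply]
  refine Subtype.ext ?_
  rw [eisTors, coe_torsRestrict, AddSubgroupClass.coe_sub, coe_heckeTors,
    AddSubmonoidClass.coe_nsmul, eisPic_apply]

include e in
theorem cls_eq_eisen {W' : Finset ℕ} [NeZero (T.level W')] {r : Nat.Primes}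
    (hr : (haveI : Fact (r : ℕ).Prime := ⟨r.2⟩; eisen O (r : ℕ)) ∈ awayMonoid T.m)
    (v : Fin (rk (T.level W')) → A) (s : awayMonoid T.m) :
    cls T hχ v s =
      cls T hχ (coordAct (O := O) (eisTors (T.level W') r (p ^ k)) v) (⟨_, hr⟩ * s) := by
  have : Fact (r : ℕ).Prime := ⟨r.2⟩
  rw [cls_def, cls_def, ← eisen_latClass T hχ e r v,
    ← LocalizedModule.mk_cancel_common_left (⟨_, hr⟩ : awayMonoid T.m) s, Submonoid.smul_def]

include e hV in
/-- A class killed by an element of the monoid has coordinates killed after one step. -/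
theorem exists_coordAct_eq_zero {g : Pic0.torsion Qbar (modularFunctionFieldBar (T.level V))
      (p ^ k) →+ Pic0.torsion Qbar (modularFunctionFieldBar (T.level V)) (p ^ k)}
    (hg : TorsIntertwines T.S g) {v : Fin (rk (T.level V)) → A} {s : awayMonoid T.m}
    (h0 : cls T hχ (coordAct (O := O) g v) s = 0) :
    ∃ (w : Fin (rk (T.level V)) → A) (t : awayMonoid T.m),
      coordAct (O := O) g w = 0 ∧ cls T hχ v s = cls T hχ w t := by
  rw [cls_def, ← LocalizedModule.zero_mk s, LocalizedModule.mk_eq] at h0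
  obtain ⟨t, ht⟩ := h0
  simp only [smul_zero, Submonoid.smul_def, ← mul_smul] at ht
  set f := g.comp (⊤ : AddSubgroup (Pic0.torsion Qbar (modularFunctionFieldBar (T.level V))
    (p ^ k))).subtype
  have hf : SubIntertwines T.S f := fun l hl x => ⟨AddSubgroup.mem_top _, hg l hl x.1⟩
  obtain ⟨w, h1, h2⟩ := exists_mem_subLift e (trivial_rep (T.dvd_level V) hχ)
    (trivial_rep (T.dvd_level V) hχ) (isAway_awayMonoid T.m) hf (t * s) ⟨v, fun _ => AddSubgroup.mem_top _⟩
  have hlift : ∀ u, liftHom (O := O) e f u = coordAct (O := O) g u.1 := fun u => by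
    apply (pointTuple (N := T.level V) e).injective
    funext j
    rw [pointTuple_liftHom, pointTuple_coordAct (O := O)]
    exact congrArg (fun y => g y) (coe_subPoint e u j)
  rw [hlift, hlift, Submonoid.coe_mul, ht] at h2
  refine ⟨w.1, t * s * s, latClass_injective _ (h2.trans (map_zero _).symm), ?_⟩
  rw [cls_def, cls_def, h1, ← LocalizedModule.mk_cancel_common_left (t * s) s, Submonoid.smul_def]

theorem torsIntertwines_mon (N : ℕ) [NeZero N] (n : ℕ) (S : Set ℕ) (σ : Qbar ≃ₐ[ℚ] Qbar) :
    TorsIntertwines S (galTors N n σ - AddMonoidHom.id _) := fun l hl x => by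
  rw [AddMonoidHom.sub_apply, AddMonoidHom.sub_apply, AddMonoidHom.id_apply,
    AddMonoidHom.id_apply, map_sub, torsIntertwines_galTors S σ l hl x]

include e in
theorem coordAct_sub_id {N : ℕ} [NeZero N]
    (g : Pic0.torsion Qbar (modularFunctionFieldBar N) (p ^ k) →+
      Pic0.torsion Qbar (modularFunctionFieldBar N) (p ^ k)) (v : Fin (rk N) → A) :
    coordAct (O := O) (g - AddMonoidHom.id _) v = coordAct (O := O) g v - v := by
  apply (pointTuple (N := N) e).injective
  funext j
  rw [map_sub, Pi.sub_apply, pointTuple_coordAct, pointTuple_coordAct]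
  rfl

include R in
/-- Invariant classes are spanned by split points. -/
theorem ker_le_splitPart : (monHom T hχ e hV σ₀).ker ≤ splitPart T hχ e hV ha R := by
  intro z hz
  obtain ⟨v, s, rfl⟩ := exists_cls T hχ e hV z
  rw [AddMonoidHom.mem_ker, monHom_cls, ← coordAct_sub_id e] at hz
  obtain ⟨w, t, hw, heq⟩ := exists_coordAct_eq_zero T hχ e hV
    (torsIntertwines_mon _ _ _ σ₀) hz
  obtain ⟨r, hr, hrm⟩ := exists_eisenPrime T hV
  have hmem : coordAct (O := O) (eisTors (T.level V) r (p ^ k)) w ∈
      splitCoords T e ha (σ₀ := σ₀) (φ := φ) := by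
    refine (mem_subLift e).mpr fun j => ?_
    rw [pointTuple_coordAct]
    have hfix := congrFun (congrArg (pointTuple (N := T.level V) e) hw) j
    rw [pointTuple_coordAct, map_zero, Pi.zero_apply, AddMonoidHom.sub_apply,
      AddMonoidHom.id_apply, sub_eq_zero] at hfix
    set P := pointTuple (N := T.level V) e w j
    show ∃ y, RowSplit _ p σ₀ φ (eisTors (T.level V) r (p ^ k) P : JZero (T.level V)) y
    rw [eisTors, coe_torsRestrict]
    exact R.split r hr (j := k)
      ((natCast_zsmul _ _).symm.trans (Pic0.mem_torsion.mp P.2))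
      ((coe_galTors σ₀ _).symm.trans (congrArg Subtype.val hfix))
  rw [heq, cls_eq_eisen T hχ e hrm w t]
  exact cls_mem_splitPart T hχ e hV ha R ⟨_, hmem⟩ _

/-- **The reductions at `a`**: the two components in the order of the pairs `res x + w res y`. -/
def rowRed : (monHom T hχ e hV σ₀).ker →+ T.H (V.erase a) A × T.H (V.erase a) A :=
  ((sndMap T hχ e hV ha R).prod
    ((T.c a • (LinearMap.id : T.H (V.erase a) A →ₗ[O] _)).toAddMonoidHom.comp
      (fstMap T hχ e hV ha R))).comp
    (AddSubgroup.inclusion (ker_le_splitPart T hχ e hV ha R))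

/-- The reductions of the class of a split tuple. -/
theorem rowRed_eq {z : (monHom T hχ e hV σ₀).ker} {v : splitCoords T e ha (σ₀ := σ₀) (φ := φ)}
    {s : awayMonoid T.m} (hz : (z : T.H V A) = cls T hχ v.1 s) :
    rowRed T hχ e hV ha R z =
      (cls T hχ (liftHom e R.redSnd v) s, T.c a • cls T hχ (liftHom e R.redFst v) s) := by
  show (sndMap T hχ e hV ha R _, T.c a • fstMap T hχ e hV ha R _) = _
  rw [sndMap_eq T hχ e hV ha R (z := AddSubgroup.inclusion (ker_le_splitPart T hχ e hV ha R) z) hz,
    fstMap_eq T hχ e hV ha R (z := AddSubgroup.inclusion (ker_le_splitPart T hχ e hV ha R) z) hz]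

include ha R in
/-- The monodromy has square zero. -/
theorem monHom_monHom (z : T.H V A) : monHom T hχ e hV σ₀ (monHom T hχ e hV σ₀ z) = 0 := by
  obtain ⟨v, s, rfl⟩ := exists_cls T hχ e hV z
  rw [monHom_cls, monHom_cls, cls_def, ← LocalizedModule.zero_mk s]
  refine congrArg (LocalizedModule.mk · s) ?_
  rw [← map_zero (latClass (trivial_rep (T.dvd_level V) hχ) (A := A) (O := O))]
  refine congrArg _ ?_
  apply (pointTuple (N := T.level V) e).injective
  funext j
  rw [map_sub, map_zero, Pi.sub_apply, pointTuple_coordAct, map_sub, Pi.sub_apply,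
    pointTuple_coordAct, Pi.zero_apply, sub_eq_zero]
  refine Subtype.ext ?_
  rw [coe_galTors, AddSubgroupClass.coe_sub, coe_galTors]
  exact R.smul_mon (k := k) ((natCast_zsmul _ _).symm.trans (Pic0.mem_torsion.mp (pointTuple e v j).2))

include ha R in
/-- The lower level is fixed. -/
theorem monHom_eq_zero (hV' : V.erase a ⊆ T.W) (z : T.H (V.erase a) A) :
    monHom T hχ e hV' σ₀ z = 0 := by
  obtain ⟨v, s, rfl⟩ := exists_cls T hχ e hV' z
  rw [monHom_cls, cls_def, ← LocalizedModule.zero_mk s]
  refine congrArg (LocalizedModule.mk · s) ?_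
  rw [← map_zero (latClass (trivial_rep (T.dvd_level (V.erase a)) hχ) (A := A) (O := O))]
  refine congrArg _ ?_
  apply (pointTuple (N := T.level (V.erase a)) e).injective
  funext j
  rw [map_sub, map_zero, Pi.sub_apply, pointTuple_coordAct, Pi.zero_apply, sub_eq_zero]
  refine Subtype.ext ?_
  rw [coe_galTors]
  exact R.level_fixed (k := k)
    ((natCast_zsmul _ _).symm.trans (Pic0.mem_torsion.mp (pointTuple e v j).2))

include ha R in
/-- The monodromy kills what comes from the level without `a`. -/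
theorem monHom_res (x : T.H (V.erase a) A) :
    monHom T hχ e hV σ₀ (T.res A hV (V.erase_subset a) x) = 0 := by
  rw [monHom_apply, ← setupGal_res T hχ hV (nsmul_eq_zero_of_basis e) (V.erase_subset a),
    ← map_sub, ← monHom_apply T hχ e, monHom_eq_zero T hχ e ha R, map_zero]

include ha R in
theorem monHom_alMap (x : T.H (V.erase a) A) :
    monHom T hχ e hV σ₀ (alMap T hV (V.erase_subset a) a x) = 0 := by
  rw [monHom_apply, alMap_apply, map_smul, setupGal_w T hχ hV (nsmul_eq_zero_of_basis e) ha,
    ← setupGal_res T hχ hV (nsmul_eq_zero_of_basis e) (V.erase_subset a), ← smul_sub, ← map_sub,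
    ← map_sub, ← monHom_apply T hχ e, monHom_eq_zero T hχ e ha R, map_zero, map_zero, smul_zero]

/-- The twisted Frobenius at `a` on the lower level. -/
def vMap (hV' : V.erase a ⊆ T.W) (φ' : Qbar ≃ₐ[ℚ] Qbar) :
    T.H (V.erase a) A →+ T.H (V.erase a) A :=
  a • (setupGal T hχ hV' (nsmul_eq_zero_of_basis e) φ'⁻¹).toAddMonoidHom

theorem vMap_apply (hV' : V.erase a ⊆ T.W) (x : T.H (V.erase a) A) :
    vMap T hχ e hV' φ x = a • setupGal T hχ hV' (nsmul_eq_zero_of_basis e) φ⁻¹ x := rfl

theorem nsmul_cls {W' : Finset ℕ} [NeZero (T.level W')] (j : ℕ)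
    (v : Fin (rk (T.level W')) → A) (s : awayMonoid T.m) :
    j • cls T hχ v s = cls T hχ (j • v) s := by
  induction j with
  | zero => rw [zero_smul, zero_smul, cls_def, map_zero, LocalizedModule.zero_mk]
  | succ j ih => rw [succ_nsmul, succ_nsmul, ih, cls_def, cls_def, cls_def, mk_add_mk_same, map_add]

/-- The reductions of a pullback along `z ↦ z`. -/
theorem rowRed_res (x : T.H (V.erase a) A) {z : (monHom T hχ e hV σ₀).ker}
    (hz : (z : T.H V A) = T.res A hV (V.erase_subset a) x) :
    rowRed T hχ e hV ha R z =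
      (x, T.c a • vMap T hχ e ((V.erase_subset a).trans hV) φ x) := by
  obtain ⟨v, s, rfl⟩ := exists_cls T hχ e ((V.erase_subset a).trans hV) x
  rw [res_cls T hχ e hV _ (level_erase T ha)] at hz
  set g := torsRestrict (p ^ k) (Bridge.betaPic (level_erase T ha))
  have hpt : ∀ j, RowSplit (level_erase T ha) p σ₀ φ
      ((pointTuple e (coordAct (O := O) g v) j) : JZero (T.level V))
      (vPic _ a φ (pointTuple e v j : JZero _), (pointTuple e v j : JZero _)) := fun j => by
    rw [pointTuple_coordAct, coe_torsRestrict]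
    have hk : p ^ k • (pointTuple e v j : JZero (T.level (V.erase a))) = 0 :=
      (natCast_zsmul _ _).symm.trans (Pic0.mem_torsion.mp (pointTuple e v j).2)
    have h := RowSplit.pull (h := level_erase T ha) (σ₀ := σ₀) (φ := φ)
      (u := ((0 : JZero (T.level (V.erase a))), (pointTuple e v j : JZero _))) (k := k)
      (Prod.ext (smul_zero _) hk)
    rw [pairPull_apply, map_zero, zero_add, mixPic_apply, map_zero, zero_add, zero_add] at h
    exact h
  rw [rowRed_eq T hχ e hV ha R (v := ⟨_, fun j => ⟨_, hpt j⟩⟩) hz]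
  refine Prod.ext ?_ (congrArg (T.c a • ·) ?_)
  · refine congrArg (cls T hχ · s) ?_
    apply (pointTuple (N := T.level (V.erase a)) e).injective
    funext j
    rw [pointTuple_liftHom]
    exact Subtype.ext (R.red_eq _ (y := (_, _)) (by rw [coe_subPoint]; exact hpt j)).2
  · rw [vMap_apply, gal_cls T hχ e, nsmul_cls]
    refine congrArg (cls T hχ · s) ?_
    apply (pointTuple (N := T.level (V.erase a)) e).injective
    funext j
    rw [pointTuple_liftHom, map_nsmul, Pi.smul_apply, pointTuple_coordAct]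
    refine Subtype.ext ?_
    rw [(R.red_eq _ (y := (_, _)) (by rw [coe_subPoint]; exact hpt j)).1,
      AddSubmonoidClass.coe_nsmul, coe_galTors]
    rfl

/-- Classes with prescribed reductions. -/
theorem exists_ker_of_points {v : Fin (rk (T.level (V.erase a))) → A} (s : awayMonoid T.m)
    (i : JZero (T.level (V.erase a)) →+ JZero (T.level (V.erase a)) × JZero (T.level (V.erase a))) :
    ∃ (w : splitCoords T e ha (σ₀ := σ₀) (φ := φ)) (z : (monHom T hχ e hV σ₀).ker),
      (z : T.H V A) = cls T hχ w.1 s ∧ ∀ j,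
        ((R.redFst (subPoint e w j) : JZero _), (R.redSnd (subPoint e w j) : JZero _)) =
          i (pointTuple e v j : JZero _) := by
  have hk : ∀ j, p ^ k • i (pointTuple e v j : JZero (T.level (V.erase a))) = 0 := fun j => by
    rw [← map_nsmul, (natCast_zsmul _ _).symm.trans (Pic0.mem_torsion.mp (pointTuple e v j).2),
      map_zero]
  choose x hx hxy using fun j => R.onto (hk j)
  have hmem : ∀ j, x j ∈ Pic0.torsion Qbar (modularFunctionFieldBar (T.level V)) (p ^ k) :=
    fun j => Pic0.mem_torsion.mpr ((natCast_zsmul _ _).trans (hx j))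
  set w := (pointTuple (N := T.level V) e).symm fun j => ⟨x j, hmem j⟩
  have hw : ∀ j, ((pointTuple e w j) : JZero (T.level V)) = x j := fun j => by
    rw [pointTuple_symm_apply]
  have hsplit : ∀ j, RowSplit (level_erase T ha) p σ₀ φ (pointTuple e w j : JZero (T.level V))
      (i (pointTuple e v j : JZero _)) := fun j => by rw [hw]; exact hxy j
  have hz : cls T hχ w s ∈ (monHom T hχ e hV σ₀).ker := by
    rw [AddMonoidHom.mem_ker, monHom_cls, cls_def, ← LocalizedModule.zero_mk s]
    refine congrArg (LocalizedModule.mk · s) ?_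
    rw [← map_zero (latClass (trivial_rep (T.dvd_level V) hχ) (A := A) (O := O))]
    refine congrArg _ ?_
    apply (pointTuple (N := T.level V) e).injective
    funext j
    rw [map_sub, map_zero, Pi.sub_apply, pointTuple_coordAct, Pi.zero_apply, sub_eq_zero]
    refine Subtype.ext ?_
    rw [coe_galTors, hw]
    exact R.fixed (hxy j)
  refine ⟨⟨w, fun j => ⟨_, hsplit j⟩⟩, ⟨_, hz⟩, rfl, fun j => ?_⟩
  have h := R.red_eq (subPoint e (⟨w, fun j => ⟨_, hsplit j⟩⟩ : splitCoords T e ha) j)
    (by rw [coe_subPoint]; exact hsplit j)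
  rw [h.1, h.2]

/-- **The reductions are onto.** -/
theorem rowRed_surjective : Function.Surjective (rowRed T hχ e hV ha R) := by
  intro y
  obtain ⟨v, s, hv⟩ := exists_cls T hχ e ((V.erase_subset a).trans hV) y.1
  obtain ⟨v', s', hv'⟩ := exists_cls T hχ e ((V.erase_subset a).trans hV) (T.c a • y.2)
  obtain ⟨w, z, hz, hw⟩ := exists_ker_of_points T hχ e hV ha R (v := v) s
    (AddMonoidHom.inr _ _)
  obtain ⟨w', z', hz', hw'⟩ := exists_ker_of_points T hχ e hV ha R (v := v') s'
    (AddMonoidHom.inl _ _)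
  refine ⟨z + z', ?_⟩
  rw [map_add, rowRed_eq T hχ e hV ha R hz, rowRed_eq T hχ e hV ha R hz']
  have h0 : ∀ (u : awayMonoid T.m), cls T hχ (0 : Fin (rk (T.level (V.erase a))) → A) u = 0 :=
    fun u => by rw [cls_def, map_zero, LocalizedModule.zero_mk]
  have e1 : liftHom e R.redSnd w = v := by
    apply (pointTuple (N := T.level (V.erase a)) e).injective; funext j
    rw [pointTuple_liftHom]
    exact Subtype.ext (congrArg Prod.snd (hw j))
  have e2 : liftHom e R.redFst w = 0 := by
    apply (pointTuple (N := T.level (V.erase a)) e).injective; funext j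
    rw [pointTuple_liftHom, map_zero]
    exact Subtype.ext (congrArg Prod.fst (hw j))
  have e1' : liftHom e R.redSnd w' = 0 := by
    apply (pointTuple (N := T.level (V.erase a)) e).injective; funext j
    rw [pointTuple_liftHom, map_zero]
    exact Subtype.ext (congrArg Prod.snd (hw' j))
  have e2' : liftHom e R.redFst w' = v' := by
    apply (pointTuple (N := T.level (V.erase a)) e).injective; funext j
    rw [pointTuple_liftHom]
    exact Subtype.ext (congrArg Prod.fst (hw' j))
  rw [e1, e2, e1', e2', h0, h0, ← hv, ← hv', smul_zero, smul_smul,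
    c_mul_c T hχ (hV ha), one_smul]
  exact Prod.ext (add_zero _) (zero_add _)

/-- **The kernel of the reductions is the image of the monodromy.** -/
theorem rowRed_eq_zero_iff (z : (monHom T hχ e hV σ₀).ker) :
    rowRed T hχ e hV ha R z = 0 ↔ ∃ x, monHom T hχ e hV σ₀ x = z := by
  constructor
  · intro h0
    obtain ⟨v, s, hz⟩ := ker_le_splitPart T hχ e hV ha R z.2
    rw [rowRed_eq T hχ e hV ha R hz] at h0
    have h1 := congrArg Prod.fst h0
    have h2 := congrArg (fun y => T.c a • y) (congrArg Prod.snd h0)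
    simp only [smul_smul, c_mul_c T hχ (hV ha), one_smul, Prod.snd_zero, smul_zero] at h2
    simp only [Prod.fst_zero] at h1
    rw [cls_def, ← LocalizedModule.zero_mk s, LocalizedModule.mk_eq] at h1 h2
    obtain ⟨t₁, ht₁⟩ := h1
    obtain ⟨t₂, ht₂⟩ := h2
    simp only [smul_zero, Submonoid.smul_def, ← mul_smul] at ht₁ ht₂
    obtain ⟨hI1, hI2⟩ := intertwines T (p := p) (k := k) hV ha R
    obtain ⟨w, w1, w2⟩ := exists_mem_subLift e (trivial_rep (T.dvd_level V) hχ)
      (trivial_rep (T.dvd_level (V.erase a)) hχ) (isAway_awayMonoid T.m) hI1 (t₁ * t₂ * s) v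
    obtain ⟨w', w1', w2'⟩ := exists_mem_subLift e (trivial_rep (T.dvd_level V) hχ)
      (trivial_rep (T.dvd_level (V.erase a)) hχ) (isAway_awayMonoid T.m) hI2 (t₁ * t₂ * s) v
    obtain rfl : w = w' := Subtype.ext (latClass_injective _ (w1.trans w1'.symm))
    have z1 : liftHom e R.redFst w = 0 := latClass_injective _ (by
      rw [w2, map_zero, Submonoid.coe_mul, Submonoid.coe_mul, mul_assoc, mul_smul,
        ← mul_smul, ← mul_assoc, mul_assoc, mul_smul, ht₂, smul_zero])
    have z2 : liftHom e R.redSnd w = 0 := latClass_injective _ (by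
      rw [w2', map_zero, Submonoid.coe_mul, Submonoid.coe_mul, mul_comm ((t₁ : HeckePoly O)),
        mul_assoc, mul_smul, ht₁, smul_zero])
    have hpt : ∀ j, RowSplit (level_erase T ha) p σ₀ φ
        (pointTuple e w.1 j : JZero (T.level V)) 0 := fun j => by
      have h := R.rowSplit (subPoint e w j)
      have a1 : R.redFst (subPoint e w j) = 0 := by
        rw [← pointTuple_liftHom, z1, map_zero]; rfl
      have a2 : R.redSnd (subPoint e w j) = 0 := by
        rw [← pointTuple_liftHom, z2, map_zero]; rfl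
      rw [a1, a2, coe_subPoint] at h
      exact h
    obtain ⟨r, hr, hrm⟩ := exists_eisenPrime T hV
    choose x hx hxe using fun j => R.monodromy r hr (m := k)
      ((natCast_zsmul _ _).symm.trans (Pic0.mem_torsion.mp (pointTuple e w.1 j).2)) (hpt j)
    have hmem : ∀ j, x j ∈ Pic0.torsion Qbar (modularFunctionFieldBar (T.level V)) (p ^ k) :=
      fun j => Pic0.mem_torsion.mpr ((natCast_zsmul _ _).trans (hx j))
    refine ⟨cls T hχ ((pointTuple (N := T.level V) e).symm fun j => ⟨x j, hmem j⟩)
      (⟨_, hrm⟩ * (t₁ * t₂ * s * s)), ?_⟩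
    have hzw : (z : T.H V A) = cls T hχ w.1 (t₁ * t₂ * s * s) := by
      rw [hz, cls_def, latLoc, w1, ← LocalizedModule.mk_cancel_common_left (t₁ * t₂ * s) s,
        Submonoid.smul_def]
    rw [hzw, cls_eq_eisen T hχ e hrm w.1, monHom_cls]
    refine congrArg (cls T hχ · _) ?_
    apply (pointTuple (N := T.level V) e).injective
    funext j
    rw [map_sub, Pi.sub_apply, pointTuple_coordAct, pointTuple_symm_apply, pointTuple_coordAct]
    refine Subtype.ext ?_
    rw [AddSubgroupClass.coe_sub, coe_galTors, eisTors, coe_torsRestrict]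
    exact hxe j
  · rintro ⟨x, hx⟩
    obtain ⟨v, s, rfl⟩ := exists_cls T hχ e hV x
    rw [monHom_cls] at hx
    have hpt : ∀ j, RowSplit (level_erase T ha) p σ₀ φ
        ((pointTuple e (coordAct (O := O) (galTors (T.level V) (p ^ k) σ₀) v - v) j) :
          JZero (T.level V)) 0 := fun j => by
      rw [map_sub, Pi.sub_apply, pointTuple_coordAct, AddSubgroupClass.coe_sub, coe_galTors]
      exact RowSplit.mon (k := k)
        ((natCast_zsmul _ _).symm.trans (Pic0.mem_torsion.mp (pointTuple e v j).2))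
    rw [rowRed_eq T hχ e hV ha R (v := ⟨_, fun j => ⟨_, hpt j⟩⟩) hx.symm]
    have e1 : liftHom e R.redSnd (⟨_, fun j => ⟨_, hpt j⟩⟩ : splitCoords T e ha) = 0 := by
      apply (pointTuple (N := T.level (V.erase a)) e).injective; funext j
      rw [pointTuple_liftHom, map_zero]
      exact Subtype.ext (R.red_eq _ (y := (0, 0)) (by rw [coe_subPoint]; exact hpt j)).2
    have e2 : liftHom e R.redFst (⟨_, fun j => ⟨_, hpt j⟩⟩ : splitCoords T e ha) = 0 := by
      apply (pointTuple (N := T.level (V.erase a)) e).injective; funext j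
      rw [pointTuple_liftHom, map_zero]
      exact Subtype.ext (R.red_eq _ (y := (0, 0)) (by rw [coe_subPoint]; exact hpt j)).1
    rw [e1, e2, cls_def, map_zero, LocalizedModule.zero_mk, smul_zero]
    rfl

end Row

end Fermat.Agent.TwoAdic.Geometry

end
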