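import Fermat.Agent.TwoAdic.Geometry.FrobRed
import Fermat.Agent.TwoAdic.Geometry.Bridge.Setup
import Fermat.Agent.XHLite.Glue.GenusCount

/-!
# The rows on the torsion of `J₀(M q)`

The rows at `q` on the `p`-power torsion of `J₀(M q)`. A class is split when it is a sum of
pullbacks from level `M` and a monodromy class; the reductions of a split class are read off the
pullbacks, so they commute with every map commuting with pullbacks and Galois.
-/

set_option autoImplicit false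
set_option linter.unusedSectionVars false

noncomputable section

open IsLocalRing AlgebraicCurve ModularCurve

namespace Fermat.Agent.TwoAdic.Geometry

local notation "Qbar" => AlgebraicClosure ℚ

section Split

variable {M q N : ℕ} [NeZero M] [NeZero q] [NeZero N]

/-- The pair of pullbacks to level `N = M q`. -/
def pairPull (h : M * q = N) : JZero M × JZero M →+ JZero N :=
  (resPic (Dvd.intro q h)).coprod (Bridge.betaPic h)

theorem pairPull_apply (h : M * q = N) (u : JZero M × JZero M) :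
    pairPull h u = resPic (Dvd.intro q h) u.1 + Bridge.betaPic h u.2 := rfl

variable (M) in
/-- The twisted Frobenius `q φ⁻¹`. -/
def vPic (q : ℕ) (φ : Qbar ≃ₐ[ℚ] Qbar) : JZero M →+ JZero M :=
  (nsmulAddMonoidHom q).comp (DistribSMul.toAddMonoidHom (JZero M) φ⁻¹)

theorem vPic_apply (φ : Qbar ≃ₐ[ℚ] Qbar) (x : JZero M) : vPic M q φ x = q • (φ⁻¹ • x) := rfl

variable (M) in
/-- The reductions of a pair of pullbacks. -/
def mixPic (q : ℕ) (φ : Qbar ≃ₐ[ℚ] Qbar) : JZero M × JZero M →+ JZero M × JZero M :=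
  ((AddMonoidHom.fst _ _) + (vPic M q φ).comp (AddMonoidHom.snd _ _)).prod
    ((vPic M q φ).comp (AddMonoidHom.fst _ _) + AddMonoidHom.snd _ _)

theorem mixPic_apply (φ : Qbar ≃ₐ[ℚ] Qbar) (u : JZero M × JZero M) :
    mixPic M q φ u = (u.1 + vPic M q φ u.2, vPic M q φ u.1 + u.2) := rfl

/-- `x` is split at `q` with reductions `y`. -/
def RowSplit (h : M * q = N) (p : ℕ) (σ₀ φ : Qbar ≃ₐ[ℚ] Qbar) (x : JZero N)
    (y : JZero M × JZero M) : Prop :=
  ∃ (u : JZero M × JZero M) (e : JZero N) (k : ℕ), p ^ k • u = 0 ∧ p ^ k • e = 0 ∧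
    x = pairPull h u + (σ₀ • e - e) ∧ y = mixPic M q φ u

variable {h : M * q = N} {p : ℕ} {σ₀ φ : Qbar ≃ₐ[ℚ] Qbar}

theorem gal_smul_zero (σ : Qbar ≃ₐ[ℚ] Qbar) : σ • (0 : JZero N) = 0 :=
  map_zero (DistribSMul.toAddMonoidHom (JZero N) σ)

/-- `p ^ (k + k')` kills what `p ^ k` kills. -/
theorem pow_kill {G : Type*} [AddCommMonoid G] {k : ℕ} {x : G} (hx : p ^ k • x = 0) (k' : ℕ) :
    p ^ (k + k') • x = 0 := by rw [pow_add, mul_comm, mul_smul, hx, smul_zero]

/-- `p ^ (k + k')` kills what `p ^ k'` kills. -/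
theorem pow_kill' {G : Type*} [AddCommMonoid G] {k' : ℕ} {x : G} (hx : p ^ k' • x = 0) (k : ℕ) :
    p ^ (k + k') • x = 0 := by rw [pow_add, mul_smul, hx, smul_zero]

theorem RowSplit.zero : RowSplit h p σ₀ φ 0 0 :=
  ⟨0, 0, 0, smul_zero _, smul_zero _, by rw [map_zero, gal_smul_zero, sub_zero, add_zero],
    (map_zero _).symm⟩

theorem RowSplit.add {x x' : JZero N} {y y' : JZero M × JZero M}
    (hx : RowSplit h p σ₀ φ x y) (hx' : RowSplit h p σ₀ φ x' y') :
    RowSplit h p σ₀ φ (x + x') (y + y') := by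
  obtain ⟨u, e, k, hu, he, rfl, rfl⟩ := hx
  obtain ⟨u', e', k', hu', he', rfl, rfl⟩ := hx'
  refine ⟨u + u', e + e', k + k', ?_, ?_, ?_, (map_add _ _ _).symm⟩
  · rw [nsmul_add, pow_kill hu, pow_kill' hu', add_zero]
  · rw [nsmul_add, pow_kill he, pow_kill' he', add_zero]
  · rw [map_add, smul_add]
    abel

theorem RowSplit.neg {x : JZero N} {y : JZero M × JZero M} (hx : RowSplit h p σ₀ φ x y) :
    RowSplit h p σ₀ φ (-x) (-y) := by
  obtain ⟨u, e, k, hu, he, rfl, rfl⟩ := hx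
  refine ⟨-u, -e, k, by rw [neg_nsmul, hu, neg_zero], by rw [neg_nsmul, he, neg_zero], ?_,
    (map_neg _ _).symm⟩
  rw [map_neg, smul_neg]
  abel

theorem RowSplit.nsmul {x : JZero N} {y : JZero M × JZero M} (hx : RowSplit h p σ₀ φ x y) :
    ∀ j : ℕ, RowSplit h p σ₀ φ (j • x) (j • y)
  | 0 => by rw [zero_nsmul, zero_nsmul]; exact RowSplit.zero
  | j + 1 => by rw [succ_nsmul, succ_nsmul]; exact (RowSplit.nsmul hx j).add hx

/-- A monodromy class is split with zero reductions. -/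
theorem RowSplit.mon {e : JZero N} {k : ℕ} (he : p ^ k • e = 0) :
    RowSplit h p σ₀ φ (σ₀ • e - e) 0 :=
  ⟨0, e, k, smul_zero _, he, by rw [map_zero, zero_add], (map_zero _).symm⟩

/-- The reductions of a pair of pullbacks. -/
theorem RowSplit.pull {u : JZero M × JZero M} {k : ℕ} (hu : p ^ k • u = 0) :
    RowSplit h p σ₀ φ (pairPull h u) (mixPic M q φ u) :=
  ⟨u, 0, k, hu, smul_zero _, by rw [gal_smul_zero, sub_zero, add_zero], rfl⟩

/-- Maps commuting with the pullbacks, with `σ₀` and with `φ` commute with the reductions. -/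
theorem RowSplit.map {M' N' : ℕ} [NeZero M'] [NeZero N'] {h' : M' * q = N'}
    {g : JZero N →+ JZero N'} {g₀ : JZero M →+ JZero M'}
    (hg : ∀ (k : ℕ) e, p ^ k • e = 0 → g (σ₀ • e) = σ₀ • g e)
    (hg₀ : ∀ x, g₀ (φ⁻¹ • x) = φ⁻¹ • g₀ x)
    (hα : ∀ (k : ℕ) u, p ^ k • u = 0 →
      g (resPic (Dvd.intro q h) u) = resPic (Dvd.intro q h') (g₀ u))
    (hβ : ∀ (k : ℕ) u, p ^ k • u = 0 → g (Bridge.betaPic h u) = Bridge.betaPic h' (g₀ u))
    {x : JZero N} {y : JZero M × JZero M} (hx : RowSplit h p σ₀ φ x y) :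
    RowSplit h' p σ₀ φ (g x) (g₀ y.1, g₀ y.2) := by
  obtain ⟨u, e, k, hu, he, rfl, rfl⟩ := hx
  refine ⟨(g₀ u.1, g₀ u.2), g e, k, ?_, ?_, ?_, ?_⟩
  · rw [Prod.smul_mk, ← map_nsmul, ← map_nsmul]
    exact Prod.ext (by rw [← Prod.smul_fst, hu]; exact map_zero g₀)
      (by rw [← Prod.smul_snd, hu]; exact map_zero g₀)
  · rw [← map_nsmul, he, map_zero]
  · rw [map_add, map_sub, hg k e he, pairPull_apply, pairPull_apply, map_add,
      hα k _ (by rw [← Prod.smul_fst, hu]; rfl), hβ k _ (by rw [← Prod.smul_snd, hu]; rfl)]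
  · rw [mixPic_apply, mixPic_apply, vPic_apply, vPic_apply, vPic_apply, vPic_apply]
    simp only [map_add, map_nsmul, hg₀]

theorem pairPull_galois (h : M * q = N) (σ : Qbar ≃ₐ[ℚ] Qbar) (u : JZero M × JZero M) :
    σ • pairPull h u = pairPull h (σ • u.1, σ • u.2) := by
  rw [pairPull_apply, pairPull_apply, resPic_galois, Bridge.betaPic_galois, smul_add]

end Split

section Fibre

open Fermat.Agent.FunctionFieldRR Fermat.Agent.Reduction Fermat.Agent.SemistableRed
  Fermat.Agent.MazurPrinciple Fermat.Agent.ToricRows Fermat.Agent.Congruence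

variable {A : ValuationSubring Qbar} {M q : ℕ} [NeZero M] [NeZero q] [Fact q.Prime]
  [CharP (ResidueField A) q] [IsAlgClosed (ResidueField A)] (S : Setting A M q)
  [IsFunctionField Qbar (modularFunctionFieldBar (M * q))]
  [IsFunctionField (ResidueField A) (modularFunctionFieldFullC (ResidueField A) M)]
  [HasPrincipalDivisors Qbar (modularFunctionFieldBar M)]
  [HasPrincipalDivisors (ResidueField A) (modularFunctionFieldFullC (ResidueField A) M)]
  {p : ℕ} [Fact p.Prime] (hpq : p ≠ q)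
  (hcount : 12 * ((genus0 (M * q) : ℤ) + 1 - 2 * genus0 M) = ((q : ℤ) - 1) * dedekindPsi M)
  {σ₀ φ : Qbar ≃ₐ[ℚ] Qbar} (hσ₀ : TameInertia.IsTameGenerator A p q σ₀)
  (hφ : A.IsFrobeniusAt φ q)

local notation "gal" => arithmeticGalois (modularFunctionFieldFull (M * q))
local notation "red" => reductionModL A M

include S hσ₀ hpq in
/-- Torsion from level `M` is fixed by `σ₀`. -/
theorem smul_eq_of_level {k : ℕ} {y : JZero M} (hy : p ^ k • y = 0) : σ₀ • y = y := by
  have hqMp : ¬ q ∣ M * p := fun h => (S.prime.dvd_mul.mp h).elim S.not_dvd fun h' =>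
    hpq ((Nat.prime_dvd_prime_iff_eq S.prime Fact.out).mp h').symm
  exact (SemistableRed.allRelations M p).inertia q S.prime hqMp A S.above σ₀ hσ₀.1 y ⟨k, hy⟩

include S hφ in
/-- On the special fibre the twisted Frobenius pullback is the pullback along `π`. -/
theorem red_vPic (x : JZero M) :
    red (vPic M q φ x) = piPic (A := A) (M := M) (q := q) (red x) := by
  have : CharP (modularFunctionFieldFullC (ResidueField A) M) q :=
    charP_of_injective_algebraMap (algebraMap (ResidueField A) _).injective q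
  obtain ⟨h, -, -⟩ := exists_redMap_modL S
  rw [vPic_apply, map_nsmul, piPic_eq]
  refine congrArg (q • ·) (eq_inv_smul_iff.mpr ?_)
  rw [← reductionModL_frob h hφ, smul_inv_smul]

include S hφ in
/-- The reductions of a pullback from level `M`. -/
theorem isRedClass_pairPull {k : ℕ} {u : JZero M × JZero M} (hu : p ^ k • u = 0) :
    IsRedClass S.splitModel p (pairPull rfl u)
      ![red (mixPic M q φ u).1, red (mixPic M q φ u).2] := by
  have h1 := isRedClass_alpha S k (y := u.1) (by rw [← Prod.smul_fst, hu]; rfl)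
  have h2 := isRedClass_beta S k (y := u.2) (by rw [← Prod.smul_snd, hu]; rfl)
  have e1 : resPic (Dvd.intro q rfl) u.1 = pullPic (heckeAlphaBar Qbar M q) u.1 := by
    rw [resPic, inclBar_eq_heckeAlphaBar]
  rw [pairPull_apply, e1, Bridge.betaPic_rfl]
  convert h1.add h2 using 1
  rw [mixPic_apply, map_add, map_add, red_vPic S hφ, red_vPic S hφ]
  funext i
  fin_cases i <;> simp

include S hpq hcount hσ₀ in
/-- The hypotheses of the rows hold for the split model. -/
theorem rowHyp' : RowHyp S.splitModel p (gal σ₀) (1 : SemilinearAut (ResidueField A)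
      (modularFunctionFieldFullC (ResidueField A) M)) (2 * genus0 M) :=
  ToricRows.rowHyp S hcount Fact.out hpq hσ₀

include S hpq hcount hσ₀ in
/-- Monodromy classes are toric. -/
theorem monodromy_mem_toric {k : ℕ} {e : JZero (M * q)} (he : p ^ k • e = 0) :
    σ₀ • e - e ∈ toric S.splitModel p (rowHyp' S hpq hcount hσ₀).ne_zero := by
  rw [galois_smul_pic0_def]
  exact monOp_mem_toric _ (rowHyp' S hpq hcount hσ₀).compatible
    (rowHyp' S hpq hcount hσ₀).triv he

include S hpq hcount hσ₀ in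
/-- A monodromy class is fixed. -/
theorem smul_monodromy {k : ℕ} {e : JZero (M * q)} (he : p ^ k • e = 0) :
    σ₀ • (σ₀ • e - e) = σ₀ • e - e := by
  have h := smul_eq_of_toric _ (rowHyp' S hpq hcount hσ₀).compatible
    (rowHyp' S hpq hcount hσ₀).triv (monodromy_mem_toric S hpq hcount hσ₀ he)
  rwa [← galois_smul_pic0_def] at h

include S hpq hcount hσ₀ hφ in
/-- A split class has the reductions of its splitting. -/
theorem RowSplit.isRedClass {x : JZero (M * q)} {y : JZero M × JZero M}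
    (hx : RowSplit rfl p σ₀ φ x y) :
    IsRedClass S.splitModel p x ![red y.1, red y.2] ∧ ∃ k, p ^ k • y = 0 := by
  obtain ⟨u, e, k, hu, he, rfl, rfl⟩ := hx
  refine ⟨?_, k, by rw [← map_nsmul, hu, map_zero]⟩
  have h := (isRedClass_pairPull S hφ hu).add
    ((isRedClass_zero_iff _).mpr (monodromy_mem_toric S hpq hcount hσ₀ he))
  rwa [add_zero] at h

include S hpq in
/-- Reduction is injective on `p`-power torsion. -/
theorem reductionModL_injOn {k : ℕ} {x y : JZero M} (hx : p ^ k • x = 0) (hy : p ^ k • y = 0)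
    (h : red x = red y) : x = y :=
  (ResidualTorsion.reductionModL_bijOn S.not_dvd S.above Fact.out hpq
    (fun x => MWJ0.jZero_divisible M (Fact.out : p.Prime).ne_zero x) k).injOn hx hy h

include S hpq hcount hσ₀ hφ in
/-- The reductions of a split class are unique. -/
theorem RowSplit.unique {x : JZero (M * q)} {y y' : JZero M × JZero M}
    (hx : RowSplit rfl p σ₀ φ x y) (hx' : RowSplit rfl p σ₀ φ x y') : y = y' := by
  obtain ⟨h, k, hk⟩ := hx.isRedClass S hpq hcount hσ₀ hφ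
  obtain ⟨h', k', hk'⟩ := hx'.isRedClass S hpq hcount hσ₀ hφ
  have e := h.unique (Fact.out : p.Prime).ne_zero h'
  have hk1 : p ^ (k + k') • y = 0 := by rw [pow_add, mul_comm, mul_smul, hk, smul_zero]
  have hk2 : p ^ (k + k') • y' = 0 := by rw [pow_add, mul_smul, hk', smul_zero]
  refine Prod.ext ?_ ?_
  · exact reductionModL_injOn S hpq (by rw [← Prod.smul_fst, hk1]; rfl)
      (by rw [← Prod.smul_fst, hk2]; rfl) (congrFun e 0)
  · exact reductionModL_injOn S hpq (by rw [← Prod.smul_snd, hk1]; rfl)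
      (by rw [← Prod.smul_snd, hk2]; rfl) (congrFun e 1)

include S hpq hφ in
/-- The pairs of pullbacks have all pairs of torsion classes as reductions. -/
theorem exists_mixPic_eq {m : ℕ} {y : JZero M × JZero M} (hy : p ^ m • y = 0) :
    ∃ (k : ℕ) (u : JZero M × JZero M), p ^ k • u = 0 ∧ mixPic M q φ u = y := by
  set V := vPic M q φ with hV
  set Φ := DistribSMul.toAddMonoidHom (JZero M) φ
  have hy1 : p ^ m • y.1 = 0 := by rw [← Prod.smul_fst, hy]; rfl
  have hy2 : p ^ m • y.2 = 0 := by rw [← Prod.smul_snd, hy]; rfl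
  have hz : p ^ m • (φ • φ • (y.1 - V y.2)) = 0 := by
    show p ^ m • Φ (Φ _) = 0
    rw [← map_nsmul, ← map_nsmul, nsmul_sub, ← map_nsmul, hy1, hy2, map_zero, sub_zero, map_zero,
      map_zero]
  obtain ⟨k, w, hw, hwz⟩ := exists_sq_sub_sq_eq S.not_dvd hpq S.above hφ hz
  have hw1 : w - V (V w) = y.1 - V y.2 := by
    apply (MulAction.injective (φ : Qbar ≃ₐ[ℚ] Qbar))
    apply (MulAction.injective (φ : Qbar ≃ₐ[ℚ] Qbar))
    show φ • φ • (w - V (V w)) = φ • φ • (y.1 - V y.2)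
    rw [← hwz, hV, vPic_apply, vPic_apply]
    show Φ (Φ (w - q • (φ⁻¹ • (q • φ⁻¹ • w)))) = _
    rw [show φ⁻¹ • (q • φ⁻¹ • w) = q • (φ⁻¹ • φ⁻¹ • w) from
      map_nsmul (DistribSMul.toAddMonoidHom (JZero M) φ⁻¹) q _, ← mul_smul q q,
      map_sub, map_sub, map_nsmul, map_nsmul]
    refine congrArg₂ (· - ·) rfl ?_
    show (q * q) • (φ • φ • φ⁻¹ • φ⁻¹ • w) = _
    rw [smul_inv_smul, smul_inv_smul, ← natCast_zsmul, Nat.cast_mul, ← sq]
  refine ⟨k + m, (w, y.2 - V w), ?_, ?_⟩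
  · have h1 : p ^ (k + m) • w = 0 := by rw [pow_add, mul_comm, mul_smul, hw, smul_zero]
    refine Prod.ext h1 ?_
    show p ^ (k + m) • (y.2 - V w) = 0
    rw [nsmul_sub, ← map_nsmul, h1, map_zero, sub_zero, pow_add, mul_smul, hy2, smul_zero]
  · rw [mixPic_apply, ← hV]
    refine Prod.ext ?_ (add_sub_cancel _ _)
    show w + V (y.2 - V w) = y.1
    rw [map_sub, ← add_sub_assoc, add_comm, add_sub_assoc, hw1, add_sub_cancel]

include S hpq hcount hσ₀ hφ in
/-- A fixed class with reductions is split. -/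
theorem exists_rowSplit_of_isRedClass {j : ℕ} {x : JZero (M * q)} (hx : p ^ j • x = 0)
    {E : Fin 2 → JZeroC (ResidueField A) M} (hE : IsRedClass S.splitModel p x E) :
    ∃ y, RowSplit rfl p σ₀ φ x y := by
  have hp0 := (Fact.out : p.Prime).ne_zero
  have hEj : ∀ i, p ^ j • E i = 0 := fun i => by
    have h := hE.nsmul (p ^ j)
    rw [hx] at h
    exact congrFun (h.unique hp0 isRedClass_zero) i
  have hsurj := (ResidualTorsion.reductionModL_bijOn S.not_dvd S.above Fact.out hpq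
    (fun x => MWJ0.jZero_divisible M hp0 x) j).surjOn
  obtain ⟨a, ha, hae⟩ := hsurj (hEj 0)
  obtain ⟨b, hb, hbe⟩ := hsurj (hEj 1)
  have hy : p ^ j • ((a, b) : JZero M × JZero M) = 0 := Prod.ext ha hb
  obtain ⟨k, u, hu, hue⟩ := exists_mixPic_eq S hpq hφ hy
  have hred := (hE.add ((isRedClass_pairPull S hφ hu).neg hp0))
  have h0 : E + -![red (mixPic M q φ u).1, red (mixPic M q φ u).2] = 0 := by
    rw [hue]
    funext i
    fin_cases i <;> simp [hae, hbe]
  rw [h0] at hred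
  set H := rowHyp' S hpq hcount hσ₀
  have hT := (isRedClass_zero_iff H.ne_zero).mp hred
  obtain ⟨k', e, he, hex⟩ := H.rowData.T_le_monImage (j + k)
    (show x + -pairPull rfl u ∈ lev p (toric S.splitModel p H.ne_zero) (j + k) from ⟨hT, by
      show p ^ (j + k) • (x + -pairPull rfl u) = 0
      rw [nsmul_add, neg_nsmul, ← map_nsmul, pow_kill' hu, pow_kill hx, map_zero, neg_zero,
        add_zero]⟩)
  refine ⟨_, u, e, k + k', ?_, ?_, ?_, rfl⟩
  · rw [pow_add, mul_comm, mul_smul, hu, smul_zero]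
  · rw [pow_add, mul_smul]; exact (congrArg _ he).trans (smul_zero _)
  · rw [galois_smul_pic0_def, show gal σ₀ • e - e = x + -pairPull rfl u from hex]
    abel

include S hpq hcount hσ₀ hφ in
/-- Split classes are fixed. -/
theorem RowSplit.fixed {x : JZero (M * q)} {y : JZero M × JZero M}
    (hx : RowSplit rfl p σ₀ φ x y) : σ₀ • x = x := by
  obtain ⟨u, e, k, hu, he, rfl, -⟩ := hx
  rw [smul_add, pairPull_galois, smul_monodromy S hpq hcount hσ₀ he,
    smul_eq_of_level S hpq hσ₀ (k := k) (by rw [← Prod.smul_fst, hu]; rfl),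
    smul_eq_of_level S hpq hσ₀ (k := k) (by rw [← Prod.smul_snd, hu]; rfl)]

include S hpq hcount hσ₀ hφ in
/-- Every pair of torsion classes of level `p ^ m` is the pair of reductions of a split class of
level `p ^ m`. -/
theorem exists_rowSplit {m : ℕ} {y : JZero M × JZero M} (hy : p ^ m • y = 0) :
    ∃ x : JZero (M * q), p ^ m • x = 0 ∧ RowSplit rfl p σ₀ φ x y := by
  have hy1 : p ^ m • y.1 = 0 := by rw [← Prod.smul_fst, hy]; rfl
  have hy2 : p ^ m • y.2 = 0 := by rw [← Prod.smul_snd, hy]; rfl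
  obtain ⟨x, hx, -, hE⟩ := (rowHyp' S hpq hcount hσ₀).exists_red_eq m
    (y := ![red y.1, red y.2]) (funext fun i => by
      fin_cases i <;> simp [← map_nsmul, hy1, hy2])
  obtain ⟨y', hy'⟩ := exists_rowSplit_of_isRedClass S hpq hcount hσ₀ hφ hx hE
  obtain ⟨h', k, hk⟩ := hy'.isRedClass S hpq hcount hσ₀ hφ
  have e := h'.unique (Fact.out : p.Prime).ne_zero hE
  have hk1 : p ^ (k + m) • y' = 0 := by rw [pow_add, mul_comm, mul_smul, hk, smul_zero]
  obtain rfl : y' = y := Prod.ext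
    (reductionModL_injOn S hpq (by rw [← Prod.smul_fst, hk1]; rfl)
      (by rw [pow_add, mul_smul, hy1, smul_zero]) (congrFun e 0))
    (reductionModL_injOn S hpq (by rw [← Prod.smul_snd, hk1]; rfl)
      (by rw [pow_add, mul_smul, hy2, smul_zero]) (congrFun e 1))
  exact ⟨x, hx, hy'⟩

variable {ℓ : Nat.Primes} (hℓN : ¬ (ℓ : ℕ) ∣ M * q)

/-- The Eisenstein operator at `ℓ`. -/
def eisPic (N : ℕ) [NeZero N] (ℓ : Nat.Primes) : JZero N →+ JZero N :=
  (heckeOperatorBar N ℓ).toAddMonoidHom - (((ℓ : ℕ) + 1 : ℕ) • AddMonoidHom.id (JZero N))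

theorem eisPic_apply {N : ℕ} [NeZero N] (x : JZero N) :
    eisPic N ℓ x = heckeOperatorBar N ℓ x - ((ℓ : ℕ) + 1) • x := rfl

theorem eisPic_galois {N : ℕ} [NeZero N] (σ : Qbar ≃ₐ[ℚ] Qbar) (x : JZero N) :
    eisPic N ℓ (σ • x) = σ • eisPic N ℓ x := by
  rw [eisPic_apply, eisPic_apply, HeckeJ0.heckeGaloisEquivariant N σ ℓ x]
  exact (congrArg _ (map_nsmul (DistribSMul.toAddMonoidHom (JZero N) σ) _ x).symm).trans
    (map_sub (DistribSMul.toAddMonoidHom (JZero N) σ) _ _).symm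

include S hpq hcount hσ₀ hℓN in
/-- `T_ℓ - ℓ - 1` gives fixed classes reductions. -/
theorem exists_isRedClass_eisPic {j : ℕ} {x : JZero (M * q)} (hx : p ^ j • x = 0)
    (hfix : σ₀ • x = x) : ∃ E, IsRedClass S.splitModel p (eisPic (M * q) ℓ x) E := by
  have : CharP (modularFunctionFieldFullC (ResidueField A) M) q :=
    charP_of_injective_algebraMap (algebraMap (ResidueField A) _).injective q
  have : NeZero (ℓ : ℕ) := ⟨ℓ.2.ne_zero⟩
  obtain ⟨U⟩ := LevelP.nonempty_levelUnit S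
  obtain ⟨hI, R, hR⟩ := exists_redMap_modL S
  have hcop : ∀ z (hz : z ∈ S.splitModel.pairs), (p ^ j).Coprime (pairAt U hz).e := fun z hz => by
    rw [pairData_e_eq_one S hcount U hz (pairAt U hz)]
    exact Nat.coprime_one_right _
  have hfix' : ∀ σ ∈ A.inertiaSubgroupIn ℚ, σ • x = x := fun σ hσ =>
    fixed_of_tameGenerator S.not_dvd Fact.out hpq S.above hσ₀ hx hfix hσ
  obtain ⟨ξ, u, D₀, ⟨hu, D, hD, hDu⟩, hui, hur, -, hd⟩ :=
    exists_lifted U R (pow_ne_zero j (Fact.out : p.Prime).ne_zero) hcop hx hfix' ℓ.2 hℓN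
  have hy : Pic0.mk D = eisPic (M * q) ℓ x := by
    rw [hD, eisPic_apply, heckeOperatorBar_apply]
  obtain ⟨c, hc, hcr⟩ := S.splitModel.normalise 1 u hu
  let d : Datum S.splitModel p j (eisPic (M * q) ℓ x) :=
    { D := D
      u := u
      c := ![1, c]
      mk_D := hy
      u_ne := hu
      ord_u := hDu
      int := fun i => by
        fin_cases i
        · show S.splitModel.Int 0 ((1 : Qbar) • u); rwa [one_smul]
        · exact hc
      red_ne := fun i => by
        fin_cases i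
        · show S.splitModel.red 0 ((1 : Qbar) • u) ≠ 0; rwa [one_smul]
        · exact hcr }
  have h0 : ∀ P, ((p ^ j : ℕ) : ℤ) ∣ d.redOrd 0 P := fun P => by
    show _ ∣ P.ord (S.splitModel.red 0 ((1 : Qbar) • u))
    rw [one_smul, ← dvs_apply, hd, Finsupp.smul_apply, smul_eq_mul]
    exact dvd_mul_right _ _
  set H := rowHyp' S hpq hcount hσ₀
  obtain ⟨τ, t1, t2, t3, t4⟩ := H.law j _ d (by
    rw [← galois_smul_pic0_def, ← eisPic_galois, hfix])
  obtain ⟨z, hz⟩ := H.pairs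
  obtain hPQ := S.splitModel.mem_pairs.mp hz
  have hτ : ((p ^ j : ℕ) : ℤ) ∣ τ := by
    have := dvd_sub (h0 z.1) (t1 z.1 ⟨z.2, hPQ⟩)
    rwa [sub_sub_cancel] at this
  refine exists_redClass_of_dvd (Fact.out : p.Prime).ne_zero d fun i P => ?_
  fin_cases i
  · exact h0 P
  · by_cases hP : ∃ Q, S.splitModel.Pair Q P
    · exact (dvd_add_left hτ).mp (t2 P hP)
    · exact t4 P hP

include S hpq hcount hσ₀ hφ hℓN in
/-- `T_ℓ - ℓ - 1` splits fixed classes. -/
theorem exists_rowSplit_eisPic {j : ℕ} {x : JZero (M * q)} (hx : p ^ j • x = 0)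
    (hfix : σ₀ • x = x) : ∃ y, RowSplit rfl p σ₀ φ (eisPic (M * q) ℓ x) y := by
  obtain ⟨E, hE⟩ := exists_isRedClass_eisPic S hpq hcount hσ₀ hℓN hx hfix
  exact exists_rowSplit_of_isRedClass S hpq hcount hσ₀ hφ
    (by rw [← map_nsmul, hx, map_zero]) hE

include S hpq hcount hσ₀ hφ hℓN in
/-- A split class without reductions is monodromy of its level, after `T_ℓ - ℓ - 1`. -/
theorem exists_monodromy_eq {m : ℕ} {x : JZero (M * q)} (hx : p ^ m • x = 0)
    (hx0 : RowSplit rfl p σ₀ φ x 0) :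
    ∃ e : JZero (M * q), p ^ m • e = 0 ∧ σ₀ • e - e = eisPic (M * q) ℓ x := by
  have hT : x ∈ toric S.splitModel p (rowHyp' S hpq hcount hσ₀).ne_zero := by
    refine (isRedClass_zero_iff _).mp ?_
    obtain ⟨h, -⟩ := hx0.isRedClass S hpq hcount hσ₀ hφ
    convert h using 1
    funext i
    fin_cases i <;> simp
  obtain ⟨e, he, hee⟩ := (rowHyp' S hpq hcount hσ₀).exists_monOp_eq (eisPic (M * q) ℓ)
    (fun z => by rw [← galois_smul_pic0_def, ← galois_smul_pic0_def, eisPic_galois])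
    (fun j z hz hzf => exists_isRedClass_eisPic S hpq hcount hσ₀ hℓN hz
      (by rw [galois_smul_pic0_def]; exact hzf)) m hT hx
  exact ⟨e, he, by rw [galois_smul_pic0_def]; exact hee⟩

end Fibre

/-- The rows at `q` on the `p`-power torsion of `J₀(N)`, `N = M q`. -/
structure RowLaws {M q N : ℕ} [NeZero M] [NeZero q] [NeZero N] (h : M * q = N) (p : ℕ)
    (σ₀ φ : Qbar ≃ₐ[ℚ] Qbar) : Prop where
  /-- reductions are unique -/
  unique : ∀ {x y y'}, RowSplit h p σ₀ φ x y → RowSplit h p σ₀ φ x y' → y = y'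
  /-- reductions are onto at every level -/
  onto : ∀ {m : ℕ} {y}, p ^ m • y = 0 → ∃ x, p ^ m • x = 0 ∧ RowSplit h p σ₀ φ x y
  /-- split classes are fixed -/
  fixed : ∀ {x y}, RowSplit h p σ₀ φ x y → σ₀ • x = x
  /-- monodromy has square zero -/
  smul_mon : ∀ {k : ℕ} {e : JZero N}, p ^ k • e = 0 → σ₀ • (σ₀ • e - e) = σ₀ • e - e
  /-- torsion from level `M` is fixed -/
  level_fixed : ∀ {k : ℕ} {y : JZero M}, p ^ k • y = 0 → σ₀ • y = y
  /-- fixed classes split after `T_ℓ - ℓ - 1` -/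
  split : ∀ (ℓ : Nat.Primes), ¬ (ℓ : ℕ) ∣ N → ∀ {j : ℕ} {x : JZero N}, p ^ j • x = 0 →
    σ₀ • x = x → ∃ y, RowSplit h p σ₀ φ (eisPic N ℓ x) y
  /-- classes without reductions are monodromy after `T_ℓ - ℓ - 1` -/
  monodromy : ∀ (ℓ : Nat.Primes), ¬ (ℓ : ℕ) ∣ N → ∀ {m : ℕ} {x : JZero N}, p ^ m • x = 0 →
    RowSplit h p σ₀ φ x 0 → ∃ e, p ^ m • e = 0 ∧ σ₀ • e - e = eisPic N ℓ x

open Fermat.Agent.Reduction in
/-- The count at levels without elliptic points. -/
theorem twelve_mul_genus0_of_ne {M q : ℕ} [NeZero M] [NeZero q] (hq : q.Prime) (hqM : ¬ q ∣ M)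
    (h₄ : ∀ t : ZMod M, t ^ 2 + 1 ≠ 0) (h₃ : ∀ t : ZMod M, t ^ 2 + t + 1 ≠ 0) :
    12 * ((genus0 (M * q) : ℤ) + 1 - 2 * genus0 M) = ((q : ℤ) - 1) * dedekindPsi M := by
  have hd : M ∣ M * q := dvd_mul_right M q
  have n2 : nuTwo M = 0 := Nat.card_eq_zero.mpr (Or.inl ⟨fun t => h₄ t.1 t.2⟩)
  have n3 : nuThree M = 0 := Nat.card_eq_zero.mpr (Or.inl ⟨fun t => h₃ t.1 t.2⟩)
  have n2' : nuTwo (M * q) = 0 := Nat.card_eq_zero.mpr (Or.inl ⟨fun t => by
    have := congrArg (ZMod.castHom hd (ZMod M)) t.2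
    rw [map_add, map_pow, map_one, map_zero] at this
    exact h₄ _ this⟩)
  have n3' : nuThree (M * q) = 0 := Nat.card_eq_zero.mpr (Or.inl ⟨fun t => by
    have := congrArg (ZMod.castHom hd (ZMod M)) t.2
    rw [map_add, map_add, map_pow, map_one, map_zero] at this
    exact h₃ _ this⟩)
  have key : (12 : ℚ) * ((genus0 (M * q) : ℚ) + 1 - 2 * genus0 M) =
      ((q : ℚ) - 1) * dedekindPsi M := by
    rw [XHLite.genus0_eq J0Torsion.jEmb, XHLite.genus0_eq J0Torsion.jEmb, genusFormula,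
      genusFormula, n2, n3, n2', n3', XHLite.cuspCount_mul_prime hq hqM,
      Igusa.dedekindPsi_mul_prime_of_not_dvd hq hqM]
    push_cast
    ring
  rw [← Int.cast_inj (α := ℚ)]
  push_cast
  exact key

/-- **The rows hold** at levels without elliptic points. -/
theorem rowLaws {M q N : ℕ} [NeZero M] [NeZero q] [NeZero N] (h : M * q = N) {p : ℕ}
    [Fact p.Prime] (hq : q.Prime) (hqM : ¬ q ∣ M) (hpq : p ≠ q)
    (h₄ : ∀ t : ZMod M, t ^ 2 + 1 ≠ 0) (h₃ : ∀ t : ZMod M, t ^ 2 + t + 1 ≠ 0)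
    {A : ValuationSubring Qbar} (hA : A.LiesOverPrime q) {σ₀ φ : Qbar ≃ₐ[ℚ] Qbar}
    (hσ₀ : TameInertia.IsTameGenerator A p q σ₀) (hφ : A.IsFrobeniusAt φ q) :
    RowLaws h p σ₀ φ := by
  subst h
  have : Fact q.Prime := ⟨hq⟩
  have := ResidualTorsion.charP_residue hA
  have : IsAlgClosed (ResidueField A) := Reduction.isAlgClosed_residueField
  have := ResidualTorsion.isFunctionField_fullC hqM hA
  have := SemistableRed.isFunctionField_level (M * q)
  have := HeckeJ0.hasPrincipalDivisors_bar M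
  have : HasPrincipalDivisors (ResidueField A) (modularFunctionFieldFullC (ResidueField A) M) :=
    FunctionFieldRR.hasPrincipalDivisors
  have S : SemistableRed.Setting A M q := ⟨hqM, hA, ⟨_, IgusaGenus.reductionFacts hqM hA⟩⟩
  have hc := twelve_mul_genus0_of_ne hq hqM h₄ h₃
  exact
    { unique := fun hx hy => hx.unique S hpq hc hσ₀ hφ hy
      onto := fun hy => exists_rowSplit S hpq hc hσ₀ hφ hy
      fixed := fun hx => hx.fixed S hpq hc hσ₀ hφ
      smul_mon := fun he => smul_monodromy S hpq hc hσ₀ he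
      level_fixed := fun hy => smul_eq_of_level S hpq hσ₀ hy
      split := fun ℓ hℓ _ _ hx hfix => exists_rowSplit_eisPic S hpq hc hσ₀ hφ hℓ hx hfix
      monodromy := fun ℓ hℓ _ _ hx hx0 => exists_monodromy_eq S hpq hc hσ₀ hφ hℓ hx hx0 }

end Fermat.Agent.TwoAdic.Geometry

end
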